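import Fermat.Agent.LT.Theta.Setup
import Fermat.Agent.LT.Theta.CentralChar
import Fermat.Agent.LT.Theta.HeckeEigen
import Fermat.Agent.LT.Theta.PlaceCases

/-!
# The input of the theta construction with deep special places

The input is a family of local characters `θ v` of `Mˣ` with a product formula, unramified outside
a finite set `S` of places, where they are merely continuous.  The tame input extends the same core.
-/

set_option autoImplicit false

noncomputable section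

open IsDedekindDomain NumberField WithZero Filter
open scoped MatrixGroups

namespace FermatAgent.LT2.Theta

open FermatAgent.LT FermatAgent.LT.Theta

variable (L M : Type*) [Field L] [NumberField L] [Field M] [Algebra L M]
  [Algebra.IsQuadraticExtension L M]

/-- What every theta construction takes: a character of the ideles of `M` trivial on `Mˣ`, given
through its local components on `M`. -/
structure ThetaCore where
  /-- the special places -/
  S : Finset (HeightOneSpectrum (𝓞 L))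
  /-- the local components -/
  θ : HeightOneSpectrum (𝓞 L) → M →* ℂ
  unr : ∀ v ∉ S, Quad.IsUnr L M v
  /-- outside `S` the components are trivial on the units of the lattice -/
  θ_unr : ∀ v ∉ S, ∀ x ∈ Quad.lattice L M v, v.valuation L (Algebra.norm L x) = 1 → θ v x = 1
  /-- at `S` the components are trivial close to one -/
  θ_cont : ∀ v ∈ S, ∃ k : ℤ, ∀ x : M, x - 1 ∈ (Place.locQuad v M).lat k → θ v x = 1
  norm_θ : ∀ v x, x ≠ 0 → ‖θ v x‖ = 1
  /-- the product formula: the idele character is trivial on `Mˣ` -/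
  prod_θ : ∀ x : M, x ≠ 0 → ∏ᶠ v, θ v x = 1
  /-- on the base field `θ` is the quadratic character of `M/L` -/
  θ_inert : ∀ v ∉ S, Place.IsInert L M v → θ v (algebraMap L M (Place.unif v)) = -1
  θ_split : ∀ v ∉ S, ¬Place.IsInert L M v → θ v (algebraMap L M (Place.unif v)) = 1

variable {L M} in
/-- `θ` is nontrivial on a norm one torus, so it is not invariant under the conjugation of `M/L`. -/
def ThetaCore.IsTwisted (Θ : ThetaCore L M) : Prop :=
  ∃ v, ∃ h : M, Algebra.norm L h = 1 ∧ Θ.θ v h ≠ 1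

/-- The input with deep special places: moreover `θ` is nontrivial on some norm one torus. -/
structure ThetaDatum extends ThetaCore L M where
  twist : toThetaCore.IsTwisted

variable {L M}

namespace ThetaCore

variable (Θ : ThetaCore L M) (v : HeightOneSpectrum (𝓞 L))

/-- The local data at `v`. -/
def loc : LocQuad L M :=
  let _ := Θ
  Place.locQuad v M

/-- The special places are finite in number. -/
lemma eventually_not_mem : ∀ᶠ v in cofinite, v ∉ Θ.S := Θ.S.finite_toSet.compl_mem_cofinite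

/-- The local characters do not vanish. -/
lemma θ_ne_zero {x : M} (hx : x ≠ 0) : Θ.θ v x ≠ 0 := fun h => by
  simpa [h] using Θ.norm_θ v x hx

/-- Good places are unimodular. -/
lemma isUnimodular {v : HeightOneSpectrum (𝓞 L)} (hv : v ∉ Θ.S) : (Θ.loc v).IsUnimodular :=
  Place.isUnimodular (Θ.unr v hv)

lemma exists_sign_out {v : HeightOneSpectrum (𝓞 L)} (hv : v ∉ Θ.S) :
    ∃ (ε : ℂ) (hε : ε ≠ 0), (Θ.loc v).IsSignChar ((Θ.loc v).unrChar ε hε) ∧ ε * ε = 1 ∧
      (Place.IsInert L M v → ε = -1) ∧ (¬Place.IsInert L M v → ε = 1) := by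
  have hD := Θ.isUnimodular hv
  obtain ⟨ε, hε, hsq, hχ, hG⟩ := LocQuad.exists_sign_unimodular hD
  refine ⟨ε, hε, hχ, hsq, fun hi => ?_, fun hi => ?_⟩
  · exact LocQuad.sign_eq_neg_one hD (fun x hx hN => Place.mem_lat_one_iff.2 (hi x hx hN)) hsq hG
  · rcases Place.inert_or_split (Θ.unr v hv) with h | ⟨ϖ, hϖ, hT⟩
    · exact absurd (fun x hx hN => Place.mem_lat_one_iff.1 (h x hx hN)) hi
    · exact LocQuad.sign_eq_one hD hϖ.mem (by
        show v.valuation L (Algebra.norm L ϖ) < 1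
        rw [show v.valuation L (Algebra.norm L ϖ) = exp (-1 : ℤ) from hϖ.v_N, ← exp_zero,
          exp_lt_exp]
        norm_num) hT hsq hG

open Classical in
/-- The sign at an unramified place. -/
def sgn : ℂ := if hv : v ∉ Θ.S then (Θ.exists_sign_out hv).choose else 1

lemma sgn_spec {v : HeightOneSpectrum (𝓞 L)} (hv : v ∉ Θ.S) :
    ∃ hε : Θ.sgn v ≠ 0, (Θ.loc v).IsSignChar ((Θ.loc v).unrChar (Θ.sgn v) hε) ∧
      Θ.sgn v * Θ.sgn v = 1 ∧
      (Place.IsInert L M v → Θ.sgn v = -1) ∧ (¬Place.IsInert L M v → Θ.sgn v = 1) := by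
  have e : Θ.sgn v = (Θ.exists_sign_out hv).choose := dif_pos hv
  obtain ⟨hε, h⟩ := (Θ.exists_sign_out hv).choose_spec
  exact ⟨e ▸ hε, by simpa only [e] using h⟩

open Classical in
/-- The character of the base field at `v`: the restriction of `θ` at the special places, the sign
character elsewhere. -/
def χ : L →* ℂ :=
  if hv : v ∈ Θ.S then (Θ.θ v).comp (algebraMap L M : L →* M)
  else (Θ.loc v).unrChar (Θ.sgn v) (Θ.sgn_spec hv).choose

/-- The sign character at a special place. -/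
lemma χ_mem {v : HeightOneSpectrum (𝓞 L)} (hv : v ∈ Θ.S) (a : L) :
    Θ.χ v a = Θ.θ v (algebraMap L M a) := by
  rw [χ, dif_pos hv]; rfl

/-- The sign character at a good place. -/
lemma isSign_out {v : HeightOneSpectrum (𝓞 L)} (hv : v ∉ Θ.S) :
    (Θ.loc v).IsSignChar (Θ.χ v) := by
  rw [χ, dif_neg hv]
  exact (Θ.sgn_spec hv).choose_spec.1

/-- The sign character at a good place is unramified. -/
lemma χ_unr {v : HeightOneSpectrum (𝓞 L)} (hv : v ∉ Θ.S) :
    ∃ (ε : ℂ) (hε : ε ≠ 0), Θ.χ v = (Θ.loc v).unrChar ε hε ∧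
    ε * ε = 1 ∧ (Place.IsInert L M v → ε = -1) ∧ (¬Place.IsInert L M v → ε = 1) := by
  obtain ⟨-, h⟩ := (Θ.sgn_spec hv).choose_spec
  exact ⟨Θ.sgn v, (Θ.sgn_spec hv).choose, by rw [χ, dif_neg hv], h⟩

lemma χ_unit {v : HeightOneSpectrum (𝓞 L)} (hv : v ∉ Θ.S) {a : L} (ha : v.valuation L a = 1) :
    Θ.χ v a = 1 := by
  obtain ⟨ε, hε, e, -⟩ := Θ.χ_unr hv
  rw [e, LocQuad.unrChar_apply (Θ.loc v) hε (n := 0) (by rw [exp_zero]; exact ha), zpow_zero]

/-- The units `h` at `v` with `θ v h = 1`. -/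
def unitLevel : Subgroup Mˣ where
  carrier := {h | LocQuad.IsTame.IsU (Θ.loc v) (h : M) ∧ Θ.θ v (h : M) = 1}
  one_mem' := ⟨LocQuad.IsTame.isU_one, map_one _⟩
  mul_mem' := fun {a b} ha hb =>
    ⟨ha.1.mul hb.1, by rw [Units.val_mul, map_mul, ha.2, hb.2, one_mul]⟩
  inv_mem' := fun {a} ha => ⟨by rw [Units.val_inv_eq_inv_val]; exact ha.1.inv, by
    have := map_mul (Θ.θ v) (a : M) ((a⁻¹ : Mˣ) : M)
    rw [Units.mul_inv, map_one, ha.2, one_mul] at this
    exact this.symm⟩

omit [NumberField L] [Algebra.IsQuadraticExtension L M] in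
/-- Close to one means a unit of the lattice. -/
lemma isU_of_lat {D : LocQuad L M} {k : ℤ} (hk : 1 ≤ k) {h : M} (hh : h - 1 ∈ D.lat k) :
    LocQuad.IsTame.IsU D h := by
  have hh1 : h - 1 ∈ D.lat 1 := D.lat_mono hk hh
  have hy : h - 1 ∈ D.O := by rw [← D.lat_zero]; exact D.lat_mono (by omega) hh1
  refine ⟨by simpa using D.O.add_mem D.one_mem hy, ?_⟩
  have e : D.N h = 1 + (D.N (h - 1) + D.B 1 (h - 1)) := by
    conv_lhs => rw [show h = 1 + (h - 1) by ring]
    rw [LocQuad.N_add, LocQuad.N_one]; ring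
  rw [e, Valuation.map_add_eq_of_lt_left _ ?_, map_one]
  rw [map_one]
  refine Valuation.map_add_lt _ ?_ ?_
  · exact (D.v_N_le hh1).trans_lt (by rw [← exp_zero, exp_lt_exp]; norm_num)
  · exact (D.v_B_le (i := 0) (j := 1) (by rw [LocQuad.lat_zero]; exact D.one_mem) hh1).trans_lt
      (by rw [← exp_zero, exp_lt_exp]; norm_num)

lemma exists_θ_level : ∃ k : ℤ, 1 ≤ k ∧ ∀ x : M, x - 1 ∈ (Θ.loc v).lat k → Θ.θ v x = 1 := by
  by_cases hv : v ∈ Θ.S
  · obtain ⟨k, hk⟩ := Θ.θ_cont v hv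
    exact ⟨max k 1, le_max_right _ _, fun x hx =>
      hk x ((Place.locQuad v M).lat_mono (le_max_left k 1) hx)⟩
  · refine ⟨1, le_rfl, fun x hx => ?_⟩
    have h := isU_of_lat le_rfl hx
    exact Θ.θ_unr v hv x h.1 h.2

/-- A depth at which `θ` is trivial. -/
def depth : ℤ := (Θ.exists_θ_level v).choose

/-- The depth is positive. -/
lemma one_le_depth : 1 ≤ Θ.depth v := (Θ.exists_θ_level v).choose_spec.1

/-- The character is trivial at its depth. -/
lemma θ_depth {x : M} (hx : x - 1 ∈ (Θ.loc v).lat (Θ.depth v)) : Θ.θ v x = 1 :=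
  (Θ.exists_θ_level v).choose_spec.2 x hx

/-- The unit level is a torus level. -/
lemma isTorusLevel : (Θ.loc v).IsTorusLevel (Θ.θ v) (Θ.unitLevel v) :=
  ⟨fun _ h => h.1.1, fun _ h => h.2, Θ.depth v, fun _ hh =>
    ⟨isU_of_lat (Θ.one_le_depth v) hh, Θ.θ_depth v hh⟩⟩

/-- The unit level at a good place. -/
lemma unitLevel_eq {v : HeightOneSpectrum (𝓞 L)} (hv : v ∉ Θ.S) :
    Θ.unitLevel v = (Θ.loc v).latUnits := by
  ext h
  refine ⟨fun hh => ⟨hh.1.1, by rw [Units.val_inv_eq_inv_val]; exact hh.1.inv.1⟩, fun hh => ?_⟩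
  have hN := LocQuad.v_N_latUnits hh
  exact ⟨⟨hh.1, hN⟩, Θ.θ_unr v hv _ hh.1 hN⟩

/-- The spherical vector is invariant. -/
lemma isInv_sph : (Θ.loc v).IsInv (Θ.unitLevel v) (Θ.loc v).sph := fun h hh =>
  LocQuad.isInv_sph h ⟨hh.1.1, by rw [Units.val_inv_eq_inv_val]; exact hh.1.inv.1⟩

/-- The spherical vector is fixed by the maximal compact group. -/
lemma wAct_sph {v : HeightOneSpectrum (𝓞 L)} (hv : v ∉ Θ.S) {g : GL (Fin 2) L}
    (hg : ∀ i j, v.valuation L (g.val i j) ≤ 1) (hdet : v.valuation L g.val.det = 1) :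
    LocQuad.Agree ((Θ.loc v).wAct (Θ.χ v) g (Θ.loc v).sph) (Θ.loc v).sph := by
  obtain ⟨ε, hε, e, -⟩ := Θ.χ_unr hv
  have hχ := Θ.isSign_out hv
  rw [e] at hχ ⊢
  exact LocQuad.wAct_sph (Θ.isUnimodular hv) hχ hg hdet

/-- The character is trivial on units of the base at good places. -/
lemma θ_algebraMap_unit {v : HeightOneSpectrum (𝓞 L)} (hv : v ∉ Θ.S) {a : L}
    (ha : v.valuation L a = 1) : Θ.θ v (algebraMap L M a) = 1 :=
  Θ.θ_unr v hv _ (Quad.algebraMap_mem_lattice ha.le) (by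
    rw [Algebra.norm_algebraMap, Algebra.IsQuadraticExtension.finrank_eq_two, map_pow, ha, one_pow])

/-- On the base field `θ` restricts to `χ`. -/
theorem θ_base {a : L} (ha : a ≠ 0) : Θ.θ v (algebraMap L M a) = Θ.χ v a := by
  by_cases hv : v ∈ Θ.S
  · exact (Θ.χ_mem hv a).symm
  obtain ⟨n, hn⟩ := (Θ.loc v).exists_v_eq ha
  set π := Place.unif v
  have hπ0 : π ≠ 0 := Place.unif_ne_zero v
  obtain ⟨b, hb, rfl⟩ : ∃ b, v.valuation L b = 1 ∧ a = b * π ^ (-n) := by
    refine ⟨a * π ^ n, ?_, ?_⟩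
    · rw [map_mul, map_zpow₀, show v.valuation L a = exp n from hn, Place.v_unif, ← exp_zsmul,
        ← exp_add, ← exp_zero]
      congr 1
      simp
    · rw [mul_assoc, ← zpow_add₀ hπ0, add_neg_cancel, zpow_zero, mul_one]
  rw [map_mul, map_mul, Θ.θ_algebraMap_unit hv hb, map_mul, Θ.χ_unit hv hb, one_mul, one_mul]
  obtain ⟨ε, hε, e, hsq, hi, hs⟩ := Θ.χ_unr hv
  have hπε : Θ.θ v (algebraMap L M π) = Θ.χ v π := by
    have hχπ : Θ.χ v π = ε := by
      rw [e, LocQuad.unrChar_apply (Θ.loc v) hε (n := -1) (by exact Place.v_unif v)]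
      rw [zpow_neg_one]
      exact inv_eq_of_mul_eq_one_left hsq
    rw [hχπ]
    by_cases hin : Place.IsInert L M v
    · rw [Θ.θ_inert v hv hin, hi hin]
    · rw [Θ.θ_split v hv hin, hs hin]
  have key : ∀ k : ℤ, Θ.θ v (algebraMap L M (π ^ k)) = Θ.χ v (π ^ k) := by
    intro k
    have hinv : Θ.θ v (algebraMap L M π⁻¹) = Θ.χ v π⁻¹ := by
      have h1 : Θ.θ v (algebraMap L M π⁻¹) * Θ.θ v (algebraMap L M π) = 1 := by
        rw [← map_mul, ← map_mul, inv_mul_cancel₀ hπ0, map_one, map_one]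
      have h2 : Θ.χ v π⁻¹ * Θ.χ v π = 1 := by rw [← map_mul, inv_mul_cancel₀ hπ0, map_one]
      rw [hπε] at h1
      exact mul_right_cancel₀ (LocQuad.χ_ne_zero (Θ.isSign_out hv) hπ0) (h1.trans h2.symm)
    rcases Int.eq_nat_or_neg k with ⟨m, rfl | rfl⟩
    · rw [zpow_natCast, map_pow, map_pow, hπε, map_pow]
    · rw [_root_.zpow_neg, zpow_natCast, ← inv_pow, map_pow, map_pow, hinv, map_pow]
  exact key (-n)

end ThetaCore

end FermatAgent.LT2.Theta
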