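import Fermat.Agent.LT2.Theta.Form
import Fermat.Agent.LT.Base.PointKer
import Fermat.Agent.LT.Whit.Arch

/-!
# Hecke eigenvalues and radial eigenvalues

The theta form `phi` is an eigenfunction. Local sums of translates add up in the expansion
(`phi_local_sum`), so the local Hecke sums of Whittaker functions give the eigenvalue
`√q (θ ϖ + θ ϖ̄)` at split places outside `S` (`heckeOp_phi_split`) and zero at inert ones
(`heckeOp_phi_inert`). A radial kernel at an infinite place acts by its transform `hT`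
(`radialOp_phi_hT`), and `measurable_phi` records measurability.
-/

set_option autoImplicit false

noncomputable section

open IsDedekindDomain NumberField Filter MeasureTheory
open scoped MatrixGroups

namespace FermatAgent.LT2.Theta

open FermatAgent.LT FermatAgent.LT.Theta
open FermatAgent.LT.Theta.LocQuad FermatAgent.LT.Theta.Coord FermatAgent.LT.Theta.Arch
  FermatAgent.LT.Theta.ArchW
open FermatAgent.LT2.Theta.ThetaCore

variable {L : Type*} [Field L] [NumberField L] [IsTotallyComplex L] {M : Type*} [Field M]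
  [Algebra L M] [Algebra.IsQuadraticExtension L M]

namespace ThetaCore

omit [IsTotallyComplex L] in
/-- An unramified place is inert or has a split prime. -/
theorem inert_or_splitPrime (Θ : ThetaCore L M) {v : HeightOneSpectrum (𝓞 L)} (hv : v ∉ Θ.S) :
    Place.IsInert L M v ∨
      ∃ ϖ : M, IsSplitPrime (Θ.loc v) ϖ ∧ v.valuation L (Algebra.trace L M ϖ) = 1 := by
  rcases Place.inert_or_split (Θ.unr v hv) with h | h
  · exact Or.inl fun y hy hN => Place.mem_lat_one_iff.1 (h y hy hN)
  · exact Or.inr h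

namespace Vec

variable {Θ : ThetaCore L M} (Φ : Θ.Vec)

/-- The coefficient of the expansion through the local Whittaker functions. -/
def coef (h : HeightOneSpectrum (𝓞 L) → GL (Fin 2) L) (α : Lˣ) : ℂ := ∏ᶠ v, Φ.wLoc v α (h v)

section

omit [IsTotallyComplex L]

/-- The expansion of a translate of the lift. -/
lemma orbit_expTerm (h : HeightOneSpectrum (𝓞 L) → GL (Fin 2) L) (hh : IsAdelic h)
    (P : InfPts L) (α : Lˣ) :
    (Φ.orbit h hh).expTerm P α = Φ.coef h α * winfPts (twPts α P) := by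
  rw [Fam.expTerm, orbit_whit]; rfl

/-- Almost all local factors are one. -/
lemma coef_finite {h : HeightOneSpectrum (𝓞 L) → GL (Fin 2) L} (hh : IsAdelic h) (α : Lˣ) :
    (Function.mulSupport fun v => Φ.wLoc v α (h v)).Finite := by
  refine (((Φ.orbit h hh).twist (α : L) α.ne_zero).eventually_whit).subset fun v hv => ?_
  rw [Function.mem_mulSupport, Fam.twist_f]
  exact hv

open Classical in
lemma isAdelic_update {h : HeightOneSpectrum (𝓞 L) → GL (Fin 2) L} (hh : IsAdelic h)
    (v : HeightOneSpectrum (𝓞 L)) (g : GL (Fin 2) L) : IsAdelic (Function.update h v g) := by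
  filter_upwards [hh, (Set.finite_singleton v).compl_mem_cofinite] with w hw hne
  rwa [Function.update_of_ne (by simpa using hne)]

open Classical in
lemma coef_update {h : HeightOneSpectrum (𝓞 L) → GL (Fin 2) L} (hh : IsAdelic h)
    (v : HeightOneSpectrum (𝓞 L)) (g : GL (Fin 2) L) (α : Lˣ) :
    Φ.coef (Function.update h v g) α =
      Φ.wLoc v α g * ∏ᶠ (w) (_ : w ∈ ({v} : Set _)ᶜ), Φ.wLoc w α (h w) := by
  rw [coef, ← finprod_mem_univ,
    show (Set.univ : Set (HeightOneSpectrum (𝓞 L))) = {v} ∪ {v}ᶜ by simp,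
    finprod_mem_union' disjoint_compl_right ((Set.finite_singleton v).subset Set.inter_subset_left)
      ((Φ.coef_finite (isAdelic_update hh v g) α).subset Set.inter_subset_right),
    finprod_mem_singleton, Function.update_self]
  congr 1
  refine finprod_mem_congr rfl fun w hw => ?_
  rw [Function.update_of_ne (by simpa using hw)]

end

open Classical in
/-- Right multiplication at one place by a finite family: the lifts add up. -/
theorem phi_local_sum {ι : Type*} (s : Finset ι) (R : ι → GL (Fin 2) L)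
    (v : HeightOneSpectrum (𝓞 L)) (c : ℂ)
    (hc : ∀ g (α : Lˣ), ∑ i ∈ s, Φ.wLoc v α (g * R i) = c * Φ.wLoc v α g)
    (P : InfPts L) (a : LT.Whit.adelGrp L) :
    ∑ i ∈ s, Φ.phi (P, LT.Whit.cls Φ.lvl (a * LT.Whit.atV v (Matrix.ProjGenLinGroup.mk (R i)))) =
      c * Φ.phi (P, LT.Whit.cls Φ.lvl a) := by
  set h := adelRep a
  have hh : IsAdelic h := isAdelic_adelRep a
  have e : ∀ i, Φ.phi (P, LT.Whit.cls Φ.lvl (a * LT.Whit.atV v (Matrix.ProjGenLinGroup.mk (R i)))) =
      (Φ.orbit (Function.update h v (h v * R i)) (isAdelic_update hh v _)).lift P := fun i => by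
    refine Φ.phi_eq P _ _ _ fun w => ?_
    by_cases hw : w = v
    · subst hw
      rw [Function.update_self, map_mul, mk_adelRep]
      simp
    · rw [Function.update_of_ne hw, mk_adelRep]
      simp [LT.Whit.atV_ne hw]
  rw [Finset.sum_congr rfl fun i _ => e i, Φ.phi_eq P a h hh (mk_adelRep a)]
  simp only [Fam.lift]
  rw [← Summable.tsum_finsetSum fun i _ =>
    Fam.summable_expTerm _ (Φ.orbit_isBdd _ _) P, ← tsum_mul_left]
  refine tsum_congr fun α => ?_
  simp only [orbit_expTerm, ← Finset.sum_mul, ← mul_assoc]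
  congr 1
  rw [Finset.sum_congr rfl fun i _ => Φ.coef_update hh v (h v * R i) α, ← Finset.sum_mul,
    hc (h v) α, mul_assoc, ← Φ.coef_update hh v (h v) α, Function.update_eq_self]

omit [IsTotallyComplex L] in
/-- The local factor as a local Whittaker value. -/
lemma wLoc_eq (v : HeightOneSpectrum (𝓞 L)) {α : L} (hα : α ≠ 0) (g : GL (Fin 2) L) :
    Φ.wLoc v α g = (Θ.loc v).whit (Θ.θ v) (Θ.unitLevel v)
      ((Θ.loc v).wAct (Θ.χ v) (upper α 0 1 hα one_ne_zero * g) (Φ.vec₀ v)) := by
  rw [upper_mul, zero_div, opN_zero]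
  rfl

omit [IsTotallyComplex L] in
lemma isResidueSystem_residues (v : HeightOneSpectrum (𝓞 L)) :
    (Θ.loc v).IsResidueSystem (LT.Whit.residues v) :=
  ⟨LT.Whit.card_residues v, (LT.Whit.isResidues v).le_one, (LT.Whit.isResidues v).unique,
    (LT.Whit.isResidues v).exists_mem⟩

/-- The Hecke sum of the local Whittaker function. -/
lemma wLoc_hecke_sum {v : HeightOneSpectrum (𝓞 L)} (hv : v ∉ Θ.S) (g : GL (Fin 2) L) (α : Lˣ) :
    (∑ t ∈ LT.Whit.residues v, Φ.wLoc v α (g * upper (Place.unif v) t 1 (Place.unif_ne_zero v)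
        one_ne_zero)) +
      Φ.wLoc v α (g * upper 1 0 (Place.unif v) one_ne_zero (Place.unif_ne_zero v)) =
    (Θ.loc v).whit (Θ.θ v) (Θ.unitLevel v) ((Θ.loc v).wAct (Θ.χ v)
      (upper (α : L) 0 1 α.ne_zero one_ne_zero * g)
      ((Θ.loc v).heckeVec (Θ.χ v) (LT.Whit.residues v))) := by
  simp only [Φ.wLoc_eq v α.ne_zero, Φ.vec₀_sph hv, ← mul_assoc]
  exact whit_heckeVec (Θ.isTorusLevel v) (Θ.isSign v) _ _

lemma heckeOp_phi {v : HeightOneSpectrum (𝓞 L)} (hv : v ∉ Θ.S) (c : ℂ)
    (hc : ∀ g, ∀ _α : Lˣ, (Θ.loc v).whit (Θ.θ v) (Θ.unitLevel v) ((Θ.loc v).wAct (Θ.χ v) g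
        ((Θ.loc v).heckeVec (Θ.χ v) (LT.Whit.residues v))) =
      c * (Θ.loc v).whit (Θ.θ v) (Θ.unitLevel v) ((Θ.loc v).wAct (Θ.χ v) g (Θ.loc v).sph))
    (x : Space Φ.lvl) : heckeOp v Φ.phi x = c * Φ.phi x := by
  classical
  obtain ⟨P, cl⟩ := x
  obtain ⟨a, rfl⟩ := LT.Whit.cls_surjective cl
  rw [LT.Whit.heckeOp_cls v (U := Φ.lvl) (Φ.loc_out v hv)]
  let R : Option L → GL (Fin 2) L := fun o => o.elim
    (upper 1 0 (Place.unif v) one_ne_zero (Place.unif_ne_zero v))
    fun t => upper (Place.unif v) t 1 (Place.unif_ne_zero v) one_ne_zero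
  have h1 := Φ.phi_local_sum (insert none ((LT.Whit.residues v).image some)) R v c (fun g α => by
    rw [Finset.sum_insert (by simp), Finset.sum_image (fun _ _ _ _ h => Option.some_injective _ h),
      add_comm]
    simp only [R, Option.elim]
    rw [Φ.wLoc_hecke_sum hv, hc _ α, ← Φ.vec₀_sph hv, ← Φ.wLoc_eq v α.ne_zero]) P a
  rw [Finset.sum_insert (by simp), Finset.sum_image (fun _ _ _ _ h => Option.some_injective _ h),
    add_comm] at h1
  rw [← h1]
  have e1 : ∀ t : L, LT.Whit.nbr v t =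
      Matrix.ProjGenLinGroup.mk (upper (Place.unif v) t 1 (Place.unif_ne_zero v) one_ne_zero) :=
    fun t => by
      rw [LT.Whit.nbr_eq]
      congr 1
      refine Units.ext ?_
      ext i j
      fin_cases i <;> fin_cases j <;>
        simp [upper_val, uB, dB, LT.Whit.unifU, Matrix.mul_apply, Fin.sum_univ_two]
  have e2 : LT.Whit.nbrLast v =
      Matrix.ProjGenLinGroup.mk (upper 1 0 (Place.unif v) one_ne_zero (Place.unif_ne_zero v)) := by
    rw [LT.Whit.nbrLast_eq]
    rfl
  simp only [R, Option.elim, e1, e2]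

/-- **The Hecke eigenvalue at a split place**: at `v ∉ S` with a prime `ϖ` above it, `T_v` acts by
`√q (θ_v ϖ + θ_v ϖ̄)`. -/
theorem heckeOp_phi_split {v : HeightOneSpectrum (𝓞 L)} (hv : v ∉ Θ.S) {ϖ : M}
    (hϖ : IsSplitPrime (Θ.loc v) ϖ) (x : Space Φ.lvl) :
    heckeOp v Φ.phi x =
      (√(Place.qv v : ℝ) : ℂ) * (Θ.θ v ϖ + Θ.θ v (Quad.conj L M ϖ)) * Φ.phi x := by
  have hni : ¬Place.IsInert L M v := by
    intro hi
    have hmem : ϖ ∈ (Θ.loc v).lat 1 := Place.mem_lat_one_iff.2 (hi ϖ hϖ.mem (by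
      rw [show v.valuation L (Algebra.norm L ϖ) = WithZero.exp (-1 : ℤ) from hϖ.v_N,
        ← WithZero.exp_zero, WithZero.exp_lt_exp]; norm_num))
    have := (Θ.loc v).v_N_le hmem
    rw [hϖ.v_N, WithZero.exp_le_exp] at this
    norm_num at this
  obtain ⟨ε, hε, eχ, -, -, hs⟩ := Θ.χ_unr hv
  have h0 : ϖ ≠ 0 := hϖ.ne_zero
  have h0' : Quad.conj L M ϖ ≠ 0 := (map_ne_zero_iff _ (Quad.conj L M).injective).2 h0
  have hN0 : Algebra.norm L ϖ ≠ 0 := Algebra.norm_ne_zero_iff.2 h0
  have hprod : Θ.θ v ϖ * Θ.θ v (Quad.conj L M ϖ) = 1 := by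
    rw [← map_mul, ← Quad.norm_spec, Θ.θ_base v hN0, eχ,
      unrChar_apply (Θ.loc v) hε (n := -1) (by exact hϖ.v_N), hs hni]
    simp
  have hval : Θ.θ v ϖ⁻¹ + Θ.θ v (Quad.conj L M ϖ)⁻¹ =
      Θ.θ v ϖ + Θ.θ v (Quad.conj L M ϖ) := by
    have i1 : Θ.θ v ϖ⁻¹ = Θ.θ v (Quad.conj L M ϖ) := by
      refine mul_left_cancel₀ (Θ.θ_ne_zero v h0) ?_
      rw [hprod, ← map_mul, mul_inv_cancel₀ h0, map_one]
    have i2 : Θ.θ v (Quad.conj L M ϖ)⁻¹ = Θ.θ v ϖ := by
      refine mul_left_cancel₀ (Θ.θ_ne_zero v h0') ?_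
      rw [← map_mul, mul_inv_cancel₀ h0', map_one, mul_comm, hprod]
    rw [i1, i2, add_comm]
  refine Φ.heckeOp_phi hv _ (fun g α => ?_) x
  rw [eχ]
  rw [whit_hecke_split (Θ.isTorusLevel v) (Θ.isInv_sph v) hϖ (hs hni)
    (isResidueSystem_residues (Θ := Θ) v) g, ← hval]
  rfl

/-- **The Hecke eigenvalue at an inert place** outside `S` is zero. -/
theorem heckeOp_phi_inert {v : HeightOneSpectrum (𝓞 L)} (hv : v ∉ Θ.S)
    (hi : Place.IsInert L M v) (x : Space Φ.lvl) : heckeOp v Φ.phi x = 0 := by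
  obtain ⟨ε, hε, eχ, -, hin, -⟩ := Θ.χ_unr hv
  rw [Φ.heckeOp_phi hv 0 (fun g α => ?_) x, zero_mul]
  rw [eχ, heckeVec_inert (D := Θ.loc v) (fun y hy hN => Place.mem_lat_one_iff.2 (hi y hy hN))
    (hin hi)
    (isResidueSystem_residues (Θ := Θ) v), zero_mul]
  refine (whit_congr ?_).trans whit_zero
  intro y u hu
  have h := wAct_smul (χ := (Θ.loc v).unrChar ε hε) (isTest_zero (D := Θ.loc v)).nice (0 : ℂ) g
    y u hu
  simpa using h

/-! ### The radial eigenvalue -/

omit [IsTotallyComplex L] in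
open Classical in
lemma winfPts_update (α : Lˣ) (P : InfPts L) (w : InfinitePlace L) (q : H3) :
    winfPts (twPts α (Function.update P w q)) =
      winf (Matrix.GeneralLinearGroup.map w.embedding
        (upper (α : L) 0 1 α.ne_zero one_ne_zero) • q) *
        ∏ w' ∈ Finset.univ.erase w, winf (twPts α P w') := by
  rw [winfPts, ← Finset.mul_prod_erase Finset.univ _ (Finset.mem_univ w)]
  congr 1
  · simp [twPts, gPt, Function.update_self]
  · refine Finset.prod_congr rfl fun w' hw' => ?_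
    simp [twPts, gPt, Function.update_of_ne (Finset.ne_of_mem_erase hw')]

/-- The radial operators act by scalars. -/
theorem radialOp_phi (w : InfinitePlace L) {k0 : ℝ → ℝ} (hk : Continuous k0)
    (hks : HasCompactSupport k0) (x : Space Φ.lvl) :
    radialOp w (fun p q => k0 (H3.coshDist p q)) Φ.phi x = ArchW.eigVal k0 * Φ.phi x := by
  classical
  obtain ⟨P, cl⟩ := x
  obtain ⟨a, rfl⟩ := LT.Whit.cls_surjective cl
  set h := adelRep a
  set F := Φ.orbit h (isAdelic_adelRep a)
  have hphi : ∀ Q, Φ.phi (Q, LT.Whit.cls Φ.lvl a) = F.lift Q := fun Q =>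
    Φ.phi_eq Q a h (isAdelic_adelRep a) (mk_adelRep a)
  show ∫ q, (k0 (H3.coshDist (P w) q) : ℂ) * Φ.phi (Function.update P w q, LT.Whit.cls Φ.lvl a)
    ∂H3.vol = _
  simp only [hphi, Fam.lift]
  obtain ⟨ρ₀, hρ₀⟩ := hks.isCompact.bddAbove
  set ρ := max ρ₀ 1
  have hsupp : ∀ q, k0 (H3.coshDist (P w) q) ≠ 0 → H3.coshDist (P w) q ≤ ρ := fun q hq =>
    (hρ₀ (subset_tsupport _ hq)).trans (le_max_left _ _)
  have hρ : 0 < 2 * ρ + 2 := by
    have : (1 : ℝ) ≤ ρ := le_max_right _ _
    linarith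
  obtain ⟨t₁, h₁, ht⟩ := exists_lower_bound P
  set t₀ := min t₁ ((P w).t / (2 * ρ + 2))
  have h₀ : 0 < t₀ := lt_min h₁ (div_pos (P w).t_pos hρ)
  obtain ⟨g, hg, hle⟩ := F.exists_majorant (Φ.orbit_isBdd _ _) h₀
  set T : Lˣ → H3 → ℂ := fun α q =>
    (k0 (H3.coshDist (P w) q) : ℂ) * F.expTerm (Function.update P w q) α
  have hbd : ∀ α q, ‖T α q‖ ≤ |k0 (H3.coshDist (P w) q)| * g α := by
    intro α q
    simp only [T, norm_mul, Complex.norm_real, Real.norm_eq_abs]
    by_cases hq : k0 (H3.coshDist (P w) q) = 0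
    · simp [hq]
    refine mul_le_mul_of_nonneg_left ((F.norm_expTerm_le _ α).trans (hle _ (fun w' => ?_) α))
      (abs_nonneg _)
    by_cases hw : w' = w
    · subst hw
      rw [Function.update_self]
      refine (min_le_right _ _).trans ?_
      rw [div_le_iff₀ hρ, mul_comm]
      exact (H3.coord_bounds_of_coshDist (hsupp q hq)).2.1
    · rw [Function.update_of_ne hw]
      exact (min_le_left _ _).trans (ht w')
  obtain ⟨b, hb, -⟩ := H3.exists_smul_base (P w)
  have hint : Integrable (fun q => k0 (H3.coshDist (P w) q)) H3.vol := by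
    have e : (fun q => k0 (H3.coshDist (P w) q)) =
        fun q => ArchW.ker k0 (b⁻¹ • q) := funext fun q => by
      rw [ArchW.ker, ← hb]
      conv_lhs => rw [show q = b • (b⁻¹ • q) by rw [smul_inv_smul], H3.coshDist_smul]
    rw [e]
    exact (H3.measurePreserving_smul b⁻¹).integrable_comp_of_integrable (ker_data hk hks).2.1
  have hmeas : ∀ α, AEStronglyMeasurable (T α) H3.vol := fun α =>
    ((Complex.continuous_ofReal.comp (hk.comp (H3.continuous_coshDist _))).mul (continuous_const.mul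
      (continuous_winfPts.comp ((continuous_twPts α).comp
        (continuous_const.update w continuous_id))))).aestronglyMeasurable
  have hTint : ∀ α, Integrable (T α) H3.vol := fun α =>
    (hint.abs.mul_const (g α)).mono' (hmeas α) (ae_of_all _ (hbd α))
  have hsum : Summable fun α => ∫ q, ‖T α q‖ ∂H3.vol := by
    refine Summable.of_nonneg_of_le (fun α => integral_nonneg fun q => norm_nonneg _) (fun α => ?_)
      (hg.mul_left (∫ q, |k0 (H3.coshDist (P w) q)| ∂H3.vol))
    rw [← integral_mul_const]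
    exact integral_mono (hTint α).norm (hint.abs.mul_const _) (hbd α)
  have : Countable Lˣ := Units.val_injective.countable
  simp only [← tsum_mul_left]
  show ∫ q, ∑' α, T α q ∂H3.vol = _
  rw [← integral_tsum_of_summable_integral_norm hTint hsum]
  refine tsum_congr fun α => ?_
  set s := Matrix.GeneralLinearGroup.map w.embedding (upper (α : L) 0 1 α.ne_zero one_ne_zero)
  set K := (F.twist α α.ne_zero).whit * ∏ w' ∈ Finset.univ.erase w, winf (twPts α P w')
  have e : ∀ q, T α q =
      K * ((fun q' => (k0 (H3.coshDist (s • P w) q') : ℂ) * winf q') (s • q)) := fun q => by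
    simp only [T, Fam.expTerm, K, winfPts_update, H3.coshDist_smul]
    ring
  rw [integral_congr_ae (ae_of_all _ e), integral_const_mul, integral_smul_eq_self
    (fun q' => (k0 (H3.coshDist (s • P w) q') : ℂ) * winf q'), radial_winf hk hks]
  conv_rhs => rw [Fam.expTerm, show P = Function.update P w (P w) by simp, winfPts_update]
  simp only [K]
  ring

lemma eigVal_eq_hT (k : ℝ → ℝ) : eigVal k = LT.Whit.hT k := by
  simp [eigVal, LT.Whit.hT, LT.Whit.kint]

/-- **The radial eigenvalues**: the operator of a radial kernel at an infinite place acts by the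
eigenvalue it has on the height `t`. -/
theorem radialOp_phi_hT (w : InfinitePlace L) {k : ℝ → ℝ} (hk : Continuous k)
    (hks : HasCompactSupport k) (x : Space Φ.lvl) :
    radialOp w (fun p q => k (H3.coshDist p q)) Φ.phi x = LT.Whit.hT k * Φ.phi x := by
  rw [Φ.radialOp_phi w hk hks x, eigVal_eq_hT]

/-- The form is measurable. -/
theorem measurable_phi : Measurable Φ.phi :=
  measurable_from_prod_countable_left fun c => (Φ.continuous_phi c).measurable

end Vec

end ThetaCore

end FermatAgent.LT2.Theta
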