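import Fermat.Agent.LT.Theta.Cosets
import Fermat.Agent.LT.Theta.Tame

/-!
# Local lemmas on the Weil representation not assuming the sign character

The Fourier operator commutes with differences and satisfies the braid relation at `1` for raw
Gauss sums; test vectors supported near a coset of the units of the lattice are fixed by deep
matrices.
-/

set_option autoImplicit false

noncomputable section

open WithZero Matrix
open scoped MatrixGroups

namespace FermatAgent.LT2.Theta.Loc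

open FermatAgent.LT.Theta FermatAgent.LT.Theta.LocQuad

variable {F M : Type*} [Field F] [Field M] [Algebra F M] {D : LocQuad F M} {χ : F →* ℂ}

/-- The square of the Fourier operator. -/
lemma opW_opW' {f : M → F → ℂ} (hf : D.Nice f) {u : F} (hu : u ≠ 0) (x : M) :
    D.opW (D.opW f) x u = (D.G u)⁻¹ * D.G (-u) * f (-x) u := by
  show (D.G u)⁻¹ * D.ft u (fun y => (D.G u)⁻¹ * D.ft u (fun z => f z u) y) x = _
  rw [D.ft_smul (D.ft_mem hu (hf u hu)), D.ft_ft hu (hf u hu)]
  have := D.G_ne_zero hu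
  field_simp

/-- `(W N)³ = W²`. -/
theorem triple {f : M → F → ℂ} (hf : D.Nice f) :
    Agree (D.opW (D.opN 1 (D.opW (D.opN 1 (D.opW (D.opN 1 f)))))) (D.opW (D.opW f)) := by
  intro x u hu
  have hn : D.Nice (D.opN 1 (D.opW (D.opN 1 f))) := nice_opN (nice_opW (nice_opN hf _)) _
  rw [opW_opN_opW_of_G (χ := (1 : F →* ℂ)) hn one_ne_zero hu (by simp [D.absv_one]) x]
  rw [inv_one, opD_one, opN_add, show (-1 / (1 : F)) + 1 = 0 by norm_num, opN_zero]
  simp only [opN]
  rw [opW_opW' (nice_opN hf 1) hu x, opW_opW' hf hu x]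
  simp only [opN]
  rw [D.N_neg]
  have h := D.ψ_neg_mul (1 * u * D.N x)
  rw [show (-1 / (1 : F)) * u * D.N x = -(1 * u * D.N x) by ring]
  linear_combination ((D.G u)⁻¹ * D.G (-u) * f (-x) u) * h

lemma opW_add {f f' : M → F → ℂ} (hf : D.Nice f) (hf' : D.Nice f') :
    Agree (D.opW fun x u => f x u + f' x u) (fun x u => D.opW f x u + D.opW f' x u) := by
  intro x u hu
  show (D.G u)⁻¹ * D.ft u (fun y => f y u + f' y u) x = _
  rw [ft_add (hf u hu) (hf' u hu), mul_add]
  rfl

/-- The Weyl operator commutes with differences. -/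
lemma opW_sub {f f' : M → F → ℂ} (hf : D.Nice f) (hf' : D.Nice f') :
    Agree (D.opW fun x u => f x u - f' x u) (fun x u => D.opW f x u - D.opW f' x u) := by
  intro x u hu
  have hneg : D.Nice fun x u => (-1 : ℂ) * f' x u := fun w hw =>
    Submodule.smul_mem _ (-1 : ℂ) (hf' w hw)
  have e : (fun x u => f x u - f' x u) = fun x u => f x u + (-1 : ℂ) * f' x u := by
    funext y w; ring
  rw [e, opW_add hf hneg x u hu]
  show D.opW f x u + (D.G u)⁻¹ * D.ft u (fun y => (-1 : ℂ) * f' y u) x = _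
  rw [D.ft_smul (hf' u hu)]
  show _ = D.opW f x u - (D.G u)⁻¹ * D.ft u (fun y => f' y u) x
  ring

/-- The Gauss sum is locally constant. -/
lemma exists_G_congr {c : F} (hc : c ≠ 0) :
    ∃ N : ℕ, ∀ t : F, D.v (t - 1) ≤ exp (-(N : ℤ)) → D.G (c * t) = D.G c := by
  refine ⟨(max 1 (D.ordE c - D.d - 2 * D.stab c)).toNat, fun t ht => ?_⟩
  have hn : ((max 1 (D.ordE c - D.d - 2 * D.stab c)).toNat : ℤ) =
      max 1 (D.ordE c - D.d - 2 * D.stab c) := Int.toNat_of_nonneg (le_max_of_le_left zero_le_one)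
  rw [hn] at ht
  have hlt : D.v (t - 1) < 1 := ht.trans_lt (by
    rw [← exp_zero, exp_lt_exp]; have := le_max_left 1 (D.ordE c - D.d - 2 * D.stab c); omega)
  have hvt : D.v t = 1 := by
    rw [show t = 1 + (t - 1) by ring, Valuation.map_add_eq_of_lt_left _ (by rwa [map_one]), map_one]
  have ht0 : t ≠ 0 := fun e => by simp [e] at hvt
  have hord : D.ordE (c * t) = D.ordE c := by rw [ordE, ordE, map_mul, hvt, mul_one]
  have hst : D.stab (c * t) = D.stab c := by rw [stab, stab, hord]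
  rw [← D.gaussAt_eq_G (mul_ne_zero hc ht0) hst.ge, G, gaussAt, gaussAt]
  refine congrArg _ (funext fun x => ?_)
  by_cases hx : x ∈ D.lat (D.stab c)
  · congr 1
    rw [show c * t * D.N x = c * D.N x + c * (t - 1) * D.N x by ring, D.ψ_add,
      D.ψ_eq_one (c * (t - 1) * D.N x) ?_, mul_one]
    rw [map_mul, map_mul, D.v_eq_exp_ordE hc]
    refine (mul_le_mul' (mul_le_mul' le_rfl ht) (D.v_N_le hx)).trans ?_
    rw [← exp_add, ← exp_add, exp_le_exp]
    have := le_max_right 1 (D.ordE c - D.d - 2 * D.stab c)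
    omega
  · simp [LatticeChain.ind_supported (C := D.chain) (D.stab c) x hx]

/-- A test vector is fixed by small translations. -/
lemma exists_opN_fix {f : M → F → ℂ} (hf : D.IsTest f) :
    ∃ j : ℤ, ∀ b, D.v b ≤ exp j → Agree (D.opN b f) f := by
  obtain ⟨a, m, n, ha, h⟩ := hf
  refine ⟨D.d - a + 2 * m, fun b hb x u hu => ?_⟩
  show D.ψ (b * u * D.N x) * f x u = f x u
  by_cases hva : D.v u = exp a
  · by_cases hx : x ∈ D.lat m
    · rw [D.ψ_eq_one _ ?_, one_mul]
      rw [map_mul, map_mul, hva]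
      refine (mul_le_mul' (mul_le_mul' hb le_rfl) (D.v_N_le hx)).trans ?_
      rw [← exp_add, ← exp_add, exp_le_exp]
      omega
    · rw [show f x u = 0 from (h u hu).2 x hx, mul_zero]
  · rw [ha x u hva, mul_zero]

/-! ### The vector at a special place -/

open Classical in
/-- The character on the units, cut off at the norms congruent to the inverse of `u`. -/
def tvec (D : LocQuad F M) (θ : M →* ℂ) (k : ℤ) : M → F → ℂ := fun x u =>
  if IsTame.IsU D x ∧ D.v (u * D.N x - 1) ≤ exp (-k) then θ x else 0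

variable {θ : M →* ℂ} {k : ℤ}

/-- Units with trivial character and norm congruent to the inverse of the scalar fix the vector. -/
lemma tvec_congr (hk : 1 ≤ k) {y : M} {s : F} (hy : IsTame.IsU D y) (hθ : θ y = 1)
    (hs : D.v (s * D.N y - 1) ≤ exp (-k)) (x : M) (u : F) :
    tvec D θ k (x * y) (u * s) = tvec D θ k x u := by
  classical
  have hlt : ∀ {a : F}, D.v a ≤ exp (-k) → D.v a < 1 := fun ha =>
    ha.trans_lt (by rw [← exp_zero, exp_lt_exp]; omega)
  have hT : D.v (s * D.N y) = 1 := by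
    rw [show s * D.N y = 1 + (s * D.N y - 1) by ring,
      Valuation.map_add_eq_of_lt_left _ (by rw [map_one]; exact hlt hs), map_one]
  have hU : IsTame.IsU D (x * y) ↔ IsTame.IsU D x :=
    ⟨fun h => by simpa [mul_assoc, mul_inv_cancel₀ hy.ne_zero] using h.mul hy.inv,
      fun h => h.mul hy⟩
  have e : u * s * D.N (x * y) - 1 = u * D.N x * (s * D.N y - 1) + (u * D.N x - 1) := by
    rw [D.N_mul]; ring
  have key : D.v (u * D.N x) = 1 →
      (D.v (u * s * D.N (x * y) - 1) ≤ exp (-k) ↔ D.v (u * D.N x - 1) ≤ exp (-k)) := fun h1 => by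
    have h2 : D.v (u * D.N x * (s * D.N y - 1)) ≤ exp (-k) := by rw [map_mul, h1, one_mul]; exact hs
    refine ⟨fun h => ?_, fun h => ?_⟩
    · rw [show u * D.N x - 1 = (u * s * D.N (x * y) - 1) - u * D.N x * (s * D.N y - 1) by
        rw [e]; ring]
      exact (Valuation.map_sub _ _ _).trans (max_le h h2)
    · rw [e]; exact (Valuation.map_add _ _ _).trans (max_le h2 h)
  have hv : ∀ {a : F}, D.v (a - 1) ≤ exp (-k) → D.v a = 1 := fun {a} ha => by
    rw [show a = 1 + (a - 1) by ring,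
      Valuation.map_add_eq_of_lt_left _ (by rw [map_one]; exact hlt ha), map_one]
  have hiff : D.v (u * s * D.N (x * y) - 1) ≤ exp (-k) ↔ D.v (u * D.N x - 1) ≤ exp (-k) :=
    ⟨fun h => (key (by
      have := hv h
      rwa [show u * s * D.N (x * y) = u * D.N x * (s * D.N y) by rw [D.N_mul]; ring, map_mul, hT,
        mul_one] at this)).1 h, fun h => (key (hv h)).2 h⟩
  simp only [tvec, hU, hiff, map_mul, hθ, mul_one]

lemma tvec_sliced (hk : 1 ≤ k) : D.Sliced 0 (tvec D θ k) := by
  classical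
  intro x u hu
  refine if_neg fun h => hu ?_
  have hlt : D.v (u * D.N x - 1) < 1 := h.2.trans_lt (by rw [← exp_zero, exp_lt_exp]; omega)
  have h1 : D.v (u * D.N x) = 1 := by
    rw [show u * D.N x = 1 + (u * D.N x - 1) by ring,
      Valuation.map_add_eq_of_lt_left _ (by rwa [map_one]), map_one]
  rw [map_mul, h.1.2, mul_one] at h1
  rw [h1, exp_zero]

lemma tvec_supported {x : M} (hx : x ∉ D.O) (u : F) : tvec D θ k x u = 0 := by
  classical
  exact if_neg fun h => hx h.1.1

/-- Close to one: a unit with norm close to one. -/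
lemma isU_congr (hk : 1 ≤ k) {y : M} (hy : y - 1 ∈ D.lat k) :
    IsTame.IsU D y ∧ D.v (D.N y - 1) ≤ exp (-k) := by
  have hO : y - 1 ∈ D.O := by rw [← D.lat_zero]; exact D.lat_mono (by omega) hy
  have e : D.N y - 1 = D.N (y - 1) + D.B 1 (y - 1) := by
    conv_lhs => rw [show y = 1 + (y - 1) by ring, D.N_add, D.N_one]
    ring
  have h1 : D.v (D.N y - 1) ≤ exp (-k) := by
    rw [e]
    refine (Valuation.map_add _ _ _).trans (max_le ?_ ?_)
    · exact (D.v_N_le hy).trans (exp_le_exp.2 (by omega))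
    · exact (D.v_B_le (i := 0) (by rw [D.lat_zero]; exact D.one_mem) hy).trans
        (exp_le_exp.2 (by omega))
  refine ⟨⟨by simpa using D.O.add_mem D.one_mem hO, ?_⟩, h1⟩
  rw [show D.N y = 1 + (D.N y - 1) by ring, Valuation.map_add_eq_of_lt_left _ ?_, map_one]
  rw [map_one]
  exact h1.trans_lt (by rw [← exp_zero, exp_lt_exp]; omega)

variable (hk : 1 ≤ k) (hθ : ∀ y : M, y - 1 ∈ D.lat k → θ y = 1)

include hk hθ in
/-- The test vector is a test function. -/
lemma isTest_tvec : D.IsTest (tvec D θ k) := by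
  classical
  refine ⟨0, 0, k, tvec_sliced hk, fun u _ => ⟨fun x c hc => ?_, fun x hx => ?_⟩⟩
  · have key : ∀ x, IsTame.IsU D x → ∀ c ∈ D.lat k, tvec D θ k (x + c) u = tvec D θ k x u := by
      intro x hx c hc
      have hy : (1 + x⁻¹ * c) - 1 ∈ D.lat k := by
        rw [add_sub_cancel_left]
        have := D.mul_mem_lat (show x⁻¹ ∈ D.lat 0 by rw [D.lat_zero]; exact hx.inv.1) hc
        rwa [zero_add] at this
      obtain ⟨hU, hN⟩ := isU_congr hk hy
      have := tvec_congr (θ := θ) (s := 1) hk hU (hθ _ hy) (by rwa [one_mul]) x u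
      rw [mul_one, mul_add, mul_one, ← mul_assoc, mul_inv_cancel₀ hx.ne_zero, one_mul] at this
      exact this
    by_cases hx : IsTame.IsU D x
    · exact key x hx c hc
    by_cases hx' : IsTame.IsU D (x + c)
    · have := key (x + c) hx' (-c) (neg_mem hc)
      rw [add_neg_cancel_right] at this
      exact this.symm
    · simp [tvec, hx, hx']
  · exact tvec_supported (by rwa [← D.lat_zero]) u

include hk in
/-- The test vector is invariant. -/
lemma isInv_tvec {U : Subgroup Mˣ} (hU : ∀ h ∈ U, IsTame.IsU D (h : M) ∧ θ (h : M) = 1) :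
    D.IsInv U (tvec D θ k) := fun h hh x u _ => by
  show tvec D θ k ((h : M) * x) (u / D.N (h : M)) = _
  rw [mul_comm, div_eq_mul_inv]
  refine tvec_congr hk (hU h hh).1 (hU h hh).2 ?_ x u
  rw [inv_mul_cancel₀ (N_unit_ne_zero h), sub_self, map_zero]
  exact zero_le

include hk hθ in
/-- The Whittaker functional of the vector counts classes of units. -/
theorem whit_tvec_ne_zero {U : Subgroup Mˣ} (hT : D.IsTorusLevel θ U)
    (hU : ∀ h ∈ U, IsTame.IsU D (h : M)) (hθ0 : ∀ x : M, x ≠ 0 → θ x ≠ 0) :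
    D.whit θ U (tvec D θ k) ≠ 0 := by
  classical
  have e : ∀ h : Mˣ, D.whitTerm θ (tvec D θ k) h =
      if IsTame.IsU D (h : M) then 1 else 0 := fun h => by
    simp only [whitTerm, tvec, inv_mul_cancel₀ (N_unit_ne_zero (D := D) h), sub_self, map_zero,
      zero_le, and_true]
    split_ifs with hh
    · rw [D.absv_exp (show D.v (D.N (h : M)) = exp 0 by rw [exp_zero]; exact hh.2)]
      simp [hθ0 _ hh.ne_zero]
    · simp
  have hfin := finite_support_whit hT (isTest_tvec hk hθ)
  rw [LocQuad.whit, finsum_eq_sum _ hfin,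
    Finset.sum_congr rfl (g := fun _ => (1 : ℂ)) fun c hc => ?_,
    Finset.sum_const, nsmul_eq_mul, mul_one, Nat.cast_ne_zero, Finset.card_ne_zero]
  · refine ⟨1, hfin.mem_toFinset.2 ?_⟩
    rw [Function.mem_support, e, if_pos (hU _ ?_)]
    · exact one_ne_zero
    · rw [← QuotientGroup.eq_one_iff, QuotientGroup.out_eq']
  · have h := hfin.mem_toFinset.1 hc
    rw [Function.mem_support, e] at h
    rw [e]
    split_ifs at h ⊢
    · rfl
    · exact absurd rfl h

include hk hθ in
/-- Deep matrices fix the vector. -/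
theorem exists_wAct_fix (hχ : D.IsSignChar χ)
    (hθχ : ∀ e : F, e ≠ 0 → θ (algebraMap F M e) = χ e) :
    ∃ m : ℕ, ∀ g : GL (Fin 2) F, (∀ i j, D.v ((g.val - 1) i j) ≤ exp (-(m : ℤ))) →
      Agree (D.wAct χ g (tvec D θ k)) (tvec D θ k) := by
  set f := tvec D θ k
  have hf : D.IsTest f := isTest_tvec hk hθ
  set f₁ := D.wAct χ (wMat : GL (Fin 2) F)⁻¹ f
  obtain ⟨j, hj⟩ := exists_opN_fix hf
  obtain ⟨j₁, hj₁⟩ := exists_opN_fix (hf.wAct (χ := χ) (wMat : GL (Fin 2) F)⁻¹)
  refine ⟨(max k (max (-j) (-j₁))).toNat, fun g hg => ?_⟩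
  set m : ℤ := ((max k (max (-j) (-j₁))).toNat : ℤ)
  have hm : m = max k (max (-j) (-j₁)) :=
    Int.toNat_of_nonneg (le_max_of_le_left (by omega))
  have hmk : k ≤ m := hm ▸ le_max_left _ _
  have hmj : -j ≤ m := hm ▸ (le_max_left _ _).trans (le_max_right _ _)
  have hmj₁ : -j₁ ≤ m := hm ▸ (le_max_right _ _).trans (le_max_right _ _)
  obtain ⟨a, b, c, d, hv⟩ : ∃ a b c d, g.val = !![a, b; c, d] :=
    ⟨_, _, _, _, Matrix.eta_fin_two g.val⟩
  have h00 : D.v (a - 1) ≤ exp (-m) := by simpa [hv] using hg 0 0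
  have h01 : D.v b ≤ exp (-m) := by simpa [hv] using hg 0 1
  have h10 : D.v c ≤ exp (-m) := by simpa [hv] using hg 1 0
  have h11 : D.v (d - 1) ≤ exp (-m) := by simpa [hv] using hg 1 1
  have hlt : exp (-m) < (1 : ℤᵐ⁰) := by rw [← exp_zero, exp_lt_exp]; omega
  have hone : ∀ {x : F}, D.v (x - 1) ≤ exp (-m) → D.v x = 1 := fun {x} hx => by
    rw [show x = 1 + (x - 1) by ring,
      Valuation.map_add_eq_of_lt_left _ (by rw [map_one]; exact hx.trans_lt hlt), map_one]
  have hva := hone h00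
  have ha : a ≠ 0 := fun e => by simp [e] at hva
  set e' := d - c / a * b with he'def
  have he'1 : D.v (e' - 1) ≤ exp (-m) := by
    rw [he'def, show d - c / a * b - 1 = (d - 1) - c / a * b by ring]
    refine (Valuation.map_sub _ _ _).trans (max_le h11 ?_)
    rw [map_mul, map_div₀, hva, div_one]
    exact (mul_le_of_le_one_right zero_le (h01.trans hlt.le)).trans h10
  have hve' := hone he'1
  have he' : e' ≠ 0 := fun e => by simp [e] at hve'
  set lo : GL (Fin 2) F := wMat * upper 1 (-(c / a)) 1 one_ne_zero one_ne_zero * wMat⁻¹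
  have hg' : g = lo * upper a b e' ha he' := by
    refine Units.ext ?_
    simp only [lo, Units.val_mul, Matrix.coe_units_inv, wMat_val, upper_val, Matrix.inv_def,
      Matrix.adjugate_fin_two_of, Matrix.det_fin_two_of, hv, he'def]
    ext i l
    fin_cases i <;> fin_cases l <;>
      simp [Matrix.mul_apply, Fin.sum_univ_two]
    field_simp
  have hup : Agree (D.wAct χ (upper a b e' ha he') f) f := by
    intro x u hu
    rw [wAct_upper]
    have hD : Agree (D.opD χ a e' f) f := by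
      intro y w _
      simp only [opD]
      have hχe : χ e' = 1 := by
        rw [← hθχ e' he']
        refine hθ _ ?_
        rw [← map_one (algebraMap F M), ← map_sub, ← mul_one (algebraMap F M (e' - 1)),
          ← Algebra.smul_def]
        have := D.smul_mem_lat (n := k) (k := 0) (he'1.trans (exp_le_exp.2 (by omega)))
          (show (1 : M) ∈ D.lat 0 by rw [D.lat_zero]; exact D.one_mem)
        rwa [zero_add] at this
      rw [hχe, D.absv_exp (show D.v (a * e' ^ 3) = exp 0 by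
        rw [map_mul, map_pow, hva, hve', exp_zero, one_pow, one_mul])]
      simp only [zpow_zero, Real.sqrt_one, Complex.ofReal_one, inv_one, one_mul]
      have hy : algebraMap F M e'⁻¹ - 1 ∈ D.lat k := by
        rw [← map_one (algebraMap F M), ← map_sub, ← mul_one (algebraMap F M (e'⁻¹ - 1)),
          ← Algebra.smul_def]
        have := D.smul_mem_lat (n := k) (k := 0) (a := e'⁻¹ - 1) ?_
          (show (1 : M) ∈ D.lat 0 by rw [D.lat_zero]; exact D.one_mem)
        · rwa [zero_add] at this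
        rw [show e'⁻¹ - 1 = -((e' - 1) * e'⁻¹) by field_simp; ring, Valuation.map_neg, map_mul,
          map_inv₀, hve', inv_one, mul_one]
        exact he'1.trans (exp_le_exp.2 (by omega))
      rw [Algebra.smul_def, mul_comm (algebraMap F M e'⁻¹), mul_comm (a * e') w]
      refine tvec_congr hk (isU_congr hk hy).1 (hθ _ hy) ?_ y w
      rw [D.N_algebraMap, show a * e' * e'⁻¹ ^ 2 - 1 = ((a - 1) - (e' - 1)) * e'⁻¹ by
        field_simp; ring, map_mul, map_inv₀, hve', inv_one, mul_one]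
      exact ((Valuation.map_sub _ _ _).trans (max_le h00 he'1)).trans (exp_le_exp.2 (by omega))
    rw [hD.opN _ x u hu, hj (b / e') ?_ x u hu]
    rw [map_div₀, hve', div_one]
    exact h01.trans (exp_le_exp.2 (by omega))
  have hn := hf.nice
  have hlo : Agree (D.wAct χ lo f) f := by
    refine (wAct_mul hχ _ _ hn).trans ?_
    refine (wAct_mul hχ _ _ (nice_wAct hn _)).trans ?_
    have hfix : Agree (D.wAct χ (upper 1 (-(c / a)) 1 one_ne_zero one_ne_zero) f₁) f₁ := by
      rw [wAct_upper, opD_one, div_one]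
      refine hj₁ _ ?_
      rw [Valuation.map_neg, map_div₀, hva, div_one]
      exact h10.trans (exp_le_exp.2 (by omega))
    refine (hfix.wAct wMat).trans ?_
    refine (wAct_mul hχ _ _ hn).symm.trans ?_
    rw [mul_inv_cancel, wAct_one]
    exact Agree.refl _
  rw [hg']
  exact (wAct_mul hχ _ _ hn).trans ((hup.wAct lo).trans hlo)

/-! ### Boundedness -/

/-- Bounded away from `u = 0`. -/
def Bdd (f : M → F → ℂ) : Prop := ∃ B : ℝ, ∀ x u, u ≠ 0 → ‖f x u‖ ≤ B

/-- The test vector is bounded. -/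
lemma bdd_tvec (hn : ∀ x : M, x ≠ 0 → ‖θ x‖ = 1) : Bdd (tvec D θ k) := by
  classical
  refine ⟨1, fun x u _ => ?_⟩
  simp only [tvec]
  split_ifs with h
  · exact (hn x h.1.ne_zero).le
  · simp

lemma Bdd.opD {f : M → F → ℂ} (h : Bdd f) {a e : F} (ha : a ≠ 0) (he : e ≠ 0) :
    Bdd (D.opD χ a e f) := by
  obtain ⟨B, hB⟩ := h
  refine ⟨‖χ e * ((√(D.absv (a * e ^ 3)) : ℝ) : ℂ)⁻¹‖ * B, fun x u hu => ?_⟩
  simp only [LocQuad.opD, norm_mul]
  gcongr
  exact hB _ _ (mul_ne_zero (mul_ne_zero ha he) hu)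

lemma Bdd.opN (hψ : ∀ a, ‖D.ψ a‖ = 1) {f : M → F → ℂ} (h : Bdd f) (b : F) :
    Bdd (D.opN b f) := by
  obtain ⟨B, hB⟩ := h
  refine ⟨B, fun x u hu => ?_⟩
  simp only [LocQuad.opN, norm_mul, hψ, one_mul]
  exact hB x u hu

/-- The Weyl operator preserves boundedness. -/
lemma Bdd.opW (hχ : D.IsSignChar χ) (hψ : ∀ a, ‖D.ψ a‖ = 1) {f : M → F → ℂ} (h : Bdd f)
    (hf : D.IsTest f) : Bdd (D.opW f) := by
  classical
  obtain ⟨B, hB⟩ := h
  obtain ⟨a, m, n, ha, hmn⟩ := hf
  set c₀ := D.π ^ (-a)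
  have hc₀ : D.v c₀ = exp a := by rw [D.v_zpow, neg_neg]
  have hc₀0 : c₀ ≠ 0 := zpow_ne_zero _ D.π_ne_zero
  set k₀ := a - D.d - n - (D.e : ℤ)
  set n' := max (max n (a - D.d - k₀)) m
  set T := (D.chain.finite_image_mk (m := m) (n := n') (le_max_right _ _)).toFinset
  set K := ‖((D.chain.Q : ℂ) ^ n')⁻¹‖ * ((T.card : ℝ) * |B|)
  refine ⟨‖(D.G c₀)⁻¹‖ * K, fun x u hu => ?_⟩
  show ‖(D.G u)⁻¹ * D.ft u (fun y => f y u) x‖ ≤ _
  have hK : 0 ≤ K := by positivity
  by_cases hva : D.v u = exp a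
  swap
  · rw [show (fun y => f y u) = fun _ => (0 : ℂ) from funext fun y => ha y u hva]
    simp only [ft, zero_mul, LatticeChain.integ_zero, mul_zero, norm_zero]
    positivity
  by_cases hx : x ∈ D.lat k₀
  swap
  · rw [D.ft_supported hva (hmn u hu).1 (hmn u hu).2 x hx, mul_zero, norm_zero]
    positivity
  have hG : ‖(D.G u)⁻¹‖ = ‖(D.G c₀)⁻¹‖ := by
    have h1 : D.v (u / c₀) = exp 0 := by rw [map_div₀, hva, hc₀, div_self exp_ne_zero, exp_zero]
    have hne : u / c₀ ≠ 0 := div_ne_zero hu hc₀0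
    have h2 := hχ.G_mul c₀ (u / c₀) hc₀0 hne
    rw [mul_div_cancel₀ _ hc₀0, D.absv_exp h1] at h2
    simp only [zpow_zero, Complex.ofReal_one, inv_one, mul_one] at h2
    have h3 : ‖χ (u / c₀)‖ = 1 := by
      have h4 := congrArg norm (hχ.mul_self _ hne)
      rw [norm_mul, norm_one, ← pow_two] at h4
      exact (pow_eq_one_iff_of_nonneg (norm_nonneg _) two_ne_zero).1 h4
    rw [h2, norm_inv, norm_inv, norm_mul, h3, one_mul]
  rw [norm_mul, hG]
  refine mul_le_mul_of_nonneg_left ?_ (norm_nonneg _)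
  set g := fun y => f y u * D.ψ (-(u * D.B y x))
  have hp : D.chain.IsPeriodic n' g := fun y c hc => by
    show f (y + c) u * D.ψ (-(u * D.B (y + c) x)) = _
    rw [show f (y + c) u = f y u from
        (hmn u hu).1.mono ((le_max_left _ _).trans (le_max_left _ _)) y c hc, D.B_add_left,
      mul_add, neg_add, D.ψ_add]
    have h1 := D.ψ_B_eq_one (c := -u) (a := a) (by rw [Valuation.map_neg, hva]) hc hx (by
      have : a - D.d - k₀ ≤ n' := (le_max_right _ _).trans (le_max_left _ _)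
      omega)
    rw [neg_mul] at h1
    rw [h1, mul_one]
  have hs : D.chain.IsSupported m g := fun y hy => by simp [g, (hmn u hu).2 y hy]
  show ‖D.chain.integ g‖ ≤ _
  rw [LatticeChain.integ_eq hp hs, LatticeChain.sumAt, norm_mul,
    finsum_eq_sum_of_support_subset _ (s := T) ?_]
  · refine mul_le_mul_of_nonneg_left ((norm_sum_le _ _).trans ?_) (norm_nonneg _)
    refine (Finset.sum_le_card_nsmul _ _ |B| fun c _ => ?_).trans_eq (nsmul_eq_mul _ _)
    show ‖f _ u * _‖ ≤ _
    rw [norm_mul, hψ, mul_one]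
    exact (hB _ u hu).trans (le_abs_self _)
  · intro c hc
    refine Finset.mem_coe.2 ((Set.Finite.mem_toFinset _).2 ⟨c.out, ?_, QuotientAddGroup.out_eq' c⟩)
    by_contra h
    exact hc (hs _ h)

/-- The Weil representation preserves boundedness. -/
lemma Bdd.wAct (hχ : D.IsSignChar χ) (hψ : ∀ a, ‖D.ψ a‖ = 1) {f : M → F → ℂ} (h : Bdd f)
    (hf : D.IsTest f) (g : GL (Fin 2) F) : Bdd (D.wAct χ g f) := by
  unfold LocQuad.wAct
  split_ifs with hc
  · exact (h.opD (diag_ne_zero hc).1 (diag_ne_zero hc).2).opN hψ _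
  · exact ((((h.opN hψ _).opW hχ hψ (hf.opN _)).opD
      (div_ne_zero (GeneralLinearGroup.det_ne_zero g) hc) hc)).opN hψ _

end FermatAgent.LT2.Theta.Loc
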