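import Fermat.Agent.LT2.Theta.Setup
import Fermat.Agent.LT2.Theta.Local

/-!
# Factorisable finite Schwartz families
-/

set_option autoImplicit false

noncomputable section

open IsDedekindDomain NumberField WithZero Filter
open scoped MatrixGroups

namespace FermatAgent.LT2.Theta

variable {L M : Type*} [Field L] [NumberField L] [Field M] [Algebra L M]
  [Algebra.IsQuadraticExtension L M]

open FermatAgent.LT FermatAgent.LT.Theta FermatAgent.LT.Theta.LocQuad

namespace ThetaCore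

variable (Θ : ThetaCore L M)

/-- A factorisable family. -/
structure Fam where
  /-- the local functions -/
  f : HeightOneSpectrum (𝓞 L) → M → L → ℂ
  isTest : ∀ v, (Θ.loc v).IsTest (f v)
  isInv : ∀ v, (Θ.loc v).IsInv (Θ.unitLevel v) (f v)
  almost : ∀ᶠ v in cofinite, Agree (f v) (Θ.loc v).sph

variable {Θ}

/-- The components are nice. -/
lemma Fam.nice (F : Θ.Fam) (v : HeightOneSpectrum (𝓞 L)) : (Θ.loc v).Nice (F.f v) :=
  (F.isTest v).nice

lemma eventually_sph_eq_one (ξ : M) {u : L} (hu : u ≠ 0) :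
    ∀ᶠ v in cofinite, (Θ.loc v).sph ξ u = 1 := by
  filter_upwards [LocalChar.eventually_cond_eq_zero, eventually_valuation_eq_one hu,
    Quad.eventually_mem_lattice (L := L) ξ] with v hd hv hξ
  classical
  have h1 : (Θ.loc v).v u = exp (Θ.loc v).d := by
    show v.valuation L u = exp (LocalChar.cond v)
    rw [hv, hd, exp_zero]
  simp only [sph, if_pos h1, ind_zero_eq]
  exact if_pos hξ

lemma Fam.eventually_eq_one (F : Θ.Fam) (ξ : M) {u : L} (hu : u ≠ 0) :
    ∀ᶠ v in cofinite, F.f v ξ u = 1 := by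
  filter_upwards [F.almost, eventually_sph_eq_one (Θ := Θ) ξ hu] with v h h1
  rw [h ξ u hu, h1]

/-- The value of a family: the product of the local values. -/
def Fam.val (F : Θ.Fam) (ξ : M) (u : L) : ℂ := ∏ᶠ v, F.f v ξ u

/-- Almost all local values are one. -/
lemma Fam.mulSupport_finite (F : Θ.Fam) (ξ : M) {u : L} (hu : u ≠ 0) :
    (Function.mulSupport fun v => F.f v ξ u).Finite :=
  eventually_cofinite.1 (F.eventually_eq_one ξ hu)

/-- Agreeing families have equal values. -/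
lemma Fam.val_congr {F G : Θ.Fam} (h : ∀ v, Agree (F.f v) (G.f v)) (ξ : M) {u : L} (hu : u ≠ 0) :
    F.val ξ u = G.val ξ u :=
  finprod_congr fun v => h v ξ u hu

/-- A vanishing component kills the value. -/
lemma Fam.val_eq_zero (F : Θ.Fam) {ξ : M} {u : L} (hu : u ≠ 0) {v : HeightOneSpectrum (𝓞 L)}
    (h : F.f v ξ u = 0) : F.val ξ u = 0 :=
  finprod_eq_zero _ v h (F.mulSupport_finite ξ hu)

/-- The value as a finite product. -/
lemma Fam.val_eq_prod (F : Θ.Fam) (ξ : M) {u : L}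
    {s : Finset (HeightOneSpectrum (𝓞 L))} (hs : ∀ v ∉ s, F.f v ξ u = 1) :
    F.val ξ u = ∏ v ∈ s, F.f v ξ u :=
  finprod_eq_prod_of_mulSupport_subset _ fun v hv => by
    by_contra hvs
    exact hv (hs v hvs)

variable (Θ)

variable {Θ}

/-- Apply the Fourier operator at every place. -/
def Fam.weyl (F : Θ.Fam) : Θ.Fam where
  f v := (Θ.loc v).opW (F.f v)
  isTest v := (F.isTest v).opW
  isInv v := fun k hk =>
    (LT.Theta.LocQuad.opH_opW k.ne_zero (F.nice v)).trans (Agree.opW (F.isInv v k hk))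
  almost := by
    filter_upwards [F.almost, Θ.eventually_not_mem] with v h hS
    exact (Agree.opW h).trans (opW_sph (Θ.isUnimodular hS))

/-- The components of the Weyl transform. -/
lemma Fam.weyl_f (F : Θ.Fam) (v : HeightOneSpectrum (𝓞 L)) :
    F.weyl.f v = (Θ.loc v).opW (F.f v) := rfl

/-- Multiply by the quadratic character of `b` at every place. -/
def Fam.unip (F : Θ.Fam) (b : L) : Θ.Fam where
  f v := (Θ.loc v).opN b (F.f v)
  isTest v := (F.isTest v).opN b
  isInv v := fun k hk => by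
    rw [opH_opN k.ne_zero]
    exact (F.isInv v k hk).opN b
  almost := by
    filter_upwards [F.almost, eventually_valuation_le_one (L := L) b] with v h hb
    exact (h.opN b).trans (by rw [opN_sph hb]; exact Agree.refl _)

/-- The torus preserves test functions. -/
lemma isTest_opH {v : HeightOneSpectrum (𝓞 L)} {f : M → L → ℂ} (hf : (Θ.loc v).IsTest f)
    {w : M} (hw : w ≠ 0) : (Θ.loc v).IsTest ((Θ.loc v).opH w f) := by
  obtain ⟨a, m, n, ha, hh⟩ := hf
  obtain ⟨i, hi⟩ := (Θ.loc v).exists_mem_lat w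
  obtain ⟨j, hj⟩ := (Θ.loc v).exists_mem_lat w⁻¹
  have hNw : (Θ.loc v).N w ≠ 0 := fun e => hw ((Θ.loc v).N_eq_zero.1 e)
  obtain ⟨b, hb⟩ := (Θ.loc v).exists_v_eq hNw
  refine ⟨a + b, m + j, n - i, fun x u hu => ?_, fun u hu => ⟨fun x c hc => ?_, fun x hx => ?_⟩⟩
  · refine ha _ _ fun e => hu ?_
    rw [map_div₀, hb, div_eq_iff exp_ne_zero] at e
    rw [e, ← exp_add]
  · show f (w * (x + c)) _ = f (w * x) _
    rw [mul_add]
    exact (hh _ (div_ne_zero hu hNw)).1 _ _ (show w * c ∈ (Θ.loc v).lat n by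
      have := (Θ.loc v).mul_mem_lat hi hc; rwa [add_sub_cancel] at this)
  · refine (hh _ (div_ne_zero hu hNw)).2 _ fun hm => hx ?_
    have := (Θ.loc v).mul_mem_lat hj hm
    rwa [← mul_assoc, inv_mul_cancel₀ hw, one_mul, add_comm] at this

lemma isInv_opH {v : HeightOneSpectrum (𝓞 L)} {f : M → L → ℂ}
    (hf : (Θ.loc v).IsInv (Θ.unitLevel v) f) {w : M} (hw : w ≠ 0) :
    (Θ.loc v).IsInv (Θ.unitLevel v) ((Θ.loc v).opH w f) := fun h hh x u hu => by
  have hNw : (Θ.loc v).N w ≠ 0 := fun e => hw ((Θ.loc v).N_eq_zero.1 e)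
  have h1 := hf h hh (w * x) (u / (Θ.loc v).N w) (div_ne_zero hu hNw)
  simp only [opH] at h1 ⊢
  rwa [mul_left_comm, div_right_comm]

/-- Act by a finite idele. -/
def Fam.smulH (F : Θ.Fam) (h : HeightOneSpectrum (𝓞 L) → Mˣ) (hh : IsIdele L h) : Θ.Fam where
  f v := (Θ.loc v).opH (h v : M) (F.f v)
  isTest v := isTest_opH (F.isTest v) (h v).ne_zero
  isInv v := isInv_opH (F.isInv v) (h v).ne_zero
  almost := by
    filter_upwards [F.almost, hh, Θ.eventually_not_mem] with v hF hv hS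
    refine (hF.opH (h v).ne_zero).trans (Θ.isInv_sph v (h v) ?_)
    exact ⟨⟨hv.1, hv.2⟩, Θ.θ_unr v hS _ hv.1 hv.2⟩

/-- The torus action commutes with the Weyl operator. -/
lemma Fam.smulH_weyl (F : Θ.Fam) {h : HeightOneSpectrum (𝓞 L) → Mˣ} (hh : IsIdele L h)
    (v : HeightOneSpectrum (𝓞 L)) :
    Agree ((F.weyl.smulH h hh).f v) ((F.smulH h hh).weyl.f v) :=
  LT.Theta.LocQuad.opH_opW (h v).ne_zero (F.nice v)

end ThetaCore

end FermatAgent.LT2.Theta
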