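import Fermat.Agent.LT.Theta.DualLattice
import Fermat.Agent.LT2.Theta.Family

/-!
# Finite sums over a lattice quotient as products of local Fourier integrals

`Fits` records a finite set of places and two scales adapted to a family at `u`. Global
representatives of the local lattice quotients exist (`glob_spec`), and a character sum over
them times the local volumes is the product of local Fourier integrals (`sum_rep_eq`). Off the
dual lattice the transformed family vanishes at some place (`transform_eq_zero`).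
-/

set_option autoImplicit false

noncomputable section

open IsDedekindDomain NumberField WithZero Filter

namespace FermatAgent.LT2.Theta

open FermatAgent.LT FermatAgent.LT.Theta
open FermatAgent.LT.Theta.LocQuad FermatAgent.LT.Theta.Coord

variable {L M : Type*} [Field L] [NumberField L] [IsTotallyComplex L] [Field M] [Algebra L M]
  [Algebra.IsQuadraticExtension L M] {Θ : ThetaCore L M}

/-- The finite set of special places for a family at `u` and scales `κ ≥ κ'`. -/
structure Fits (F : Θ.Fam) (u : L) (S : Finset (HeightOneSpectrum (𝓞 L))) (κ κ' : L) : Prop where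
  κ_ne : κ ≠ 0
  κ'_ne : κ' ≠ 0
  le : ∀ v : HeightOneSpectrum (𝓞 L), v.valuation L κ' ≤ v.valuation L κ
  out : ∀ v ∉ S, v ∉ Θ.S ∧ LocalChar.cond v = 0 ∧ v.valuation L u = 1 ∧ IsGood L M v ∧
    v.valuation L κ = 1 ∧ v.valuation L κ' = 1 ∧
    ∀ x, F.f v x u = (Θ.loc v).chain.ind 0 x
  supp : ∀ v ∈ S, ∀ x, x ∉ cLat L M v κ → F.f v x u = 0
  per : ∀ v ∈ S, ∀ x, ∀ y ∈ cLat L M v κ', F.f v (x + y) u = F.f v x u

namespace Fits

omit [IsTotallyComplex L]

lemma eRat_neg_pairing {u : L} {x ζ : M} (T : Finset (HeightOneSpectrum (𝓞 L)))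
    (h : ∀ w ∉ T, w.valuation L (u * Algebra.trace L M (x * Quad.conj L M ζ)) ≤ 1) :
    LocalChar.eRat (-pairing u x ζ) =
      ∏ v ∈ T, (Θ.loc v).ψ (-(u * (Θ.loc v).B x ζ)) := by
  rw [pairing, ← map_neg, ← LocalChar.prod_ψloc T fun w hw => by
    rw [Valuation.map_neg]; exact h w hw]
  rfl

lemma exists_trivial_scale (u : L) (ζ : M) (v : HeightOneSpectrum (𝓞 L)) :
    ∃ k : ℤ, ∀ κ₁ : L, v.valuation L κ₁ ≤ exp k →
      ∀ y ∈ cLat L M v κ₁, (Θ.loc v).ψ (-(u * (Θ.loc v).B y ζ)) = 1 := by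
  obtain ⟨i, hi⟩ := (Θ.loc v).exists_mem_lat ζ
  obtain ⟨a, ha⟩ := (Θ.loc v).exists_v_le u
  refine ⟨-(a - i - (Θ.loc v).d), fun κ₁ hκ₁ y hy => (Θ.loc v).ψ_eq_one _ ?_⟩
  have hy' : y ∈ (Θ.loc v).lat (a - i - (Θ.loc v).d) :=
    cLat_le_lat (Θ.loc v) v rfl (gen_mem L M v) hκ₁ hy
  rw [Valuation.map_neg, map_mul]
  calc _ ≤ exp a * exp (-(a - i - (Θ.loc v).d + i)) := by
        have := (Θ.loc v).v_B_le hy' hi
        gcongr
    _ = _ := by rw [← exp_add]; congr 1; ring

variable {F : Θ.Fam} {u κ κ' : L} {S : Finset (HeightOneSpectrum (𝓞 L))}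
  (h : Fits F u S κ κ')

include h

/-- Outside `S` the lattices are maximal. -/
lemma mem_lattice_out {v : HeightOneSpectrum (𝓞 L)} (hv : v ∉ S) {x : M}
    (hx : x ∈ cLat L M v κ') : x ∈ Quad.lattice L M v := by
  refine cLat_subset_lattice ((cLat_congr ?_).le hx)
  rw [(h.out v hv).2.2.2.2.2.1, map_one]

lemma sph_out {v : HeightOneSpectrum (𝓞 L)} (hv : v ∉ S) (x : M) :
    (Θ.loc v).sph x u = (Θ.loc v).chain.ind 0 x := by
  have : (Θ.loc v).v u = exp (Θ.loc v).d := by
    show v.valuation L u = exp (LocalChar.cond v)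
    rw [(h.out v hv).2.2.1, (h.out v hv).2.1, exp_zero]
  simp only [sph, if_pos this]

/-- Outside `S` the Weyl transform is the indicator of the lattice. -/
lemma opW_out {v : HeightOneSpectrum (𝓞 L)} (hv : v ∉ S) (hu : u ≠ 0) (x : M) :
    (Θ.loc v).opW (F.f v) x u = (Θ.loc v).chain.ind 0 x := by
  have e : (fun y => F.f v y u) = fun y => (Θ.loc v).sph y u :=
    funext fun y => ((h.out v hv).2.2.2.2.2.2 y).trans (h.sph_out hv y).symm
  have h1 : (Θ.loc v).opW (F.f v) x u = (Θ.loc v).opW (Θ.loc v).sph x u := by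
    show _ * (Θ.loc v).ft u _ x = _ * (Θ.loc v).ft u _ x
    rw [e]
  rw [h1, LocQuad.opW_sph (Θ.isUnimodular (h.out v hv).1) x u hu, h.sph_out hv]

open Classical in
/-- A dual point pairs trivially with the small lattice at every place. -/
theorem local_orth (hu : u ≠ 0) {ζ : M}
    (hζ : ∀ k : Idx L → ℤ, ∃ n : ℤ, pairing u (latElt (M := M) κ' k) ζ = n)
    (v : HeightOneSpectrum (𝓞 L)) {y : M} (hy : y ∈ cLat L M v κ') :
    (Θ.loc v).ψ (-(u * (Θ.loc v).B y ζ)) = 1 := by
  have hbad : ∀ᶠ w : HeightOneSpectrum (𝓞 L) in cofinite,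
      w.valuation L u = 1 ∧ ζ ∈ Quad.lattice L M w :=
    (eventually_valuation_eq_one hu).and (Quad.eventually_mem_lattice ζ)
  let T : Finset (HeightOneSpectrum (𝓞 L)) :=
    insert v (S ∪ (eventually_cofinite.1 hbad).toFinset)
  have hTout : ∀ w ∉ T, w ∉ S ∧ w.valuation L u = 1 ∧ ζ ∈ Quad.lattice L M w := by
    intro w hw
    simp only [T, Finset.mem_insert, Finset.mem_union, Set.Finite.mem_toFinset, Set.mem_ofPred_eq,
      not_or, not_not] at hw
    exact ⟨hw.2.1, hw.2.2⟩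
  choose k hk using fun w => exists_trivial_scale (Θ := Θ) u ζ w
  obtain ⟨N, hN⟩ : ∃ N : ℕ, ∀ (w : HeightOneSpectrum (𝓞 L)), w ∈ T →
      exp (-(N : ℤ)) * w.valuation L κ' ≤ exp (k w) := by
    refine ⟨T.sup fun (w : HeightOneSpectrum (𝓞 L)) => (log (w.valuation L κ') - k w).toNat,
      fun w hw => ?_⟩
    nth_rewrite 1 [← exp_log (x := w.valuation L κ') ((Valuation.ne_zero_iff _).2 h.κ'_ne)]
    rw [← exp_add, exp_le_exp]
    have h1 := Finset.le_sup (f := fun w => (log (w.valuation L κ') - k w).toNat) hw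
    have := Int.self_le_toNat (log (w.valuation L κ') - k w)
    omega
  obtain ⟨D, hD0, hD⟩ := Approx.exists_small T N
  set κ'' := algebraMap (𝓞 L) L D * κ'
  have hκ'' : κ'' ≠ 0 := mul_ne_zero (by simpa using hD0) h.κ'_ne
  have hle : ∀ w : HeightOneSpectrum (𝓞 L), w.valuation L κ'' ≤ w.valuation L κ' := fun w => by
    rw [map_mul]; exact mul_le_of_le_one_left zero_le (w.valuation_le_one D)
  have hsmall : ∀ (w : HeightOneSpectrum (𝓞 L)), w ∈ T →
      w.valuation L κ'' ≤ exp (k w) := fun w hw => by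
    rw [map_mul]; exact (mul_le_mul_left (hD w hw) _).trans (hN w hw)
  obtain ⟨q, hq, hq'⟩ := Coord.exists_approx T (fun w => if w = v then y else 0) κ'' hκ''
  have hqmem : ∀ w, q ∈ cLat L M w κ' := by
    intro w
    by_cases hw : w ∈ T
    · have h1 := cLat_mono (hle w) (hq w hw)
      by_cases hwv : w = v
      · subst hwv
        rw [if_pos rfl] at h1
        simpa using add_mem h1 hy
      · rwa [if_neg hwv, sub_zero] at h1
    · refine (cLat_congr ?_).le (hq' w hw)
      rw [map_one, (h.out w (hTout w hw).1).2.2.2.2.2.1]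
  obtain ⟨n₀, hn₀⟩ := exists_latElt h.κ'_ne hqmem
  obtain ⟨n, hn⟩ := hζ n₀
  have hprod : LocalChar.eRat (-pairing u q ζ) = 1 := by
    rw [← hn₀, hn, ← Int.cast_neg]; exact LocalChar.eRat_intCast _
  rw [eRat_neg_pairing (Θ := Θ) T fun w hw => by
      rw [map_mul, (hTout w hw).2.1, one_mul]
      exact Quad.v_trace_mul_le (cLat_subset_lattice (hq' w hw)) (hTout w hw).2.2,
    Finset.prod_eq_single v] at hprod
  · have h1 := hk v κ'' (hsmall v (Finset.mem_insert_self v _)) (q - y) (by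
      simpa using hq v (Finset.mem_insert_self v _))
    have e : -(u * (Θ.loc v).B q ζ) =
        -(u * (Θ.loc v).B y ζ) + -(u * (Θ.loc v).B (q - y) ζ) := by
      nth_rewrite 1 [show q = y + (q - y) by ring]
      rw [LocQuad.B_add_left]; ring
    rw [e, (Θ.loc v).ψ_add, h1, mul_one] at hprod
    exact hprod
  · intro w hw hwv
    refine hk w κ'' (hsmall w hw) q ?_
    have := hq w hw
    rwa [if_neg hwv, sub_zero] at this
  · exact fun hv => absurd (Finset.mem_insert_self v _) hv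

/-- Outside the special places a dual point is integral. -/
theorem dual_mem_lattice (hu : u ≠ 0) {ζ : M}
    (hζ : ∀ k : Idx L → ℤ, ∃ n : ℤ, pairing u (latElt (M := M) κ' k) ζ = n)
    {v : HeightOneSpectrum (𝓞 L)} (hv : v ∉ S) : ζ ∈ Quad.lattice L M v := by
  obtain ⟨hvS, hd, hvu, hgood, -, hvκ', -⟩ := h.out v hv
  have horth : ∀ y ∈ (Θ.loc v).lat 0, (Θ.loc v).ψ (-u * (Θ.loc v).B ζ y) = 1 := by
    intro y hy
    rw [neg_mul, (Θ.loc v).B_comm]
    refine h.local_orth hu hζ v ((cLat_congr ?_).le ((cLat_one_eq hgood).2 ?_))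
    · rw [map_one, hvκ']
    · rw [LocQuad.lat_zero] at hy; exact hy
  have hc : (Θ.loc v).v (-u) = exp (0 : ℤ) := by
    rw [Valuation.map_neg, exp_zero]; exact hvu
  have h1 := (Θ.loc v).mem_lat_of_orth hc horth
  rw [show (0 : ℤ) - (Θ.loc v).d - 0 - (Θ.loc v).e = 0 by
    rw [(Θ.isUnimodular hvS).e_eq, show (Θ.loc v).d = LocalChar.cond v from rfl, hd]; simp,
    LocQuad.lat_zero] at h1
  exact h1

omit h in
lemma exists_lat_le_cLat (v : HeightOneSpectrum (𝓞 L)) {κ₁ : L} (hκ₁ : κ₁ ≠ 0) :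
    ∃ n : ℤ, (Θ.loc v).lat n ≤ cLat L M v κ₁ := by
  obtain ⟨k, hk⟩ := exists_lat_le (Θ.loc v) v rfl rfl (M := M) 0
  obtain ⟨a, ha⟩ := Approx.exists_small {v} 0
  set m := log (v.valuation L κ₁)
  have hm : v.valuation L κ₁ = exp m := (exp_log ((Valuation.ne_zero_iff _).2 hκ₁)).symm
  refine ⟨k - m, fun x hx => ?_⟩
  set s : L := (Θ.loc v).π ^ (k - m)
  have hs : v.valuation L s = exp (-(k - m)) := (Θ.loc v).v_zpow _
  have hs0 : s ≠ 0 := zpow_ne_zero _ (Θ.loc v).π_ne_zero
  have hx' : s⁻¹ • x ∈ (Θ.loc v).lat 0 := by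
    rw [LocQuad.lat_zero]
    have := (Θ.loc v).mem_lat.1 hx
    rwa [_root_.zpow_neg] at this
  have hκs : exp k ≤ v.valuation L (s⁻¹ * κ₁) := by
    rw [map_mul, map_inv₀, hs, ← WithZero.exp_neg, hm, ← exp_add, exp_le_exp]; omega
  have h1 := hk _ hκs hx'
  rw [mem_cLat, ca_smul, cb_smul, map_mul, map_mul, map_mul] at h1
  have hpos : 0 < v.valuation L s⁻¹ := by rw [map_inv₀, hs, ← WithZero.exp_neg]; exact exp_pos
  exact ⟨le_of_mul_le_mul_left h1.1 hpos, le_of_mul_le_mul_left h1.2 hpos⟩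

omit h in
lemma exists_le_lat (v : HeightOneSpectrum (𝓞 L)) {κ₁ : L} (hκ₁ : κ₁ ≠ 0) :
    ∃ m : ℤ, cLat L M v κ₁ ≤ (Θ.loc v).lat m :=
  ⟨-log (v.valuation L κ₁), cLat_le_lat (Θ.loc v) v rfl (gen_mem L M v) (by
    rw [neg_neg, exp_log ((Valuation.ne_zero_iff _).2 hκ₁)])⟩

/-- Representatives of the lattice quotient at `v`. -/
lemma exists_reps (v : HeightOneSpectrum (𝓞 L)) : ∃ R : Finset M,
    (∀ r ∈ R, r ∈ cLat L M v κ) ∧
    (∀ x ∈ cLat L M v κ, ∃ r ∈ R, x - r ∈ cLat L M v κ') ∧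
    (∀ r ∈ R, ∀ r' ∈ R, r - r' ∈ cLat L M v κ' → r = r') := by
  classical
  set P := cLat L M v κ
  set Q := cLat L M v κ'
  have hQP : Q ≤ P := cLat_mono (h.le v)
  obtain ⟨m, hm⟩ := exists_le_lat (Θ := Θ) v h.κ_ne
  obtain ⟨n, hn⟩ := exists_lat_le_cLat (Θ := Θ) v h.κ'_ne
  have hmn : min m n ≤ n := min_le_right _ _
  have hfin : ((QuotientAddGroup.mk : M → M ⧸ Q) '' (P : Set M)).Finite := by
    refine ((((Θ.loc v).chain).finite_image_mk hmn).image
      (fun c : M ⧸ (Θ.loc v).lat n => (QuotientAddGroup.mk c.out : M ⧸ Q))).subset ?_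
    rintro _ ⟨x, hx, rfl⟩
    refine ⟨QuotientAddGroup.mk x,
      ⟨x, (Θ.loc v).lat_mono (min_le_left m n) (hm hx), rfl⟩, ?_⟩
    rw [QuotientAddGroup.eq]
    obtain ⟨z, hz⟩ := QuotientAddGroup.mk_out_eq_add ((Θ.loc v).lat n) x
    rw [hz, neg_add_rev, add_assoc, neg_add_cancel, add_zero]
    exact hn (neg_mem z.2)
  refine ⟨hfin.toFinset.image fun c => c.out, fun r hr => ?_, fun x hx => ?_,
    fun r hr r' hr' hd => ?_⟩
  · obtain ⟨c, hc, rfl⟩ := Finset.mem_image.1 hr
    obtain ⟨x, hx, rfl⟩ := hfin.mem_toFinset.1 hc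
    obtain ⟨z, hz⟩ := QuotientAddGroup.mk_out_eq_add Q x
    rw [hz]
    exact add_mem hx (hQP z.2)
  · refine ⟨_, Finset.mem_image.2 ⟨_, hfin.mem_toFinset.2 ⟨x, hx, rfl⟩, rfl⟩, ?_⟩
    obtain ⟨z, hz⟩ := QuotientAddGroup.mk_out_eq_add Q x
    rw [hz, sub_add_cancel_left]
    exact neg_mem z.2
  · obtain ⟨c, -, rfl⟩ := Finset.mem_image.1 hr
    obtain ⟨c', -, rfl⟩ := Finset.mem_image.1 hr'
    have : c = c' := by
      rw [← QuotientAddGroup.out_eq' c, ← QuotientAddGroup.out_eq' c', QuotientAddGroup.eq]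
      rw [neg_add_eq_sub, ← neg_sub]
      exact neg_mem hd
    rw [this]

/-- The local volume of the small lattice. -/
def vol (_ : Fits F u S κ κ') (v : HeightOneSpectrum (𝓞 L)) : ℂ :=
  (Θ.loc v).chain.integ ((cLat L M v κ' : Set M).indicator fun _ => (1 : ℂ))

/-- Lattice indicators are Schwartz and have nonzero volume. -/
lemma ind_schwartz (v : HeightOneSpectrum (𝓞 L)) :
    ((cLat L M v κ' : Set M).indicator fun _ => (1 : ℂ)) ∈ (Θ.loc v).chain.schwartz ∧
    vol h v ≠ 0 := by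
  classical
  obtain ⟨m, hm⟩ := exists_le_lat (Θ := Θ) v h.κ'_ne
  obtain ⟨n, hn⟩ := exists_lat_le_cLat (Θ := Θ) v h.κ'_ne
  have hp : (Θ.loc v).chain.IsPeriodic n ((cLat L M v κ' : Set M).indicator fun _ => (1 : ℂ)) :=
    fun x a ha => by
      have := hn ha
      by_cases hx : x ∈ cLat L M v κ'
      · simp [hx, add_mem hx this]
      · have : x + a ∉ cLat L M v κ' := fun h' => hx (by simpa using sub_mem h' this)
        simp [hx, this]
  have hs : (Θ.loc v).chain.IsSupported m ((cLat L M v κ' : Set M).indicator fun _ => (1 : ℂ)) :=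
    fun x hx => Set.indicator_of_notMem (fun hx' : x ∈ cLat L M v κ' => hx (hm hx')) _
  exact ⟨LatticeChain.mem_schwartz hp hs,
    LatticeChain.integ_indicator_ne_zero hp hs (zero_mem _)⟩

/-- An integral over the chain as a sum over representatives. -/
lemma integ_eq_sum (v : HeightOneSpectrum (𝓞 L)) {R : Finset M}
    (hR : (∀ r ∈ R, r ∈ cLat L M v κ) ∧
      (∀ x ∈ cLat L M v κ, ∃ r ∈ R, x - r ∈ cLat L M v κ') ∧
      (∀ r ∈ R, ∀ r' ∈ R, r - r' ∈ cLat L M v κ' → r = r'))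
    {g : M → ℂ} (hs : ∀ x ∉ cLat L M v κ, g x = 0)
    (hp : ∀ x, ∀ y ∈ cLat L M v κ', g (x + y) = g x) :
    (Θ.loc v).chain.integ g = vol h v * ∑ r ∈ R, g r := by
  classical
  set χ := (cLat L M v κ' : Set M).indicator fun _ => (1 : ℂ)
  obtain ⟨hχ, -⟩ := h.ind_schwartz v
  have hmem : ∀ r : M, (fun x => χ (x + -r)) ∈ (Θ.loc v).chain.schwartz := by
    intro r
    obtain ⟨m, n, hn, hm⟩ := hχ
    obtain ⟨i, hi⟩ := (Θ.loc v).exists_mem_lat r
    refine LatticeChain.mem_schwartz (m := min m i) (n := n) (fun x b hb => ?_) fun x hx => ?_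
    · show χ (x + b + -r) = _
      rw [add_right_comm]
      exact hn _ b hb
    · refine hm _ fun hmx => hx ?_
      have h1 : x ∈ (Θ.loc v).lat (min m i) := by
        have := add_mem ((Θ.loc v).lat_mono (min_le_left m i) hmx)
          ((Θ.loc v).lat_mono (min_le_right m i) hi)
        simpa using this
      exact h1
  have e : g = fun x => ∑ r ∈ R, g r * χ (x + -r) := by
    funext x
    by_cases hx : x ∈ cLat L M v κ
    · obtain ⟨r, hr, hxr⟩ := hR.2.1 x hx
      rw [Finset.sum_eq_single r]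
      · have : χ (x + -r) = 1 := Set.indicator_of_mem (by rwa [← sub_eq_add_neg]) _
        rw [this, mul_one, show g x = g (r + (x - r)) by rw [add_sub_cancel], hp _ _ hxr]
      · intro r' hr' hne
        have : x + -r' ∉ cLat L M v κ' := fun h' => hne (hR.2.2 r' hr' r hr (by
          rw [show r' - r = (x - r) - (x + -r') by ring]; exact sub_mem hxr h'))
        simp [χ, this]
      · exact fun h' => absurd hr h'
    · rw [hs x hx, Finset.sum_eq_zero fun r hr => ?_]
      have : x + -r ∉ cLat L M v κ' := fun h' => hx (by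
        have := add_mem (cLat_mono (h.le v) h') (hR.1 r hr)
        rwa [neg_add_cancel_right] at this)
      simp [χ, this]
  conv_lhs => rw [e]
  rw [LatticeChain.integ_sum R (fun r x => g r * χ (x + -r))
    fun r _ => Submodule.smul_mem _ (g r) (hmem r), Finset.mul_sum]
  refine Finset.sum_congr rfl fun r _ => ?_
  rw [LatticeChain.integ_smul (hmem r), LatticeChain.integ_comp_add hχ, mul_comm]
  rfl

/-- Representatives at each place. -/
def reps (v : HeightOneSpectrum (𝓞 L)) : Finset M := (h.exists_reps v).choose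

/-- The representatives of a lattice quotient. -/
lemma reps_spec (v : HeightOneSpectrum (𝓞 L)) :
    (∀ r ∈ h.reps v, r ∈ cLat L M v κ) ∧
    (∀ x ∈ cLat L M v κ, ∃ r ∈ h.reps v, x - r ∈ cLat L M v κ') ∧
    (∀ r ∈ h.reps v, ∀ r' ∈ h.reps v, r - r' ∈ cLat L M v κ' → r = r') :=
  (h.exists_reps v).choose_spec

open Classical in
/-- Families of representatives. -/
def repFam : Finset ((v : HeightOneSpectrum (𝓞 L)) → v ∈ S → M) := S.pi fun v => h.reps v

open Classical in
/-- A global element with the given local representatives. -/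
def glob (c : (v : HeightOneSpectrum (𝓞 L)) → v ∈ S → M) : M :=
  (Coord.exists_approx S (fun v => if hv : v ∈ S then c v hv else 0) κ' h.κ'_ne).choose

/-- The global approximation of local data. -/
lemma glob_spec (c : (v : HeightOneSpectrum (𝓞 L)) → v ∈ S → M) :
    (∀ v (hv : v ∈ S), h.glob c - c v hv ∈ cLat L M v κ') ∧
      ∀ v ∉ S, h.glob c ∈ cLat L M v 1 := by
  classical
  obtain ⟨h1, h2⟩ :=
    (Coord.exists_approx S (fun v => if hv : v ∈ S then c v hv else 0) κ' h.κ'_ne).choose_spec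
  refine ⟨fun v hv => ?_, h2⟩
  have := h1 v hv
  rwa [dif_pos hv] at this

/-- The sum over the lattice quotient against a character of the dual lattice is the product of
the local Fourier integrals. -/
theorem sum_rep_eq (hu : u ≠ 0) {ζ : M}
    (hζ : ∀ k : Idx L → ℤ, ∃ n : ℤ, pairing u (latElt (M := M) κ' k) ζ = n) :
    ∏ v ∈ S, (Θ.loc v).ft u (fun x => F.f v x u) ζ =
      (∏ v ∈ S, h.vol v) *
        ∑ c ∈ h.repFam, F.val (h.glob c) u * LocalChar.eRat (-pairing u (h.glob c) ζ) := by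
  classical
  have hfac : ∀ v ∈ S, (Θ.loc v).ft u (fun x => F.f v x u) ζ =
      h.vol v * ∑ r ∈ h.reps v, F.f v r u * (Θ.loc v).ψ (-(u * (Θ.loc v).B r ζ)) := by
    intro v hv
    refine h.integ_eq_sum v (h.reps_spec v) (g := fun r => F.f v r u *
      (Θ.loc v).ψ (-(u * (Θ.loc v).B r ζ))) (fun x hx => by simp [h.supp v hv x hx])
      fun x y hy => ?_
    show F.f v (x + y) u * _ = _
    rw [h.per v hv x y hy, LocQuad.B_add_left, mul_add, neg_add, (Θ.loc v).ψ_add,
      h.local_orth hu hζ v hy, mul_one]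
  rw [Finset.prod_congr rfl hfac, Finset.prod_mul_distrib, Finset.prod_sum]
  congr 1
  refine Finset.sum_congr rfl fun c hc => ?_
  have hval : F.val (h.glob c) u = ∏ v ∈ S, F.f v (h.glob c) u := by
    refine F.val_eq_prod _ fun v hv => ?_
    rw [(h.out v hv).2.2.2.2.2.2, LocQuad.ind_zero_eq]
    exact if_pos (cLat_subset_lattice ((h.glob_spec c).2 v hv))
  rw [hval, eRat_neg_pairing (Θ := Θ) S fun v hv => by
      rw [map_mul, (h.out v hv).2.2.1, one_mul]
      exact Quad.v_trace_mul_le (cLat_subset_lattice ((h.glob_spec c).2 v hv))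
        (h.dual_mem_lattice hu hζ hv),
    ← Finset.prod_mul_distrib, ← Finset.prod_attach S
      (fun v => F.f v (h.glob c) u * (Θ.loc v).ψ (-(u * (Θ.loc v).B (h.glob c) ζ)))]
  refine Finset.prod_congr rfl fun v _ => ?_
  have hy := (h.glob_spec c).1 v.1 v.2
  have hper := h.per v.1 v.2 (c v.1 v.2) _ hy
  rw [add_sub_cancel] at hper
  rw [hper]
  congr 1
  conv_rhs => rw [show h.glob c = c v.1 v.2 + (h.glob c - c v.1 v.2) by ring]
  rw [LocQuad.B_add_left, mul_add, neg_add, (Θ.loc v.1).ψ_add, h.local_orth hu hζ v.1 hy, mul_one]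

/-- Off the dual lattice the transformed family vanishes. -/
theorem transform_eq_zero (hu : u ≠ 0) {ζ : M}
    (hζ : ¬∀ k : Idx L → ℤ, ∃ n : ℤ, pairing u (latElt (M := M) κ' k) ζ = n) :
    ∃ v, (Θ.loc v).opW (F.f v) ζ u = 0 := by
  classical
  push Not at hζ
  obtain ⟨k, hk⟩ := hζ
  set q := latElt (M := M) κ' k
  have hne : LocalChar.eRat (-pairing u q ζ) ≠ 1 := fun e => by
    obtain ⟨n, hn⟩ := LocalChar.eRat_eq_one e
    exact hk (-n) (by push_cast; linear_combination -hn)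
  by_cases hall : ∀ v ∉ S, ζ ∈ Quad.lattice L M v
  · rw [eRat_neg_pairing (Θ := Θ) S fun v hv => by
      rw [map_mul, (h.out v hv).2.2.1, one_mul]
      exact Quad.v_trace_mul_le (h.mem_lattice_out hv (latElt_mem k v)) (hall v hv)] at hne
    obtain ⟨v, hv, hψ⟩ := Finset.exists_ne_one_of_prod_ne_one hne
    refine ⟨v, ?_⟩
    show _ * (Θ.loc v).ft u (fun x => F.f v x u) ζ = 0
    have hF := (Θ.loc v).ftIntegrand_mem (c := u) (F.nice v u hu) ζ
    have key : (Θ.loc v).ft u (fun x => F.f v x u) ζ = (Θ.loc v).ψ (-(u * (Θ.loc v).B q ζ)) *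
        (Θ.loc v).ft u (fun x => F.f v x u) ζ := by
      conv_lhs => rw [LocQuad.ft, ← LatticeChain.integ_comp_add hF q]
      rw [LocQuad.ft, ← LatticeChain.integ_smul hF]
      refine congrArg _ (funext fun x => ?_)
      show F.f v (x + q) u * (Θ.loc v).ψ (-(u * (Θ.loc v).B (x + q) ζ)) =
        _ * (F.f v x u * (Θ.loc v).ψ (-(u * (Θ.loc v).B x ζ)))
      rw [h.per v hv x q (latElt_mem k v), LocQuad.B_add_left, mul_add, neg_add,
        (Θ.loc v).ψ_add]
      ring
    have : (1 - (Θ.loc v).ψ (-(u * (Θ.loc v).B q ζ))) *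
        (Θ.loc v).ft u (fun x => F.f v x u) ζ = 0 := by linear_combination key
    rw [(mul_eq_zero.1 this).resolve_left (sub_ne_zero.2 (Ne.symm hψ)), mul_zero]
  · push Not at hall
    obtain ⟨v, hv, hzv⟩ := hall
    refine ⟨v, ?_⟩
    rw [h.opW_out hv hu, LocQuad.ind_zero_eq]
    exact if_neg hzv

end Fits

end FermatAgent.LT2.Theta
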