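import Fermat.Agent.LT.Theta.ArchSum
import Fermat.Agent.LT2.Theta.FiniteSum

/-!
# Poisson summation for global theta series

Splitting a global theta series into lattice cosets (`hasSum_theta`) and applying Poisson
summation on Euclidean space gives the transformation formula `theta_transform`, with an
explicit constant `transConst` for a fitting pair of lattices. Theta series converge
(`summable_theta`), and comparing with the nonnegative family `shellFam` shows that one constant
serves for all families at `u` (`exists_poisson_const`).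
-/

set_option autoImplicit false

noncomputable section

open IsDedekindDomain NumberField WithZero Filter UnitAddTorus
open FermatAgent.LT.Poisson (intVec)

namespace FermatAgent.LT2.Theta

open FermatAgent.LT FermatAgent.LT.Theta
open FermatAgent.LT.Theta.LocQuad FermatAgent.LT.Theta.Coord FermatAgent.LT.Theta.Arch
  FermatAgent.LT.Theta.PoissonD

variable {L M : Type*} [Field L] [NumberField L] [IsTotallyComplex L] [Field M] [Algebra L M]
  [Algebra.IsQuadraticExtension L M] {Θ : ThetaCore L M}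

namespace ThetaCore

/-- The theta series of a family at `u`. -/
def Fam.theta (F : Θ.Fam) (P : InfPts L) (ρ : InfinitePlace L → ℝ) (u : L) : ℂ :=
  ∑' ξ : M, F.val ξ u * gw P ρ u (ιM (L := L) ξ)

end ThetaCore

open FermatAgent.LT2.Theta.ThetaCore

namespace Fits

variable {F : Θ.Fam} {u κ κ' : L} {S : Finset (HeightOneSpectrum (𝓞 L))}
  (h : Fits F u S κ κ')

include h

omit [IsTotallyComplex L] in
lemma val_glob_add {c : (v : HeightOneSpectrum (𝓞 L)) → v ∈ S → M}
    (k : Idx L → ℤ) :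
    F.val (h.glob c + latElt κ' k) u = F.val (h.glob c) u := by
  refine finprod_congr fun v => ?_
  by_cases hv : v ∈ S
  · exact h.per v hv _ _ (latElt_mem k v)
  · classical
    have hg : h.glob c ∈ Quad.lattice L M v := cLat_subset_lattice ((h.glob_spec c).2 v hv)
    rw [(h.out v hv).2.2.2.2.2.2, (h.out v hv).2.2.2.2.2.2, LocQuad.ind_zero_eq,
      LocQuad.ind_zero_eq, if_pos (show h.glob c + latElt κ' k ∈ (Θ.loc v).O from
        add_mem hg (h.mem_lattice_out hv (latElt_mem k v))),
      if_pos (show h.glob c ∈ (Θ.loc v).O from hg)]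

lemma coset_inj {c c' : (v : HeightOneSpectrum (𝓞 L)) → v ∈ S → M} (hc : c ∈ h.repFam)
    (hc' : c' ∈ h.repFam) {k k' : Idx L → ℤ}
    (e : h.glob c + latElt κ' k = h.glob c' + latElt κ' k') : c = c' ∧ k = k' := by
  classical
  have hcc : c = c' := by
    funext v hv
    refine (h.reps_spec v).2.2 _ (Finset.mem_pi.1 hc v hv) _ (Finset.mem_pi.1 hc' v hv) ?_
    have h1 := (h.glob_spec c).1 v hv
    have h2 := (h.glob_spec c').1 v hv
    have h3 : h.glob c - h.glob c' ∈ cLat L M v κ' := by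
      rw [show h.glob c - h.glob c' = latElt κ' k' - latElt κ' k by linear_combination e]
      exact sub_mem (latElt_mem k' v) (latElt_mem k v)
    rw [show c v hv - c' v hv = (h.glob c - h.glob c') - (h.glob c - c v hv) +
      (h.glob c' - c' v hv) by ring]
    exact add_mem (sub_mem h3 h1) h2
  subst hcc
  exact ⟨rfl, latElt_injective h.κ'_ne (add_left_cancel e)⟩

omit [IsTotallyComplex L] in
lemma exists_coset (hu : u ≠ 0) {ξ : M} (hξ : F.val ξ u ≠ 0) :
    ∃ c ∈ h.repFam, ∃ k, h.glob c + latElt κ' k = ξ := by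
  classical
  have hne : ∀ v, F.f v ξ u ≠ 0 := fun v e => hξ (F.val_eq_zero hu e)
  have hS : ∀ v ∈ S, ξ ∈ cLat L M v κ := fun v hv => by
    by_contra e; exact hne v (h.supp v hv _ e)
  have hout : ∀ v ∉ S, ξ ∈ cLat L M v 1 := fun v hv => by
    have := hne v
    rw [(h.out v hv).2.2.2.2.2.2, LocQuad.ind_zero_eq] at this
    refine (cLat_one_eq (h.out v hv).2.2.2.1).2 ?_
    by_contra e
    exact this (if_neg e)
  choose c hc hc' using fun v (hv : v ∈ S) => (h.reps_spec v).2.1 ξ (hS v hv)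
  have hmem : c ∈ h.repFam := Finset.mem_pi.2 hc
  refine ⟨c, hmem, ?_⟩
  obtain ⟨k, hk⟩ := exists_latElt h.κ'_ne (x := ξ - h.glob c) fun v => by
    by_cases hv : v ∈ S
    · rw [show ξ - h.glob c = (ξ - c v hv) - (h.glob c - c v hv) by ring]
      exact sub_mem (hc' v hv) ((h.glob_spec c).1 v hv)
    · refine (cLat_congr ?_).le (sub_mem (hout v hv) ((h.glob_spec c).2 v hv))
      rw [map_one, (h.out v hv).2.2.2.2.2.1]
  exact ⟨k, by rw [hk]; ring⟩

/-- The coordinates of a coset representative. -/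
def xc (c : (v : HeightOneSpectrum (𝓞 L)) → v ∈ S → M) : EuclideanSpace ℝ (Idx L) :=
  WithLp.toLp 2 ((coordEquiv (M := M) h.κ'_ne).symm (ιM (h.glob c)))

lemma latDecay_xc (P : InfPts L) {ρ : InfinitePlace L → ℝ} (hρ : ∀ w, 0 < ρ w) (hu : u ≠ 0)
    (c : (v : HeightOneSpectrum (𝓞 L)) → v ∈ S → M) (k : Idx L → ℤ) :
    (latDecay (M := M) P hρ hu h.κ'_ne).toFun (h.xc c + intVec k) =
      gw P ρ u (ιM (L := L) (h.glob c + latElt κ' k)) := by
  show gw P ρ u (coordEquiv (M := M) h.κ'_ne (WithLp.ofLp (h.xc c + intVec k))) = _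
  congr 1
  rw [WithLp.ofLp_add, map_add, ιM_add, ιM_latElt h.κ'_ne, coordEquiv_apply h.κ'_ne
    (WithLp.ofLp (intVec k))]
  simp only [xc, WithLp.ofLp_toLp, ContinuousLinearEquiv.apply_symm_apply, intVec]

theorem hasSum_theta (P : InfPts L) {ρ : InfinitePlace L → ℝ} (hρ : ∀ w, 0 < ρ w) (hu : u ≠ 0) :
    HasSum (fun ξ : M => F.val ξ u * gw P ρ u (ιM (L := L) ξ))
      (∑ c ∈ h.repFam, F.val (h.glob c) u *
        ∑' k, (latDecay (M := M) P hρ hu h.κ'_ne).toFun (h.xc c + intVec k)) := by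
  classical
  set f := fun ξ : M => F.val ξ u * gw P ρ u (ιM (L := L) ξ)
  let g := fun c : (v : HeightOneSpectrum (𝓞 L)) → v ∈ S → M =>
    fun k : Idx L → ℤ => h.glob c + latElt κ' k
  have hg : ∀ c, Function.Injective (g c) := fun c k k' e =>
    latElt_injective h.κ'_ne (add_left_cancel (show h.glob c + latElt κ' k = _ from e))
  have hc : ∀ c ∈ h.repFam, HasSum ((Set.range (g c)).indicator f) (F.val (h.glob c) u *
      ∑' k, (latDecay (M := M) P hρ hu h.κ'_ne).toFun (h.xc c + intVec k)) := by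
    intro c hc
    refine hasSum_subtype_iff_indicator.1 ((hg c).hasSum_range_iff.2 ?_)
    refine (((summable_restrict _ (h.xc c)).hasSum).mul_left _).congr_fun fun k => ?_
    show f (g c k) = _
    simp only [f, g, h.val_glob_add]
    congr 1
    exact (h.latDecay_xc P hρ hu c k).symm
  refine (hasSum_sum hc).congr_fun fun ξ => ?_
  by_cases hξ : F.val ξ u = 0
  · rw [Finset.sum_eq_zero fun c _ => by
      by_cases hm : ξ ∈ Set.range (g c)
      · simp [Set.indicator_of_mem hm, f, hξ]
      · exact Set.indicator_of_notMem hm _]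
    show F.val ξ u * _ = 0
    rw [hξ, zero_mul]
  · obtain ⟨c, hcm, k, rfl⟩ := h.exists_coset hu hξ
    rw [Finset.sum_eq_single c, Set.indicator_of_mem (show _ ∈ Set.range (g c) from ⟨k, rfl⟩)]
    · intro c' hc' hne
      refine Set.indicator_of_notMem ?_ _
      rintro ⟨k', e⟩
      exact hne (h.coset_inj hc' hcm e).1
    · exact fun e => absurd hcm e

omit h in
variable (M κ') in
/-- The dual lattice. -/
def zeta (u : L) (n : Idx L → ℤ) : M := dualPt M u κ' fun j => (n j : ℚ)

lemma phase_zeta (hu : u ≠ 0) (n : Idx L → ℤ) (y : Idx L → ℝ) :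
    phase u (ιM (L := L) (zeta M κ' u n)) (coordEquiv (M := M) h.κ'_ne y) =
      -∑ j, (n j : ℝ) * y j := by
  classical
  rw [coordEquiv_apply, map_sum, ← Finset.sum_neg_distrib]
  refine Finset.sum_congr rfl fun j _ => ?_
  have e : latBasis M h.κ'_ne j = ιM (L := L) (latElt (M := M) κ' (Pi.single j 1)) := by
    rw [ιM_latElt h.κ'_ne, Finset.sum_eq_single j (fun k _ hk => by simp [hk]) (by simp)]
    simp
  have hp : (phase u (ιM (L := L) (zeta M κ' u n))
      (ιM (L := L) (latElt (M := M) κ' (Pi.single j 1))) : ℂ) = ((-(n j) : ℚ) : ℂ) := by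
    rw [phase_ιM, show Algebra.trace ℚ L (u * Algebra.trace L M
        (latElt κ' (Pi.single j 1) * Quad.conj L M (zeta M κ' u n))) =
      pairing u (latElt κ' (Pi.single j 1)) (zeta M κ' u n) from rfl, zeta,
      pairing_dualPt hu h.κ'_ne, Finset.sum_eq_single j (fun k _ hk => by simp [hk]) (by simp)]
    simp
  push_cast at hp
  rw [map_smul, e, smul_eq_mul, show phase u (ιM (L := L) (zeta M κ' u n))
    (ιM (L := L) (latElt (M := M) κ' (Pi.single j 1))) = -(n j : ℝ) by exact_mod_cast hp]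
  ring

lemma mFourier_xc (hu : u ≠ 0) (c : (v : HeightOneSpectrum (𝓞 L)) → v ∈ S → M)
    (n : Idx L → ℤ) :
    mFourier n (fun i => (h.xc c i : UnitAddCircle)) =
      LocalChar.eRat (-pairing u (h.glob c) (zeta M κ' u n)) := by
  have h1 := FermatAgent.LT.Poisson.mFourier_neg_coe (-n) (WithLp.ofLp (h.xc c))
  rw [neg_neg] at h1
  rw [h1, LocalChar.eRat]
  congr 1
  have h2 := h.phase_zeta hu n (WithLp.ofLp (h.xc c))
  simp only [xc, WithLp.ofLp_toLp, ContinuousLinearEquiv.apply_symm_apply] at h2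
  have h3 := phase_ιM (M := M) u (h.glob c) (zeta M κ' u n)
  rw [h2] at h3
  push_cast at h3 ⊢
  rw [pairing, ← h3]
  simp only [xc, Pi.neg_apply, Int.cast_neg, neg_mul, Finset.sum_neg_distrib]
  ring

lemma intCoeff_latDecay (P : InfPts L) {ρ : InfinitePlace L → ℝ} (hρ : ∀ w, 0 < ρ w)
    (hu : u ≠ 0) (n : Idx L → ℤ) :
    intCoeff (latDecay (M := M) P hρ hu h.κ'_ne : EuclideanSpace ℝ (Idx L) → ℂ) n =
      ((exists_jacobian M h.κ'_ne).choose : ℂ) *
        (Kinf u * gw (wPt P) ρ u (ιM (L := L) (zeta M κ' u n))) := by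
  rw [← fourier_gw P hρ hu, ← (exists_jacobian M h.κ'_ne).choose_spec, intCoeff]
  refine MeasureTheory.integral_congr_ae (MeasureTheory.ae_of_all _ fun y => ?_)
  show _ * gw P ρ u (coordEquiv (M := M) h.κ'_ne y) = _
  beta_reduce
  rw [mul_comm, kerInf_eq, h.phase_zeta hu n y, FermatAgent.LT.Poisson.mFourier_neg_coe]
  push_cast
  ring_nf

lemma summable_gw_zeta (P : InfPts L) {ρ : InfinitePlace L → ℝ} (hρ : ∀ w, 0 < ρ w)
    (hu : u ≠ 0) : Summable fun n => ‖gw P ρ u (ιM (L := L) (zeta M κ' u n))‖ := by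
  classical
  obtain ⟨C, hC, hb⟩ := gw_decay P hρ hu (Fintype.card (Idx L) + 1)
  set U := ∑ w : InfinitePlace L, 4 * ‖w.embedding u‖
  set A := U * ∑ j : Idx L, ‖latBasis M h.κ'_ne j‖
  have hA : 0 ≤ A := by positivity
  have key : ∀ n, ‖intVec n‖ ≤ A * ‖ιM (L := L) (zeta M κ' u n)‖ := by
    intro n
    set Z := ιM (L := L) (zeta M κ' u n)
    have hn : ∀ j, |(n j : ℝ)| ≤ U * ‖latBasis M h.κ'_ne j‖ * ‖Z‖ := by
      intro j
      have h1 := h.phase_zeta hu n (Pi.single j 1)
      rw [coordEquiv_apply, Finset.sum_eq_single j (fun k _ hk => by simp [hk]) (by simp),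
        Finset.sum_eq_single j (fun k _ hk => by simp [hk]) (by simp)] at h1
      simp only [Pi.single_eq_same, one_smul, mul_one] at h1
      rw [← abs_neg, ← h1, phase_apply, Finset.sum_mul, Finset.sum_mul]
      refine (Finset.abs_sum_le_sum_abs _ _).trans (Finset.sum_le_sum fun w _ => ?_)
      set X := latBasis M h.κ'_ne j
      rw [abs_mul, abs_two]
      calc (2 : ℝ) * |(w.embedding u * ((X w).1 * (Z w).2 + (X w).2 * (Z w).1)).re|
          ≤ 2 * (‖w.embedding u‖ * (‖X w‖ * ‖Z w‖ + ‖X w‖ * ‖Z w‖)) := by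
            refine mul_le_mul_of_nonneg_left ((Complex.abs_re_le_norm _).trans ?_) two_pos.le
            rw [norm_mul]
            refine mul_le_mul_of_nonneg_left ((norm_add_le _ _).trans ?_) (norm_nonneg _)
            rw [norm_mul, norm_mul]
            have := norm_fst_le (X w)
            have := norm_snd_le (X w)
            have := norm_fst_le (Z w)
            have := norm_snd_le (Z w)
            gcongr
        _ ≤ 4 * ‖w.embedding u‖ * ‖X‖ * ‖Z‖ := by
            have := norm_le_pi_norm X w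
            have := norm_le_pi_norm Z w
            nlinarith [mul_le_mul (norm_le_pi_norm X w) (norm_le_pi_norm Z w) (norm_nonneg _)
              (norm_nonneg _), norm_nonneg (w.embedding u)]
    have e : intVec n = ∑ j, (n j : ℝ) • EuclideanSpace.basisFun (Idx L) ℝ j := by
      conv_lhs => rw [← (EuclideanSpace.basisFun (Idx L) ℝ).sum_repr (intVec n)]
      simp
    rw [e, show A * ‖Z‖ = ∑ j : Idx L, U * ‖latBasis M h.κ'_ne j‖ * ‖Z‖ by
      simp only [A, Finset.mul_sum, Finset.sum_mul]]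
    refine (norm_sum_le _ _).trans (Finset.sum_le_sum fun j _ => ?_)
    rw [norm_smul, OrthonormalBasis.norm_eq_one, mul_one, Real.norm_eq_abs]
    exact hn j
  refine Summable.of_nonneg_of_le (fun _ => norm_nonneg _) (fun n => (hb _).trans ?_)
    (((FermatAgent.LT.Poisson.summable_one_add_norm_rpow (k := Fintype.card (Idx L) + 1)
      (Nat.lt_succ_self _)).mul_left (C * (1 + A) ^ (Fintype.card (Idx L) + 1))))
  rw [mul_assoc]
  refine mul_le_mul_of_nonneg_left ?_ hC
  rw [Real.rpow_neg (by positivity), Real.rpow_neg (by positivity), Real.rpow_natCast,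
    Real.rpow_natCast, ← div_eq_mul_inv, inv_eq_one_div, div_le_div_iff₀ (by positivity)
    (by positivity), one_mul, ← mul_pow]
  gcongr
  have := key n
  nlinarith [norm_nonneg (ιM (L := L) (zeta M κ' u n))]

/-- The constant of the transformation formula on a pair of lattices. -/
def transConst : ℂ :=
  ((exists_jacobian M h.κ'_ne).choose : ℂ) * Kinf u *
    ((∏ v ∈ S, (Θ.loc v).G u) / ∏ v ∈ S, h.vol v)

/-- **The transformation formula of theta series**: Poisson summation on a fitting pair of lattices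
exchanges a family with its Fourier transform and `P` with the inverted point. -/
theorem theta_transform (P : InfPts L) {ρ : InfinitePlace L → ℝ} (hρ : ∀ w, 0 < ρ w)
    (hu : u ≠ 0) : F.theta P ρ u = h.transConst * F.weyl.theta (wPt P) ρ u := by
  classical
  set D := latDecay (M := M) P hρ hu h.κ'_ne
  set J : ℂ := ((exists_jacobian M h.κ'_ne).choose : ℂ)
  have hco : ∀ n, intCoeff (D : EuclideanSpace ℝ (Idx L) → ℂ) n =
      J * (Kinf u * gw (wPt P) ρ u (ιM (L := L) (zeta M κ' u n))) :=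
    h.intCoeff_latDecay P hρ hu
  have hs0 : Summable fun n => gw (wPt P) ρ u (ιM (L := L) (zeta M κ' u n)) :=
    (h.summable_gw_zeta (wPt P) hρ hu).of_norm
  have hs : Summable (intCoeff (D : EuclideanSpace ℝ (Idx L) → ℂ)) := by
    rw [funext hco]; exact (hs0.mul_left _).mul_left _
  have hint : ∀ n (k : Idx L → ℤ), ∃ m : ℤ,
      pairing u (latElt (M := M) κ' k) (zeta M κ' u n) = m := fun n k =>
    ⟨-∑ j, k j * n j, by rw [zeta, pairing_dualPt hu h.κ'_ne]; push_cast; rfl⟩
  have hG : ∀ v, (Θ.loc v).G u ≠ 0 := fun v => (Θ.loc v).G_ne_zero hu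
  have hval : ∀ n, ∑ c ∈ h.repFam, F.val (h.glob c) u *
      mFourier n (fun i => (h.xc c i : UnitAddCircle)) =
      (∏ v ∈ S, (Θ.loc v).G u) / (∏ v ∈ S, h.vol v) * F.weyl.val (zeta M κ' u n) u := by
    intro n
    have hvol : ∏ v ∈ S, h.vol v ≠ 0 := Finset.prod_ne_zero_iff.2 fun v _ => (h.ind_schwartz v).2
    rw [Finset.sum_congr rfl fun c _ => by rw [h.mFourier_xc hu c n], div_mul_eq_mul_div,
      eq_div_iff hvol, mul_comm, ← h.sum_rep_eq hu (hint n)]
    have hv : F.weyl.val (zeta M κ' u n) u = ∏ v ∈ S, F.weyl.f v (zeta M κ' u n) u := by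
      refine F.weyl.val_eq_prod _ fun v hv => ?_
      rw [Fam.weyl_f, h.opW_out hv hu, LocQuad.ind_zero_eq]
      exact if_pos (h.dual_mem_lattice hu (hint n) hv)
    rw [hv, ← Finset.prod_mul_distrib]
    refine Finset.prod_congr rfl fun v _ => ?_
    rw [Fam.weyl_f]
    show _ = (Θ.loc v).G u * (((Θ.loc v).G u)⁻¹ * _)
    rw [← mul_assoc, mul_inv_cancel₀ (hG v), one_mul]
  have hright : F.weyl.theta (wPt P) ρ u =
      ∑' n, F.weyl.val (zeta M κ' u n) u * gw (wPt P) ρ u (ιM (L := L) (zeta M κ' u n)) := by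
    have hinj : Function.Injective (zeta M κ' u) := fun n n' e => by
      funext j
      exact_mod_cast congrFun (dualPt_injective hu h.κ'_ne e) j
    refine (hinj.tsum_eq (f := fun ξ => F.weyl.val ξ u * gw (wPt P) ρ u (ιM (L := L) ξ)) ?_).symm
    intro ζ hζ
    by_contra hnr
    refine hζ ?_
    by_cases hall : ∀ k : Idx L → ℤ, ∃ m : ℤ, pairing u (latElt (M := M) κ' k) ζ = m
    swap
    · obtain ⟨v, hv⟩ := h.transform_eq_zero hu hall
      show _ * _ = 0
      rw [F.weyl.val_eq_zero hu (v := v) (by rw [Fam.weyl_f]; exact hv), zero_mul]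
    · refine absurd ?_ hnr
      choose m hm using hall
      refine ⟨fun j => -m (Pi.single j 1), ?_⟩
      rw [zeta]
      conv_rhs => rw [eq_dualPt hu h.κ'_ne ζ]
      congr 1
      funext j
      rw [hm]; push_cast; rfl
  have hsum : ∀ c, Summable fun n => intCoeff (D : EuclideanSpace ℝ (Idx L) → ℂ) n *
      mFourier n (fun i => (h.xc c i : UnitAddCircle)) := fun c => by
    refine Summable.of_norm_bounded hs.norm fun n => ?_
    rw [norm_mul]
    refine mul_le_of_le_one_right (norm_nonneg _) (le_of_eq ?_)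
    rw [h.mFourier_xc hu c n, LocalChar.eRat, Complex.norm_exp]
    simp
  rw [Fam.theta, (h.hasSum_theta P hρ hu).tsum_eq, hright, ← tsum_mul_left]
  have e1 : ∀ c, F.val (h.glob c) u * ∑' k, D.toFun (h.xc c + intVec k) =
      ∑' n, F.val (h.glob c) u * (intCoeff (D : EuclideanSpace ℝ (Idx L) → ℂ) n *
        mFourier n (fun i => (h.xc c i : UnitAddCircle))) := fun c => by
    rw [tsum_eq_tsum_intCoeff D hs, tsum_mul_left]
  rw [Finset.sum_congr rfl fun c _ => e1 c, ← Summable.tsum_finsetSum fun c _ =>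
    (hsum c).mul_left _]
  refine tsum_congr fun n => ?_
  rw [Finset.sum_congr rfl fun c _ => mul_left_comm (F.val (h.glob c) u) _ _, ← Finset.mul_sum,
    hval, hco, transConst]
  ring

end Fits

lemma transConst_congr {F F' : Θ.Fam} {u κ κ' : L} {S : Finset (HeightOneSpectrum (𝓞 L))}
    (h : Fits F u S κ κ') (h' : Fits F' u S κ κ') : h.transConst = h'.transConst := rfl

namespace ThetaCore

omit [IsTotallyComplex L] in
/-- Lattice bounds for a family at `u`. -/
lemma exists_fit_bound (F : Θ.Fam) {u : L} (hu : u ≠ 0) :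
    ∃ (S : Finset (HeightOneSpectrum (𝓞 L))) (N : ℕ), ∀ (S' : Finset (HeightOneSpectrum (𝓞 L)))
      (κ κ' : L), S ⊆ S' → κ ≠ 0 → κ' ≠ 0 →
      (∀ v ∉ S', v.valuation L κ = 1 ∧ v.valuation L κ' = 1) →
      (∀ v ∈ S, exp (N : ℤ) ≤ v.valuation L κ ∧ v.valuation L κ' ≤ exp (-(N : ℤ))) →
      (∀ v : HeightOneSpectrum (𝓞 L), 1 ≤ v.valuation L κ ∧ v.valuation L κ' ≤ 1) →
        Fits F u S' κ κ' := by
  classical
  have hgood : ∀ᶠ v : HeightOneSpectrum (𝓞 L) in cofinite, (v ∉ Θ.S ∧ LocalChar.cond v = 0 ∧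
      v.valuation L u = 1 ∧ IsGood L M v) ∧ Agree (F.f v) (Θ.loc v).sph :=
    (Θ.eventually_not_mem.and (LocalChar.eventually_cond_eq_zero.and
      ((eventually_valuation_eq_one hu).and (eventually_good L M)))).and F.almost
  set S := (eventually_cofinite.1 hgood).toFinset
  choose a m n _ hmn using fun v => F.isTest v
  choose k hk using fun v => exists_lat_le (Θ.loc v) v rfl rfl (M := M) (m v)
  refine ⟨S, S.sup fun v => max (k v).toNat (n v).toNat, fun S' κ κ' hSS hκ hκ' hout hin hall => ?_⟩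
  have good : ∀ v ∉ S, (v ∉ Θ.S ∧ LocalChar.cond v = 0 ∧ v.valuation L u = 1 ∧ IsGood L M v) ∧
      ∀ x, F.f v x u = (Θ.loc v).chain.ind 0 x := by
    intro v hv
    simp only [S, Set.Finite.mem_toFinset, Set.mem_ofPred_eq, not_not] at hv
    refine ⟨hv.1, fun x => (hv.2 x u hu).trans ?_⟩
    have : (Θ.loc v).v u = exp (Θ.loc v).d := by
      show v.valuation L u = exp (LocalChar.cond v)
      rw [hv.1.2.1, hv.1.2.2.1, exp_zero]
    simp only [sph, if_pos this]
  refine ⟨hκ, hκ', fun v => (hall v).2.trans (hall v).1, fun v hv => ?_, fun v hv x hx => ?_,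
    fun v hv x y hy => ?_⟩
  · have := good v fun e => hv (hSS e)
    exact ⟨this.1.1, this.1.2.1, this.1.2.2.1, this.1.2.2.2, (hout v hv).1, (hout v hv).2, this.2⟩
  · by_cases hvS : v ∈ S
    · refine (hmn v u hu).2 x fun hxm => hx (hk v κ ?_ hxm)
      refine le_trans ?_ (hin v hvS).1
      rw [exp_le_exp]
      have := Finset.le_sup (f := fun v => max (k v).toNat (n v).toNat) hvS
      have := Int.self_le_toNat (k v)
      omega
    · rw [(good v hvS).2, LocQuad.ind_zero_eq, if_neg]
      exact fun hxo => hx (cLat_mono (by rw [map_one]; exact (hall v).1)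
        ((cLat_one_eq (good v hvS).1.2.2.2).2 hxo))
  · by_cases hvS : v ∈ S
    · refine (hmn v u hu).1 x y (cLat_le_lat (Θ.loc v) v rfl (gen_mem L M v) ?_ hy)
      refine le_trans (hin v hvS).2 ?_
      rw [exp_le_exp]
      have := Finset.le_sup (f := fun v => max (k v).toNat (n v).toNat) hvS
      have := Int.self_le_toNat (n v)
      omega
    · have hy' : y ∈ Quad.lattice L M v :=
        cLat_subset_lattice (cLat_mono (by rw [map_one]; exact (hall v).2) hy)
      rw [(good v hvS).2, (good v hvS).2, LocQuad.ind_zero_eq, LocQuad.ind_zero_eq]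
      exact if_congr (add_mem_cancel_right (show y ∈ (Θ.loc v).O from hy')) rfl rfl

omit [IsTotallyComplex L] in
/-- Common scales for two families, at two scalars. -/
lemma exists_fits₂ (F F' : Θ.Fam) {u u' : L} (hu : u ≠ 0) (hu' : u' ≠ 0) :
    ∃ (S : Finset (HeightOneSpectrum (𝓞 L))) (κ κ' : L),
      Fits F u S κ κ' ∧ Fits F' u' S κ κ' := by
  classical
  obtain ⟨S, N, hS⟩ := exists_fit_bound F hu
  obtain ⟨T, K, hT⟩ := exists_fit_bound F' hu'
  obtain ⟨D, hD0, hD⟩ := Approx.exists_small (S ∪ T) (max N K)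
  set d := algebraMap (𝓞 L) L D
  have hd : d ≠ 0 := by simpa [d] using hD0
  have hfin := eventually_cofinite.1 (eventually_valuation_eq_one (L := L) hd)
  set S' := S ∪ T ∪ hfin.toFinset
  have hout : ∀ v ∉ S', v.valuation L d⁻¹ = 1 ∧ v.valuation L d = 1 := fun v hv => by
    simp only [S', Finset.mem_union, Set.Finite.mem_toFinset, Set.mem_ofPred_eq, not_or,
      not_not] at hv
    exact ⟨by rw [map_inv₀, hv.2, inv_one], hv.2⟩
  have hall : ∀ v : HeightOneSpectrum (𝓞 L), 1 ≤ v.valuation L d⁻¹ ∧ v.valuation L d ≤ 1 :=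
    fun v => ⟨by
      rw [map_inv₀, one_le_inv₀ (zero_lt_iff.2 ((Valuation.ne_zero_iff _).2 hd))]
      exact v.valuation_le_one D, v.valuation_le_one D⟩
  have hin : ∀ K' ≤ max N K, ∀ (v : HeightOneSpectrum (𝓞 L)), v ∈ S ∪ T →
      exp (K' : ℤ) ≤ v.valuation L d⁻¹ ∧ v.valuation L d ≤ exp (-(K' : ℤ)) := fun K' hK' v hv => by
    have h1 : v.valuation L d ≤ exp (-(K' : ℤ)) :=
      (hD v hv).trans (by rw [exp_le_exp]; omega)
    refine ⟨?_, h1⟩
    rw [map_inv₀, le_inv_comm₀ exp_pos (zero_lt_iff.2 ((Valuation.ne_zero_iff _).2 hd)),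
      ← WithZero.exp_neg]
    exact h1
  refine ⟨S', d⁻¹, d, hS S' _ _ ?_ (inv_ne_zero hd) hd hout
    (fun v hv => hin N (le_max_left _ _) v (Finset.mem_union_left _ hv)) hall,
    hT S' _ _ ?_ (inv_ne_zero hd) hd hout
    (fun v hv => hin K (le_max_right _ _) v (Finset.mem_union_right _ hv)) hall⟩
  · intro v hv; simp [S', hv]
  · intro v hv; simp [S', hv]

omit [IsTotallyComplex L] in
/-- Common scales for two families. -/
lemma exists_fits (F F' : Θ.Fam) {u : L} (hu : u ≠ 0) :
    ∃ (S : Finset (HeightOneSpectrum (𝓞 L))) (κ κ' : L),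
      Fits F u S κ κ' ∧ Fits F' u S κ κ' :=
  exists_fits₂ F F' hu hu

/-- Theta series converge. -/
lemma summable_theta (F : Θ.Fam) (P : InfPts L) {ρ : InfinitePlace L → ℝ} (hρ : ∀ w, 0 < ρ w)
    {u : L} (hu : u ≠ 0) :
    Summable fun ξ : M => F.val ξ u * gw P ρ u (ιM (L := L) ξ) := by
  obtain ⟨S, κ, κ', h, -⟩ := exists_fits F F hu
  exact (h.hasSum_theta P hρ hu).summable

variable (Θ)

open Classical in
/-- The vector of one shell and the standard lattice. -/
def shellVec (u : L) (v : HeightOneSpectrum (𝓞 L)) : M → L → ℂ :=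
  fun x u' => if v.valuation L u' = v.valuation L u then (Θ.loc v).chain.ind 0 x else 0

/-- A family with nonnegative values at `u`. -/
def shellFam {u : L} (hu : u ≠ 0) : Θ.Fam where
  f := Θ.shellVec u
  isTest v := by
    obtain ⟨a, ha⟩ := (Θ.loc v).exists_v_eq hu
    refine ⟨a, 0, 0, fun x u' hu' => if_neg fun e => hu' (e.trans ha), fun u' _ =>
      ⟨fun x c hc => ?_, fun x hx => ?_⟩⟩
    · simp only [shellVec]
      split_ifs
      · exact LatticeChain.ind_periodic le_rfl x c hc
      · rfl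
    · simp only [shellVec]
      split_ifs
      · exact LatticeChain.ind_supported 0 x hx
      · rfl
  isInv v := fun h hh x u' _ => by
    classical
    have hmem : h ∈ (Θ.loc v).latUnits :=
      ⟨hh.1.1, by rw [Units.val_inv_eq_inv_val]; exact hh.1.inv.1⟩
    show Θ.shellVec u v ((h : M) * x) (u' / (Θ.loc v).N (h : M)) = Θ.shellVec u v x u'
    have hN : v.valuation L ((Θ.loc v).N (h : M)) = 1 := LocQuad.v_N_latUnits hmem
    simp only [shellVec, map_div₀, hN, div_one, LocQuad.ind_zero_eq]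
    refine if_congr Iff.rfl (if_congr ⟨fun hm => ?_, fun hm => (Θ.loc v).mul_mem _ _ hmem.1 hm⟩
      rfl rfl) rfl
    have := (Θ.loc v).mul_mem _ _ hmem.2 hm
    rwa [← mul_assoc, Units.inv_mul, one_mul] at this
  almost := by
    filter_upwards [LocalChar.eventually_cond_eq_zero, eventually_valuation_eq_one hu]
      with v hd hv x u' _
    simp only [shellVec, sph, hv]
    refine if_congr ?_ rfl rfl
    show _ ↔ v.valuation L u' = exp (LocalChar.cond v)
    rw [hd, exp_zero]

/-- The shell family has nonzero theta series. -/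
lemma shellFam_theta_ne_zero {u : L} (hu : u ≠ 0) :
    (Θ.shellFam hu).theta (fun _ => H3.base) 1 u ≠ 0 := by
  classical
  set F := Θ.shellFam hu
  have hf : ∀ v x, F.f v x u = (((if x ∈ (Θ.loc v).O then 1 else 0 : ℝ)) : ℂ) := fun v x => by
    show Θ.shellVec u v x u = _
    simp only [shellVec, if_true, LocQuad.ind_zero_eq]
    split_ifs <;> simp
  have hval : ∀ x, ∃ r : ℝ, 0 ≤ r ∧ F.val x u = r ∧ (x = 0 → r = 1) := by
    intro x
    by_cases hx : ∀ v, x ∈ (Θ.loc v).O
    · refine ⟨1, one_pos.le, ?_, fun _ => rfl⟩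
      rw [Fam.val, finprod_eq_one_of_forall_eq_one fun v => by simp [hf, hx v]]
      simp
    · push Not at hx
      obtain ⟨v, hv⟩ := hx
      refine ⟨0, le_rfl, ?_, fun e => absurd ?_ hv⟩
      · rw [F.val_eq_zero hu (v := v) (by simp [hf, hv])]; simp
      · subst e; exact zero_mem _
  choose r hr0 hr hr1 using hval
  let e : M → ℝ := fun x => ∏ w : InfinitePlace L,
    Real.exp (-(2 * Real.pi * ‖w.embedding u‖) *
      (‖(ιM (L := L) x w).1‖ ^ 2 + ‖(ιM (L := L) x w).2‖ ^ 2))
  have he : ∀ x, gw (fun _ => H3.base) 1 u (ιM (L := L) x) = (e x : ℂ) := fun x => by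
    simp only [e, gw, Complex.ofReal_prod]
    refine Finset.prod_congr rfl fun w _ => ?_
    simp [gauss, H3.base, ψC]
  have hs : Summable fun x => r x * e x := by
    have := summable_theta F (fun _ => H3.base) (ρ := 1) (fun _ => one_pos) hu
    rw [← Complex.summable_ofReal]
    refine this.congr fun x => ?_
    rw [hr, he, Complex.ofReal_mul]
  rw [Fam.theta, tsum_congr fun x => by rw [hr, he, ← Complex.ofReal_mul], ← Complex.ofReal_tsum,
    Ne, Complex.ofReal_eq_zero]
  refine (hs.tsum_pos (fun x => mul_nonneg (hr0 x) (Finset.prod_nonneg fun w _ =>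
    (Real.exp_pos _).le)) 0 ?_).ne'
  rw [hr1 0 rfl, one_mul]
  exact Finset.prod_pos fun w _ => Real.exp_pos _

/-- One constant serves in the transformation formula of all families at `u`. -/
theorem exists_poisson_const {u : L} (hu : u ≠ 0) :
    ∃ C : ℂ, C ≠ 0 ∧ ∀ (F : Θ.Fam) (P : InfPts L) (ρ : InfinitePlace L → ℝ), (∀ w, 0 < ρ w) →
      F.theta P ρ u = C * F.weyl.theta (wPt P) ρ u := by
  set F₀ := Θ.shellFam hu
  set P₀ : InfPts L := fun _ => H3.base
  have hne := Θ.shellFam_theta_ne_zero hu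
  set G := F₀.weyl.theta (wPt P₀) 1 u
  have hG : G ≠ 0 := by
    intro e
    obtain ⟨S, κ, κ', h, -⟩ := exists_fits F₀ F₀ hu
    exact hne ((h.theta_transform P₀ (ρ := 1) (fun _ => one_pos) hu).trans
      (by rw [show F₀.weyl.theta (wPt P₀) 1 u = 0 from e, mul_zero]))
  refine ⟨F₀.theta P₀ 1 u / G, div_ne_zero hne hG, fun F P ρ hρ => ?_⟩
  obtain ⟨S, κ, κ', h, h₀⟩ := exists_fits F F₀ hu
  rw [h.theta_transform P hρ hu, h₀.theta_transform P₀ (ρ := 1) (fun _ => one_pos) hu,
    transConst_congr h h₀, mul_div_cancel_right₀ _ hG]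

end ThetaCore

end FermatAgent.LT2.Theta
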