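import Fermat.Agent.LT.Theta.Automorphy
import Fermat.Agent.LT2.Theta.GlobalPoisson

/-!
# The Fourier operator fixes theta series, and the sign character at the special places

The global transformation constant is one by the braid relation.  Comparing it at two scalars gives
a product formula for the Gauss sums, and weak approximation then identifies the scaling of the
Gauss sum at a special place with the restriction of `θ`.
-/

set_option autoImplicit false

noncomputable section

open IsDedekindDomain NumberField WithZero Filter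
open scoped MatrixGroups

namespace FermatAgent.LT2.Theta

open FermatAgent.LT FermatAgent.LT.Theta
open FermatAgent.LT.Theta.LocQuad FermatAgent.LT.Theta.Coord FermatAgent.LT.Theta.Arch
open FermatAgent.LT2.Theta.ThetaCore

variable {L M : Type*} [Field L] [NumberField L] [IsTotallyComplex L] [Field M] [Algebra L M]
  [Algebra.IsQuadraticExtension L M] {Θ : ThetaCore L M}

omit [IsTotallyComplex L] in
/-- The local absolute value is the absolute value. -/
lemma absv_eq_absV (v : HeightOneSpectrum (𝓞 L)) (a : L) : (Θ.loc v).absv a = absV v a := rfl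

include Θ in
/-- The product formula for square roots. -/
lemma finprod_absv {x : L} (hx : x ≠ 0) :
    (∏ᶠ v, √((Θ.loc v).absv x)) = (∏ w : InfinitePlace L, w x)⁻¹ := by
  classical
  have hfin := eventually_cofinite.1 (eventually_absV_eq_one (L := L) hx)
  have h := product_formula hx
  have e2 : (∏ w : InfinitePlace L, w x ^ w.mult) = (∏ w : InfinitePlace L, w x) ^ 2 := by
    rw [← Finset.prod_pow]
    refine Finset.prod_congr rfl fun w _ => ?_
    rw [InfinitePlace.mult, if_neg (InfinitePlace.not_isReal_iff_isComplex.2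
      (IsTotallyComplex.isComplex w))]
  rw [finprod_eq_prod_of_mulSupport_subset (fun v => absV v x) (s := hfin.toFinset)
    fun v hv => by simpa using hv, e2] at h
  rw [finprod_eq_prod_of_mulSupport_subset (fun v => √((Θ.loc v).absv x)) (s := hfin.toFinset)
    fun v hv => by
      simp only [Set.Finite.coe_toFinset, Set.mem_ofPred_eq]
      intro e
      exact hv (by simp [absv_eq_absV, e])]
  set A := ∏ w : InfinitePlace L, w x
  set B := ∏ v ∈ hfin.toFinset, √((Θ.loc v).absv x)
  have hA : 0 < A := Finset.prod_pos fun w _ => InfinitePlace.pos_iff.2 hx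
  have hB : 0 ≤ B := Finset.prod_nonneg fun v _ => Real.sqrt_nonneg _
  have hB2 : B ^ 2 = ∏ v ∈ hfin.toFinset, absV v x := by
    rw [← Finset.prod_pow]
    exact Finset.prod_congr rfl fun v _ => by
      rw [Real.sq_sqrt (by rw [absv_eq_absV]; exact AbsoluteValue.nonneg _ _), absv_eq_absV]
  rw [← hB2, ← mul_pow] at h
  refine eq_inv_of_mul_eq_one_left ?_
  rw [mul_comm]
  exact (pow_eq_one_iff_of_nonneg (mul_nonneg hA.le hB) two_ne_zero).1 h

namespace ThetaCore

omit [IsTotallyComplex L] in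
/-- Agreeing families have equal theta series. -/
lemma Fam.theta_congr {F G : Θ.Fam} (h : ∀ v, Agree (F.f v) (G.f v)) (P : InfPts L)
    (ρ : InfinitePlace L → ℝ) {u : L} (hu : u ≠ 0) : F.theta P ρ u = G.theta P ρ u :=
  tsum_congr fun ξ => by rw [Fam.val_congr h ξ hu]

omit [IsTotallyComplex L] in
lemma Fam.val_of_eq_mul {F F' : Θ.Fam} {a : HeightOneSpectrum (𝓞 L) → ℂ}
    (ha : (Function.mulSupport a).Finite) {ξ ξ' : M} {u u' : L} (hu' : u' ≠ 0)
    (h : ∀ v, F'.f v ξ u = a v * F.f v ξ' u') : F'.val ξ u = (∏ᶠ v, a v) * F.val ξ' u' := by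
  rw [Fam.val, finprod_congr h, finprod_mul_distrib ha (F.mulSupport_finite ξ' hu')]
  rfl

variable {u : L} (Θ)

/-- Translations leave theta series invariant. -/
theorem theta_unip (hu : u ≠ 0) (b : L) (F : Θ.Fam) (P : InfPts L) (ρ : InfinitePlace L → ℝ) :
    (F.unip b).theta (gPt (upper 1 b 1 one_ne_zero one_ne_zero) P) ρ u = F.theta P ρ u := by
  refine tsum_congr fun ξ => ?_
  classical
  set c := b * u * Algebra.norm L ξ
  have hψ := eventually_cofinite.1 (eventually_valuation_le_one (L := L) c)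
  have hval : (F.unip b).val ξ u =
      LocalChar.eRat (Algebra.trace ℚ L c) * F.val ξ u := by
    rw [Fam.val_of_eq_mul (F := F) (a := fun v => (Θ.loc v).ψ c) (hψ.subset fun v hv hle => hv
        (LocalChar.ψloc_eq_one hle)) hu fun v => ?_]
    · congr 1
      rw [finprod_eq_prod_of_mulSupport_subset (fun v => (Θ.loc v).ψ c) (s := hψ.toFinset)
        fun v hv => by
          simp only [Set.Finite.coe_toFinset, Set.mem_ofPred_eq]
          exact fun hle => hv (LocalChar.ψloc_eq_one hle)]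
      exact LocalChar.prod_ψloc hψ.toFinset fun w hw => by simpa using hw
    · rfl
  have hgw : gw (gPt (upper 1 b 1 one_ne_zero one_ne_zero) P) ρ u (ιM (L := L) ξ) =
      (∏ w : InfinitePlace L, ψC (w.embedding c)) * gw P ρ u (ιM (L := L) ξ) := by
    simp only [gw, ← Finset.prod_mul_distrib]
    refine Finset.prod_congr rfl fun w _ => ?_
    obtain ⟨hz, ht⟩ := gPt_upper one_ne_zero one_ne_zero (b := b) P w
    rw [map_one] at hz ht
    rw [hz, ht, one_mul, div_one, div_one, NormOneClass.norm_one, one_mul, gauss, gauss]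
    have e : w.embedding c = w.embedding b * w.embedding u *
        ((ιM (L := L) ξ w).1 * (ιM (L := L) ξ w).2) := by
      rw [map_mul, map_mul, emb_norm]
    rw [show ((P w).z + w.embedding b) * w.embedding u *
        ((ιM (L := L) ξ w).1 * (ιM (L := L) ξ w).2) = w.embedding c +
        (P w).z * w.embedding u * ((ιM (L := L) ξ w).1 * (ιM (L := L) ξ w).2) by rw [e]; ring,
      ψC_add]
    ring
  rw [hval, hgw]
  have hone : LocalChar.eRat (Algebra.trace ℚ L c) *
      ∏ w : InfinitePlace L, ψC (w.embedding c) = 1 := by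
    rw [LocalChar.eRat, Approx.trace_eq_sum_places, Finset.mul_sum, Complex.exp_sum,
      ← Finset.prod_mul_distrib]
    refine Finset.prod_eq_one fun w _ => ?_
    rw [ψC, ← Complex.exp_add, ← Complex.exp_zero]
    congr 1
    push_cast
    ring
  linear_combination (F.val ξ u * gw P ρ u (ιM (L := L) ξ)) * hone

/-- **The Fourier operator fixes theta series**: the theta series of the transformed family at the
inverted point is that of the family, the constant of the transformation formula being one. -/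
theorem theta_weyl (hu : u ≠ 0) (F : Θ.Fam) (P : InfPts L) {ρ : InfinitePlace L → ℝ}
    (hρ : ∀ w, 0 < ρ w) : F.weyl.theta (wPt P) ρ u = F.theta P ρ u := by
  obtain ⟨C, hC, h⟩ := Θ.exists_poisson_const hu
  suffices h1 : C = 1 by rw [h F P ρ hρ, h1, one_mul]
  set n : GL (Fin 2) L := upper 1 1 1 one_ne_zero one_ne_zero
  have hw : ∀ (G : Θ.Fam) (Q : InfPts L),
      G.weyl.theta (gPt LocQuad.wMat Q) 1 u = C⁻¹ * G.theta Q 1 u := fun G Q => by
    rw [gPt_wMat, h G Q 1 (fun _ => one_pos), ← mul_assoc, inv_mul_cancel₀ hC, one_mul]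
  set F₀ := Θ.shellFam hu
  set P₀ : InfPts L := fun _ => H3.base
  have e2 : LocQuad.wMat * (n * (LocQuad.wMat * (n * (LocQuad.wMat * n)))) =
      (LocQuad.wMat * LocQuad.wMat : GL (Fin 2) L) := by
    refine Units.ext ?_
    simp only [Units.val_mul, n, wMat_val, upper_val]
    ext i j
    fin_cases i <;> fin_cases j <;> simp [Matrix.mul_apply, Fin.sum_univ_two]
  have hag : F₀.weyl.weyl.theta (gPt (LocQuad.wMat * LocQuad.wMat) P₀) 1 u =
      ((((((F₀.unip 1).weyl).unip 1).weyl).unip 1).weyl).theta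
        (gPt (LocQuad.wMat * LocQuad.wMat) P₀) 1 u :=
    Fam.theta_congr (fun v => (Loc.triple (F₀.nice v)).symm) _ _ hu
  conv_rhs at hag => rw [← e2]
  simp only [gPt_mul] at hag
  rw [hw, hw, hw, Θ.theta_unip hu 1, hw, Θ.theta_unip hu 1, hw, Θ.theta_unip hu 1] at hag
  have h2 : (C⁻¹ * C⁻¹) * F₀.theta P₀ 1 u ≠ 0 :=
    mul_ne_zero (mul_ne_zero (inv_ne_zero hC) (inv_ne_zero hC)) (Θ.shellFam_theta_ne_zero hu)
  have h3 : C⁻¹ * ((C⁻¹ * C⁻¹) * F₀.theta P₀ 1 u) = (C⁻¹ * C⁻¹) * F₀.theta P₀ 1 u := by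
    linear_combination -hag
  exact inv_eq_one.1 ((mul_eq_right₀ h2).1 h3)

lemma transConst_shell (hu : u ≠ 0) {S : Finset (HeightOneSpectrum (𝓞 L))} {κ κ' : L}
    (h : Fits (Θ.shellFam hu) u S κ κ') : h.transConst = 1 := by
  have hρ : ∀ w : InfinitePlace L, 0 < (1 : InfinitePlace L → ℝ) w := fun _ => one_pos
  have h1 := h.theta_transform (fun _ => H3.base) hρ hu
  rw [Θ.theta_weyl hu _ _ hρ] at h1
  exact (mul_eq_right₀ (Θ.shellFam_theta_ne_zero hu)).1 h1.symm

/-- The ratio of Gauss sums. -/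
def gRatio (v : HeightOneSpectrum (𝓞 L)) (c a : L) : ℂ :=
  (Θ.loc v).G (c * a) * (((Θ.loc v).absv a : ℝ) : ℂ) / (Θ.loc v).G c

/-- The product formula for the ratios of Gauss sums. -/
theorem finprod_gRatio {c a : L} (hc : c ≠ 0) (ha : a ≠ 0) :
    (Function.mulSupport fun v => Θ.gRatio v c a).Finite ∧ ∏ᶠ v, Θ.gRatio v c a = 1 := by
  classical
  have hca : c * a ≠ 0 := mul_ne_zero hc ha
  obtain ⟨S, κ, κ', h, h'⟩ := exists_fits₂ (Θ.shellFam hc) (Θ.shellFam hca) hc hca
  have hout : ∀ v ∉ S, (Θ.loc v).absv a = 1 ∧ (Θ.loc v).G c = 1 ∧ (Θ.loc v).G (c * a) = 1 := by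
    intro v hv
    obtain ⟨hvS, hd, hvc, -⟩ := h.out v hv
    obtain ⟨-, -, hvca, -⟩ := h'.out v hv
    have hdd : (Θ.loc v).d = 0 := hd
    rw [map_mul, hvc, one_mul] at hvca
    refine ⟨?_, G_eq_one (Θ.isUnimodular hvS) (by rw [hdd, exp_zero]; exact hvc),
      G_eq_one (Θ.isUnimodular hvS) ?_⟩
    · rw [(Θ.loc v).absv_exp (n := 0) (by rw [exp_zero]; exact hvca), zpow_zero]
    · rw [hdd, exp_zero]
      show v.valuation L (c * a) = 1
      rw [map_mul, hvc, hvca, one_mul]
  have hsup : (Function.mulSupport fun v => Θ.gRatio v c a) ⊆ (S : Set _) := fun v hv => by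
    by_contra hvS
    obtain ⟨h1, h2, h3⟩ := hout v hvS
    exact hv (by simp [gRatio, h1, h2, h3])
  refine ⟨S.finite_toSet.subset hsup, ?_⟩
  rw [finprod_eq_prod_of_mulSupport_subset _ hsup]
  have e1 := Θ.transConst_shell hc h
  have e2 := Θ.transConst_shell hca h'
  simp only [Fits.transConst, Fits.vol] at e1 e2
  set J : ℂ := ((exists_jacobian M h.κ'_ne).choose : ℂ)
  set V := ∏ v ∈ S, (Θ.loc v).chain.integ ((cLat L M v κ' : Set M).indicator fun _ => (1 : ℂ))
  set A : ℝ := ∏ w : InfinitePlace L, w a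
  have hK : Kinf c = Kinf (c * a) * ((A : ℂ) ^ 2) := by
    simp only [Kinf, A, Complex.ofReal_prod, ← Finset.prod_pow, ← Finset.prod_mul_distrib]
    refine Finset.prod_congr rfl fun w _ => ?_
    rw [map_mul, norm_mul, InfinitePlace.norm_embedding_eq w a]
    have : ((w a : ℝ) : ℂ) ≠ 0 :=
      Complex.ofReal_ne_zero.2 (InfinitePlace.pos_iff.2 ha).ne'
    push_cast
    field_simp
  have habs : ((∏ v ∈ S, (Θ.loc v).absv a : ℝ) : ℂ) * (A : ℂ) ^ 2 = 1 := by
    have h1 := finprod_absv (Θ := Θ) ha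
    rw [finprod_eq_prod_of_mulSupport_subset _ (s := S) fun v hv => by
      by_contra hvS
      exact hv (by simp [(hout v hvS).1])] at h1
    have h2 : ∏ v ∈ S, (Θ.loc v).absv a = A⁻¹ ^ 2 := by
      rw [← h1, ← Finset.prod_pow]
      exact Finset.prod_congr rfl fun v _ => by
        rw [Real.sq_sqrt (by rw [absv_eq_absV]; exact AbsoluteValue.nonneg _ _)]
    have hA : A ≠ 0 := (Finset.prod_pos fun w _ => InfinitePlace.pos_iff.2 ha).ne'
    have hA' : (A : ℂ) ≠ 0 := Complex.ofReal_ne_zero.2 hA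
    rw [h2]
    push_cast
    field_simp
  have hne : ∀ x : L, x ≠ 0 → ∏ v ∈ S, (Θ.loc v).G x ≠ 0 := fun x hx =>
    Finset.prod_ne_zero_iff.2 fun v _ => (Θ.loc v).G_ne_zero hx
  simp only [gRatio, Finset.prod_div_distrib, Finset.prod_mul_distrib]
  rw [div_eq_one_iff_eq (hne c hc), ← Complex.ofReal_prod]
  set Gca := ∏ v ∈ S, (Θ.loc v).G (c * a)
  set Gc := ∏ v ∈ S, (Θ.loc v).G c
  set P := ((∏ v ∈ S, (Θ.loc v).absv a : ℝ) : ℂ)
  rw [hK] at e1
  have hJ : J * Kinf (c * a) / V ≠ 0 := fun e => by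
    rw [mul_div_assoc', mul_div_right_comm, e, zero_mul] at e2
    exact zero_ne_one e2
  refine mul_left_cancel₀ hJ ?_
  linear_combination P * e2 - P * e1 + (J * Kinf (c * a) / V * Gc) * habs

/-- At a special place the Gauss sum scales by the restriction of `θ` to the base field. -/
theorem G_mul_of_mem {v₀ : HeightOneSpectrum (𝓞 L)} (hv₀ : v₀ ∈ Θ.S) {c a : L} (hc : c ≠ 0)
    (ha : a ≠ 0) : (Θ.loc v₀).G (c * a) =
      Θ.χ v₀ a * (((Θ.loc v₀).absv a : ℝ) : ℂ)⁻¹ * (Θ.loc v₀).G c := by
  classical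
  let f : HeightOneSpectrum (𝓞 L) → L := fun w => if w = v₀ then a else 1
  have hf : ∀ w, f w ≠ 0 := fun w => by simp only [f]; split_ifs <;> simp [ha]
  choose N hN using fun w => Loc.exists_G_congr (D := Θ.loc w) (mul_ne_zero hc (hf w))
  let m : HeightOneSpectrum (𝓞 L) → ℕ := fun w =>
    max (N w) (Θ.depth w).toNat + (-log (w.valuation L (f w))).toNat
  obtain ⟨x, hx, -⟩ := Approx.exists_approx Θ.S f (Θ.S.sup m)
  have hclose : ∀ w ∈ Θ.S, w.valuation L (x / f w - 1) ≤
      exp (-(max (N w) (Θ.depth w).toNat : ℕ) : ℤ) := by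
    intro w hw
    have hm : max (N w) (Θ.depth w).toNat + (-log (w.valuation L (f w))).toNat ≤ Θ.S.sup m :=
      Finset.le_sup (f := m) hw
    rw [div_sub_one (hf w), map_div₀,
      ← exp_log (x := w.valuation L (f w)) ((Valuation.ne_zero_iff _).2 (hf w)),
      div_le_iff₀ exp_pos, ← exp_add]
    refine (hx w hw).trans ?_
    rw [exp_le_exp]
    have := Int.self_le_toNat (-log (w.valuation L (f w)))
    omega
  have hunit : ∀ w ∈ Θ.S, w.valuation L (x / f w) = 1 := fun w hw => by
    rw [show x / f w = 1 + (x / f w - 1) by ring, Valuation.map_add_eq_of_lt_left _ ?_, map_one]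
    rw [map_one]
    refine (hclose w hw).trans_lt ?_
    rw [← exp_zero, exp_lt_exp]
    have := Θ.one_le_depth w
    omega
  have hθ1 : ∀ w ∈ Θ.S, Θ.θ w (algebraMap L M (x / f w)) = 1 := fun w hw => by
    refine Θ.θ_depth w ?_
    rw [← map_one (algebraMap L M), ← map_sub, ← mul_one (algebraMap L M (x / f w - 1)),
      ← Algebra.smul_def]
    have := (Θ.loc w).smul_mem_lat (n := Θ.depth w) (k := 0) ((hclose w hw).trans (by
      rw [exp_le_exp]; have := Θ.one_le_depth w; omega))
      (show (1 : M) ∈ (Θ.loc w).lat 0 by rw [LocQuad.lat_zero]; exact (Θ.loc w).one_mem)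
    rwa [zero_add] at this
  have hG1 : ∀ w ∈ Θ.S, (Θ.loc w).G (c * x) = (Θ.loc w).G (c * f w) := fun w hw => by
    rw [show c * x = c * f w * (x / f w) by rw [mul_assoc, mul_div_cancel₀ _ (hf w)]]
    exact hN w _ ((hclose w hw).trans (by rw [exp_le_exp]; omega))
  have habs : ∀ w ∈ Θ.S, (Θ.loc w).absv x = (Θ.loc w).absv (f w) := fun w hw => by
    rw [show x = f w * (x / f w) from (mul_div_cancel₀ x (hf w)).symm, LocQuad.absv_mul,
      (Θ.loc w).absv_exp (a := x / f w) (n := 0) (by rw [exp_zero]; exact hunit w hw), zpow_zero,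
      mul_one]
  have hx0 : x ≠ 0 := fun e => by
    have := hunit v₀ hv₀
    rw [e, zero_div, map_zero] at this
    exact zero_ne_one this
  have hmx : algebraMap L M x ≠ 0 := (map_ne_zero_iff _ (algebraMap L M).injective).2 hx0
  obtain ⟨hrfin, hr⟩ := Θ.finprod_gRatio hc hx0
  set r := fun w => Θ.gRatio w c x
  set t := fun w => Θ.θ w (algebraMap L M x)
  have htfin : (Function.mulSupport t).Finite := by
    refine (eventually_cofinite.1 (Θ.eventually_not_mem.and
      (eventually_valuation_eq_one (L := L) hx0))).subset fun w hw h => hw ?_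
    exact Θ.θ_algebraMap_unit h.1 h.2
  have heq : ∀ w, w ≠ v₀ → r w / t w = 1 := fun w hw => by
    by_cases hwS : w ∈ Θ.S
    · have e := hθ1 w hwS
      simp only [f, if_neg hw, div_one] at e
      simp only [r, t, gRatio, e, hG1 w hwS, habs w hwS, f, if_neg hw, mul_one, absv_one,
        Complex.ofReal_one, div_one, div_self ((Θ.loc w).G_ne_zero hc)]
    · have h1 := (Θ.isSign_out hwS).G_mul c x hc hx0
      simp only [r, t, gRatio]
      rw [h1, Θ.θ_base w hx0]
      have := Complex.ofReal_ne_zero.2 ((Θ.loc w).absv_pos hx0).ne'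
      have := (Θ.loc w).G_ne_zero hc
      have := χ_ne_zero (Θ.isSign_out hwS) hx0
      field_simp
  have hq : r v₀ / t v₀ = 1 := by
    have h1 : ∏ᶠ w, r w / t w = 1 := by
      rw [finprod_div_distrib hrfin htfin, hr, Θ.prod_θ _ hmx, div_one]
    rwa [finprod_eq_single _ v₀ fun w hw => heq w hw] at h1
  have ht : Θ.θ v₀ (algebraMap L M x) = Θ.χ v₀ a := by
    have := hθ1 v₀ hv₀
    simp only [f, if_true] at this
    rw [show x = a * (x / a) from (mul_div_cancel₀ x ha).symm, map_mul, map_mul, this,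
      mul_one, Θ.χ_mem hv₀]
  rw [div_eq_one_iff_eq (Θ.θ_ne_zero v₀ hmx)] at hq
  simp only [r, gRatio, ht] at hq
  rw [hG1 v₀ hv₀, habs v₀ hv₀] at hq
  simp only [f, if_true] at hq
  have := Complex.ofReal_ne_zero.2 ((Θ.loc v₀).absv_pos ha).ne'
  have := (Θ.loc v₀).G_ne_zero hc
  field_simp at hq ⊢
  linear_combination hq

/-- **The sign of the Weil representation**: at every place the Gauss sum of the norm form scales by
`χ`, the restriction of `θ` to the base field. -/
theorem isSign (v : HeightOneSpectrum (𝓞 L)) : (Θ.loc v).IsSignChar (Θ.χ v) := by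
  by_cases hv : v ∈ Θ.S
  swap
  · exact Θ.isSign_out hv
  refine ⟨fun a ha => ?_, fun c a hc ha => Θ.G_mul_of_mem hv hc ha⟩
  have h1 := Θ.G_mul_of_mem hv (c := 1 * a) (a := a) (by simpa using ha) ha
  rw [Θ.G_mul_of_mem hv one_ne_zero ha] at h1
  have hA : algebraMap L M a ≠ 0 := (map_ne_zero_iff _ (algebraMap L M).injective).2 ha
  have h2 := (Θ.loc v).G_mul_N one_ne_zero hA
  rw [LocQuad.N_algebraMap, pow_two, ← mul_assoc, h1, LocQuad.absv_mul] at h2
  have := Complex.ofReal_ne_zero.2 ((Θ.loc v).absv_pos ha).ne'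
  have := (Θ.loc v).G_ne_zero (one_ne_zero (α := L))
  push_cast at h2
  field_simp at h2
  linear_combination h2

end ThetaCore

end FermatAgent.LT2.Theta
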