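import Fermat.Agent.LT.Theta.Orbit
import Fermat.Agent.LT2.Theta.Sign

/-!
# The action of adelic matrices on families, and the projection killing the origin
-/

set_option autoImplicit false

noncomputable section

open IsDedekindDomain NumberField WithZero Filter
open scoped MatrixGroups

namespace FermatAgent.LT2.Theta

open FermatAgent.LT FermatAgent.LT.Theta
open FermatAgent.LT.Theta.LocQuad

variable {L M : Type*} [Field L] [NumberField L] [IsTotallyComplex L] [Field M] [Algebra L M]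
  [Algebra.IsQuadraticExtension L M]

namespace ThetaCore

variable {Θ : ThetaCore L M}

omit [IsTotallyComplex L] in
lemma norm_ψ (v : HeightOneSpectrum (𝓞 L)) (a : L) : ‖(Θ.loc v).ψ a‖ = 1 :=
  LT.Theta.LocalChar.norm_ψloc v a

/-- Act by a family of matrices. -/
def Fam.act (F : Θ.Fam) (g : HeightOneSpectrum (𝓞 L) → GL (Fin 2) L) (hg : IsAdelic g) :
    Θ.Fam where
  f v := (Θ.loc v).wAct (Θ.χ v) (g v) (F.f v)
  isTest v := (F.isTest v).wAct (g v)
  isInv v := (F.isInv v).wAct (F.nice v) (g v)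
  almost := by
    filter_upwards [F.almost, hg, Θ.eventually_not_mem] with v h hv hS
    exact (h.wAct (g v)).trans (Θ.wAct_sph hS hv.1 hv.2)

/-- Bounded local functions. -/
def Fam.IsBdd (F : Θ.Fam) : Prop := ∀ v, Loc.Bdd (F.f v)

/-- The action preserves boundedness. -/
lemma Fam.IsBdd.act {F : Θ.Fam} (hF : F.IsBdd) {g : HeightOneSpectrum (𝓞 L) → GL (Fin 2) L}
    (hg : IsAdelic g) : (F.act g hg).IsBdd := fun v =>
  Loc.Bdd.wAct (Θ.isSign v) (norm_ψ v) (hF v) (F.isTest v) (g v)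

/-- The Weyl operator preserves boundedness. -/
lemma Fam.IsBdd.weyl {F : Θ.Fam} (hF : F.IsBdd) : F.weyl.IsBdd := fun v =>
  Loc.Bdd.opW (Θ.isSign v) (norm_ψ v) (hF v) (F.isTest v)

/-! ### Killing the origin -/

variable {v₀ : HeightOneSpectrum (𝓞 L)} {h₀ : M}

omit [IsTotallyComplex L]

/-- An element of norm one is nonzero. -/
lemma h₀_ne_zero (hN : (Θ.loc v₀).N h₀ = 1) : h₀ ≠ 0 := fun e => by
  rw [e, (Θ.loc v₀).N_eq_zero.2 rfl] at hN
  exact zero_ne_one hN

variable (Θ v₀ h₀) in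
open Classical in
/-- The local projection. -/
def killVec (v : HeightOneSpectrum (𝓞 L)) (f : M → L → ℂ) : M → L → ℂ :=
  if v = v₀ then fun x u => f x u - (Θ.loc v).opH h₀ f x u else f

lemma isTest_killVec (hN : (Θ.loc v₀).N h₀ = 1) {v : HeightOneSpectrum (𝓞 L)} {f : M → L → ℂ}
    (hf : (Θ.loc v).IsTest f) :
    (Θ.loc v).IsTest (Θ.killVec v₀ h₀ v f) := by
  unfold killVec
  split_ifs with hv
  swap
  · exact hf
  rw [hv] at hf ⊢
  obtain ⟨a, m, n, ha, h⟩ := hf
  have h0 := h₀_ne_zero hN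
  obtain ⟨i, hi⟩ := (Θ.loc v₀).exists_mem_lat h₀
  obtain ⟨j, hj⟩ := (Θ.loc v₀).exists_mem_lat h₀⁻¹
  refine ⟨a, min m (m + j), max n (n - i), fun x u hu => ?_, fun u hu =>
    ⟨fun x c hc => ?_, fun x hx => ?_⟩⟩
  · simp only [opH, hN, div_one, ha _ _ hu, sub_zero]
  · simp only [opH, hN, div_one]
    rw [show f (x + c) u = f x u from
      (h u hu).1 x c ((Θ.loc _).lat_mono (le_max_left n (n - i)) hc),
      mul_add, show f (h₀ * x + h₀ * c) u = f (h₀ * x) u from (h u hu).1 _ _ ?_]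
    have := (Θ.loc _).mul_mem_lat hi ((Θ.loc _).lat_mono (le_max_right n (n - i)) hc)
    rwa [add_sub_cancel] at this
  · simp only [opH, hN, div_one]
    rw [show f x u = 0 from (h u hu).2 x fun hm => hx ((Θ.loc _).lat_mono (min_le_left _ _) hm),
      show f (h₀ * x) u = 0 from (h u hu).2 _ fun hm => hx ?_, sub_zero]
    have := (Θ.loc _).mul_mem_lat hj hm
    rw [← mul_assoc, inv_mul_cancel₀ h0, one_mul, add_comm] at this
    exact (Θ.loc _).lat_mono (min_le_right _ _) this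

/-- The projection of a family. -/
def Fam.kill (F : Θ.Fam) (hN : (Θ.loc v₀).N h₀ = 1) : Θ.Fam where
  f v := Θ.killVec v₀ h₀ v (F.f v)
  isTest v := isTest_killVec hN (F.isTest v)
  isInv v := fun k hk x u hu => by
    unfold killVec
    split_ifs with hv
    · have h1 := F.isInv v k hk x u hu
      have h2 := F.isInv v k hk (h₀ * x) (u / (Θ.loc v).N h₀)
        (div_ne_zero hu fun e => (h₀_ne_zero hN) ((Θ.loc v).N_eq_zero.1 e))
      simp only [opH] at h1 h2 ⊢
      rw [h1, mul_left_comm, div_right_comm, h2]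
    · exact F.isInv v k hk x u hu
  almost := by
    filter_upwards [F.almost, (Set.finite_singleton v₀).compl_mem_cofinite] with v h hv
    rw [killVec, if_neg (by simpa using hv)]
    exact h

/-- Killing the origin preserves boundedness. -/
lemma Fam.IsBdd.kill {F : Θ.Fam} (hF : F.IsBdd) (hN : (Θ.loc v₀).N h₀ = 1) :
    (F.kill hN).IsBdd := fun v => by
  obtain ⟨B, hB⟩ := hF v
  show Loc.Bdd (Θ.killVec v₀ h₀ v (F.f v))
  unfold killVec
  split_ifs with hv
  · exact ⟨B + B, fun x u hu => (norm_sub_le _ _).trans (add_le_add (hB x u hu) (hB _ _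
      (div_ne_zero hu fun e => (h₀_ne_zero hN) ((Θ.loc v).N_eq_zero.1 e))))⟩
  · exact ⟨B, hB⟩

/-- The killed family vanishes at the origin. -/
lemma Fam.kill_zero (F : Θ.Fam) (hN : (Θ.loc v₀).N h₀ = 1) {u : L} :
    (F.kill hN).f v₀ 0 u = 0 := by
  show Θ.killVec v₀ h₀ v₀ (F.f v₀) 0 u = 0
  rw [killVec, if_pos rfl]
  simp [opH, hN]

/-- Killing commutes with the Weyl operator. -/
lemma Fam.kill_weyl (F : Θ.Fam) (hN : (Θ.loc v₀).N h₀ = 1) (v : HeightOneSpectrum (𝓞 L)) :
    Agree ((F.weyl.kill hN).f v) ((F.kill hN).weyl.f v) := by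
  show Agree (Θ.killVec v₀ h₀ v ((Θ.loc v).opW (F.f v))) ((Θ.loc v).opW (Θ.killVec v₀ h₀ v (F.f v)))
  unfold killVec
  split_ifs with hv
  · refine Agree.trans (fun x u hu => ?_)
      (Loc.opW_sub (F.nice v) (nice_opH (h₀_ne_zero hN) (F.nice v))).symm
    show _ = _ - _
    rw [LT.Theta.LocQuad.opH_opW (h₀_ne_zero hN) (F.nice v) x u hu]
  · exact Agree.refl _

end ThetaCore

end FermatAgent.LT2.Theta
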