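import Fermat.Agent.LT2.Theta.Act

/-!
# Sums over the finite idele classes of the torus

For the finite idele classes `IdlC` of the torus, the product `Fam.whit` of local Whittaker
values is an absolutely convergent sum of global terms (`Fam.hasSum_wTerm`,
`Fam.hasSum_norm_wTerm`), as almost all places are spherical. For a bounded family the absolute
sum of a twist is supported on a lattice and grows at most polynomially
(`Fam.whitAbs_twist_le`).
-/

set_option autoImplicit false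

noncomputable section

open IsDedekindDomain NumberField WithZero Filter
open scoped MatrixGroups

namespace FermatAgent.LT2.Theta

open FermatAgent.LT FermatAgent.LT.Theta

open FermatAgent.LT.Theta.LocQuad

variable {L M : Type*} [Field L] [NumberField L] [IsTotallyComplex L] [Field M] [Algebra L M]
  [Algebra.IsQuadraticExtension L M]

namespace ThetaCore

variable (Θ : ThetaCore L M)

/-- The finite idele classes of the torus. -/
abbrev IdlC : Type _ :=
  {c : (v : HeightOneSpectrum (𝓞 L)) → Mˣ ⧸ Θ.unitLevel v // ∀ᶠ v in cofinite, c v = 1}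

variable {Θ}

section

omit [IsTotallyComplex L]

lemma mem_unitLevel_of_lat_one {v : HeightOneSpectrum (𝓞 L)} (hv : v ∉ Θ.S) {h : Mˣ}
    (hh : (h : M) - 1 ∈ (Θ.loc v).lat 1) : h ∈ Θ.unitLevel v := by
  have hy : (h : M) - 1 ∈ (Θ.loc v).O := by
    rw [← (Θ.loc v).lat_zero]; exact (Θ.loc v).lat_mono (by omega) hh
  have hO : (h : M) ∈ Quad.lattice L M v := by
    have := (Θ.loc v).O.add_mem (Θ.loc v).one_mem hy
    rwa [add_sub_cancel] at this
  have hN : v.valuation L (Algebra.norm L (h : M)) = 1 := by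
    have e : (Θ.loc v).N (h : M) =
        1 + ((Θ.loc v).N ((h : M) - 1) + (Θ.loc v).B 1 ((h : M) - 1)) := by
      conv_lhs => rw [show (h : M) = 1 + ((h : M) - 1) by ring]
      rw [LocQuad.N_add, LocQuad.N_one]; ring
    show (Θ.loc v).v ((Θ.loc v).N (h : M)) = 1
    rw [e, Valuation.map_add_eq_of_lt_left _ ?_, map_one]
    rw [map_one]
    refine Valuation.map_add_lt _ ?_ ?_
    · exact ((Θ.loc v).v_N_le hh).trans_lt (by rw [← exp_zero, exp_lt_exp]; norm_num)
    · exact ((Θ.loc v).v_B_le (i := 0) (j := 1)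
        (by rw [LocQuad.lat_zero]; exact (Θ.loc v).one_mem) hh).trans_lt
        (by rw [← exp_zero, exp_lt_exp]; norm_num)
  exact ⟨⟨hO, hN⟩, Θ.θ_unr v hv _ hO hN⟩

/-- The global summand. -/
def Fam.wTerm (F : Θ.Fam) (c : Θ.IdlC) : ℂ :=
  ∏ᶠ v, (Θ.loc v).whitTerm (Θ.θ v) (F.f v) (c.1 v).out

/-- The finite part of the Whittaker function. -/
def Fam.whit (F : Θ.Fam) : ℂ := ∏ᶠ v, (Θ.loc v).whit (Θ.θ v) (Θ.unitLevel v) (F.f v)

/-- The absolute sum. -/
def Fam.whitAbs (F : Θ.Fam) : ℝ :=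
  ∏ᶠ v, ∑ᶠ c : Mˣ ⧸ Θ.unitLevel v, ‖(Θ.loc v).whitTerm (Θ.θ v) (F.f v) c.out‖

open Classical in
/-- The Whittaker term of the spherical vector is supported at the trivial class. -/
lemma whitTerm_sph {v : HeightOneSpectrum (𝓞 L)} (hv : v ∉ Θ.S) (hd : LocalChar.cond v = 0)
    {f : M → L → ℂ} (hf : Agree f (Θ.loc v).sph) (c : Mˣ ⧸ Θ.unitLevel v) :
    (Θ.loc v).whitTerm (Θ.θ v) f c.out = if c = 1 then 1 else 0 := by
  have h1 : (Θ.loc v).whitTerm (Θ.θ v) f c.out =
      (Θ.loc v).whitTerm (Θ.θ v) (Θ.loc v).sph c.out := by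
    simp only [whitTerm]; rw [hf _ _ (inv_ne_zero (N_unit_ne_zero c.out))]
  have hdd : (Θ.loc v).d = 0 := hd
  rw [h1]
  simp only [whitTerm, sph, hdd, exp_zero, ind_zero_eq]
  by_cases hu : (c.out : Mˣ) ∈ Θ.unitLevel v
  · have hc : c = 1 := by rwa [← QuotientGroup.out_eq' c, QuotientGroup.eq_one_iff]
    have hN : (Θ.loc v).v ((Θ.loc v).N (c.out : M)) = 1 := hu.1.2
    rw [if_pos hc, if_pos (by rw [map_inv₀, hN, inv_one]), if_pos hu.1.1, hu.2,
      (Θ.loc v).absv_exp (show (Θ.loc v).v _ = exp 0 by rw [exp_zero]; exact hN)]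
    simp
  · have hc : c ≠ 1 := fun e => hu (by rw [← QuotientGroup.eq_one_iff, QuotientGroup.out_eq', e])
    rw [if_neg hc]
    split_ifs with hN hO
    · exfalso
      rw [map_inv₀, inv_eq_one] at hN
      exact hu ⟨⟨hO, hN⟩, Θ.θ_unr v hv _ hO hN⟩
    · simp
    · simp

/-- Almost all places are spherical. -/
lemma Fam.exists_good (F : Θ.Fam) : ∃ s : Finset (HeightOneSpectrum (𝓞 L)), ∀ v ∉ s,
    v ∉ Θ.S ∧ LocalChar.cond v = 0 ∧ Agree (F.f v) (Θ.loc v).sph := by
  have h := eventually_cofinite.1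
    ((Θ.eventually_not_mem).and (LocalChar.eventually_cond_eq_zero.and F.almost))
  exact ⟨h.toFinset, fun v hv => by simpa using hv⟩

lemma Fam.exists_whit_data (F : Θ.Fam) :
    HasSum F.wTerm F.whit ∧ HasSum (fun c => ‖F.wTerm c‖) F.whitAbs := by
  classical
  obtain ⟨s, hs⟩ := F.exists_good
  have hfin : ∀ v, (Function.support fun c : Mˣ ⧸ Θ.unitLevel v =>
      (Θ.loc v).whitTerm (Θ.θ v) (F.f v) c.out).Finite :=
    fun v => finite_support_whit (Θ.isTorusLevel v) (F.isTest v)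
  have hfin' : ∀ v, (Function.support fun c : Mˣ ⧸ Θ.unitLevel v =>
      ‖(Θ.loc v).whitTerm (Θ.θ v) (F.f v) c.out‖).Finite := fun v =>
    (hfin v).subset fun c hc h0 => hc (by simp only [Function.mem_support, ne_eq] at *; simp [h0])
  have hone : ∀ v ∉ s, ∀ c, (Θ.loc v).whitTerm (Θ.θ v) (F.f v) c.out =
      if c = (1 : Mˣ ⧸ Θ.unitLevel v) then 1 else 0 :=
    fun v hv => whitTerm_sph (hs v hv).1 (hs v hv).2.1 (hs v hv).2.2
  refine ⟨?_, ?_⟩
  · suffices heq : F.whit = ∏ v ∈ s, ∑ᶠ c : Mˣ ⧸ Θ.unitLevel v,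
        (Θ.loc v).whitTerm (Θ.θ v) (F.f v) c.out by
      rw [heq]
      exact hasSum_finprod_restricted (fun v => (1 : Mˣ ⧸ Θ.unitLevel v))
        (fun v c => (Θ.loc v).whitTerm (Θ.θ v) (F.f v) c.out) s hone hfin
    refine finprod_eq_prod_of_mulSupport_subset _ fun v hv => ?_
    by_contra hvs
    refine hv ?_
    show (Θ.loc v).whit (Θ.θ v) (Θ.unitLevel v) (F.f v) = 1
    rw [LocQuad.whit, finsum_eq_single _ (1 : Mˣ ⧸ Θ.unitLevel v) fun c hc => by
      rw [hone v hvs, if_neg hc], hone v hvs, if_pos rfl]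
  · have hone' : ∀ v ∉ s, ∀ c, ‖(Θ.loc v).whitTerm (Θ.θ v) (F.f v) c.out‖ =
        if c = (1 : Mˣ ⧸ Θ.unitLevel v) then 1 else 0 := fun v hv c => by
      rw [hone v hv c]; split_ifs <;> simp
    have hnorm : (fun c : Θ.IdlC => ‖F.wTerm c‖) = fun c =>
        ∏ᶠ v, ‖(Θ.loc v).whitTerm (Θ.θ v) (F.f v) (c.1 v).out‖ := by
      funext c
      refine MonoidHom.map_finprod (normHom (α := ℂ)).toMonoidHom ?_
      refine ((eventually_cofinite.1 c.2).union s.finite_toSet).subset fun v hv => ?_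
      by_cases hvs : v ∈ s
      · exact Or.inr hvs
      · refine Or.inl fun hc => hv ?_
        show (Θ.loc v).whitTerm (Θ.θ v) (F.f v) (c.1 v).out = 1
        rw [hone v hvs, if_pos hc]
    rw [hnorm]
    suffices heq : F.whitAbs = ∏ v ∈ s, ∑ᶠ c : Mˣ ⧸ Θ.unitLevel v,
        ‖(Θ.loc v).whitTerm (Θ.θ v) (F.f v) c.out‖ by
      rw [heq]
      exact hasSum_finprod_restricted (fun v => (1 : Mˣ ⧸ Θ.unitLevel v))
        (fun v c => ‖(Θ.loc v).whitTerm (Θ.θ v) (F.f v) c.out‖) s hone' hfin'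
    refine finprod_eq_prod_of_mulSupport_subset _ fun v hv => ?_
    by_contra hvs
    refine hv ?_
    show ∑ᶠ c : Mˣ ⧸ Θ.unitLevel v, ‖(Θ.loc v).whitTerm (Θ.θ v) (F.f v) c.out‖ = 1
    rw [finsum_eq_single _ (1 : Mˣ ⧸ Θ.unitLevel v) fun c hc => by
      rw [hone' v hvs, if_neg hc], hone' v hvs, if_pos rfl]

/-- The Whittaker value is the sum of its terms. -/
lemma Fam.hasSum_wTerm (F : Θ.Fam) : HasSum F.wTerm F.whit :=
  F.exists_whit_data.1

/-- The absolute Whittaker value is the sum of the absolute terms. -/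
lemma Fam.hasSum_norm_wTerm (F : Θ.Fam) : HasSum (fun c => ‖F.wTerm c‖) F.whitAbs :=
  F.exists_whit_data.2

/-- The absolute Whittaker value is nonnegative. -/
lemma Fam.whitAbs_nonneg (F : Θ.Fam) : 0 ≤ F.whitAbs :=
  finprod_nonneg fun _ => finsum_nonneg fun _ => norm_nonneg _

/-- The Whittaker value is bounded by the absolute one. -/
lemma Fam.norm_whit_le (F : Θ.Fam) : ‖F.whit‖ ≤ F.whitAbs := by
  rw [← F.hasSum_wTerm.tsum_eq, ← F.hasSum_norm_wTerm.tsum_eq]
  exact norm_tsum_le_tsum_norm F.hasSum_norm_wTerm.summable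

/-- The diagonal twist. -/
def Fam.twist (F : Θ.Fam) (a : L) (ha : a ≠ 0) : Θ.Fam :=
  F.act _ (isAdelic_const (upper a 0 1 ha one_ne_zero))

/-- The components of a twisted family. -/
lemma Fam.twist_f (F : Θ.Fam) (a : L) (ha : a ≠ 0) (v : HeightOneSpectrum (𝓞 L)) :
    (F.twist a ha).f v = (Θ.loc v).opD (Θ.χ v) a 1 (F.f v) := by
  show (Θ.loc v).wAct (Θ.χ v) _ (F.f v) = _
  rw [wAct_upper, zero_div, opN_zero]

end

/-- The absolute sum of a twist at one place. -/
private def Fam.twistSum (F : Θ.Fam) (a : L) (v : HeightOneSpectrum (𝓞 L)) : ℝ :=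
  ∑ᶠ c : Mˣ ⧸ Θ.unitLevel v,
    ‖(Θ.loc v).whitTerm (Θ.θ v) ((Θ.loc v).opD (Θ.χ v) a 1 (F.f v)) c.out‖

omit [IsTotallyComplex L] in
open Classical in
/-- At a good place the sum of a twist is one at units, vanishes off the integers and grows
polynomially. -/
private lemma Fam.twistSum_good (F : Θ.Fam) {v : HeightOneSpectrum (𝓞 L)} (hvS : v ∉ Θ.S)
    (hd : LocalChar.cond v = 0) (hag : Agree (F.f v) (Θ.loc v).sph) {a : L} (ha : a ≠ 0) :
    (v.valuation L a = 1 → F.twistSum a v = 1) ∧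
      (1 < v.valuation L a → F.twistSum a v = 0) ∧
      F.twistSum a v ≤ (Θ.loc v).absv a ^ (-4 : ℤ) := by
  have hdd : (Θ.loc v).d = 0 := hd
  have heq : ∀ c : Mˣ ⧸ Θ.unitLevel v,
      (Θ.loc v).whitTerm (Θ.θ v) ((Θ.loc v).opD (Θ.χ v) a 1 (F.f v)) c.out =
      (Θ.loc v).whitTerm (Θ.θ v) ((Θ.loc v).opD (Θ.χ v) a 1 (Θ.loc v).sph) c.out := fun c => by
    simp only [whitTerm]
    rw [(hag.opD ha one_ne_zero) _ _ (inv_ne_zero (N_unit_ne_zero c.out))]
  have hunit : v.valuation L a = 1 → F.twistSum a v = 1 := by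
    intro hva
    have hsph : Agree ((Θ.loc v).opD (Θ.χ v) a 1 (Θ.loc v).sph) (Θ.loc v).sph := by
      have h := Θ.wAct_sph hvS (g := upper a 0 1 ha one_ne_zero) (fun i j => by
        fin_cases i <;> fin_cases j <;> simp [upper_val, hva.le]) (by
        simp [upper_val, Matrix.det_fin_two, hva])
      rwa [wAct_upper, zero_div, opN_zero] at h
    show ∑ᶠ c : Mˣ ⧸ Θ.unitLevel v, _ = 1
    rw [finsum_eq_single _ (1 : Mˣ ⧸ Θ.unitLevel v) fun c hc => by
      rw [heq, whitTerm_sph hvS hd hsph, if_neg hc, norm_zero], heq, whitTerm_sph hvS hd hsph,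
      if_pos rfl, NormOneClass.norm_one]
  obtain ⟨i, hi⟩ := (Θ.loc v).exists_v_eq ha
  have hnn : 0 ≤ F.twistSum a v := finsum_nonneg fun _ => norm_nonneg _
  obtain ⟨-, hle⟩ := sum_norm_whitTerm_le (D := Θ.loc v) (χ := Θ.χ v) (θ := Θ.θ v)
    (U := Θ.unitLevel v) (Θ.norm_θ v) (k := 1) (fun h => mem_unitLevel_of_lat_one hvS)
    (f := (Θ.loc v).sph) (a := 0) (m := 0)
    (fun x u hu => by simp only [sph, hdd]; exact if_neg hu)
    (fun u _ x hx => by
      simp only [sph]
      split_ifs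
      · exact LatticeChain.ind_supported 0 x hx
      · rfl)
    (B := 1) (fun x u _ => by
      simp only [sph, ind_zero_eq]; split_ifs <;> simp) hi
  rw [← finsum_congr fun c => congrArg norm (heq c)] at hle
  change F.twistSum a v ≤ _ at hle
  refine ⟨hunit, fun hlt => ?_, ?_⟩
  · rw [show v.valuation L a = exp i from hi, ← exp_zero, exp_lt_exp] at hlt
    rw [if_neg (by omega)] at hle
    exact le_antisymm hle hnn
  · rw [(Θ.loc v).absv_exp hi] at hle ⊢
    rcases lt_trichotomy i 0 with hneg | h0 | hpos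
    · rw [if_pos (by omega)] at hle
      refine hle.trans ?_
      have hq1 : (1 : ℝ) ≤ (Θ.loc v).q := by exact_mod_cast (Θ.loc v).one_lt_q.le
      set q : ℝ := ((Θ.loc v).q : ℝ)
      have hs' : (√(q ^ i))⁻¹ ≤ q ^ (-i) := by
        rw [_root_.zpow_neg, ← Real.sqrt_inv, Real.sqrt_le_iff]
        have h1 : 1 ≤ (q ^ i)⁻¹ := by
          rw [← _root_.zpow_neg]; exact one_le_zpow₀ hq1 (by omega)
        exact ⟨by linarith, by nlinarith⟩
      calc q ^ (2 * (max 0 (1 + (0 - i) - 0) - 0)) * q ^ (i - 0) * (√(q ^ i))⁻¹ * 1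
          ≤ q ^ (2 * (max 0 (1 + (0 - i) - 0) - 0)) * q ^ (i - 0) * q ^ (-i) := by
            rw [mul_one]; gcongr
        _ ≤ _ := by
            rw [← zpow_add₀ (by linarith), ← zpow_add₀ (by linarith), ← zpow_mul]
            exact zpow_le_zpow_right₀ hq1 (by omega)
    · rw [hunit (by rw [show v.valuation L a = exp i from hi, h0, exp_zero]), h0]
      simp
    · rw [if_neg (by omega)] at hle
      exact hle.trans (by positivity)

/-- The finite part of the twists lives on a lattice and grows polynomially. -/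
theorem Fam.whitAbs_twist_le (F : Θ.Fam) (hF : F.IsBdd) :
    ∃ C : ℝ, 0 ≤ C ∧ ∃ D : L, D ≠ 0 ∧ ∀ (a : L) (ha : a ≠ 0),
      ((F.twist a ha).whitAbs ≠ 0 → ∀ v : HeightOneSpectrum (𝓞 L),
        v.valuation L (D * a) ≤ 1) ∧
      (F.twist a ha).whitAbs ≤ C * (∏ w : InfinitePlace L, w a) ^ 8 := by
  classical
  obtain ⟨s, hs⟩ := F.exists_good
  choose B hB using hF
  choose C hC0 I hCI using fun v => exists_whit_bound (χ := Θ.χ v) (Θ.norm_θ v)
    (Θ.isTorusLevel v) (F.isTest v) (hB v)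
  obtain ⟨D, hD0, hD⟩ := Approx.exists_small s (s.sup fun v => (I v).toNat)
  refine ⟨∏ v ∈ s, C v, Finset.prod_nonneg fun v _ => hC0 v, algebraMap (𝓞 L) L D,
    by simpa using hD0, fun a ha => ?_⟩
  set G := fun v => F.twistSum a v
  have hwA : (F.twist a ha).whitAbs = ∏ᶠ v, G v := finprod_congr fun v => by
    rw [F.twist_f a ha v]; rfl
  have hG0 : ∀ v, 0 ≤ G v := fun v => finsum_nonneg fun _ => norm_nonneg _
  have hgood : ∀ v ∉ s, (v.valuation L a = 1 → G v = 1) ∧ (1 < v.valuation L a → G v = 0) ∧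
      G v ≤ (Θ.loc v).absv a ^ (-4 : ℤ) := fun v hv =>
    F.twistSum_good (hs v hv).1 (hs v hv).2.1 (hs v hv).2.2 ha
  have hfinG : (Function.mulSupport G).Finite := by
    refine (s.finite_toSet.union (eventually_cofinite.1
      (eventually_valuation_eq_one (L := L) ha))).subset fun v hv => ?_
    by_cases hvs : v ∈ s
    · exact Or.inl hvs
    · exact Or.inr fun hva => hv ((hgood v hvs).1 hva)
  refine ⟨fun hne v => ?_, ?_⟩
  · rw [hwA] at hne
    have hv0 : G v ≠ 0 := fun e => hne (finprod_eq_zero _ v e hfinG)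
    rw [map_mul]
    by_cases hvs : v ∈ s
    · have hle : v.valuation L a ≤ exp (I v) := by
        by_contra h
        exact hv0 ((hCI v a ha).1 (not_le.1 h))
      refine (mul_le_mul' (hD v hvs) hle).trans ?_
      rw [← exp_add, ← exp_zero, exp_le_exp]
      have h1 := Finset.le_sup (f := fun v => (I v).toNat) hvs
      have := Int.self_le_toNat (I v)
      omega
    · have hle : v.valuation L a ≤ 1 := by
        by_contra h
        exact hv0 ((hgood v hvs).2.1 (not_le.1 h))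
      exact mul_le_one' (v.valuation_le_one D) hle
  · have hA := eventually_cofinite.1 (eventually_absV_eq_one (L := L) ha)
    set T := s ∪ hA.toFinset ∪ hfinG.toFinset
    rw [hwA, finprod_eq_prod_of_mulSupport_subset G (s := T) (fun v hv => by simp [T, hv])]
    have hbound : ∀ v ∈ T,
        G v ≤ (if v ∈ s then C v else 1) * (Θ.loc v).absv a ^ (-4 : ℤ) := by
      intro v _
      split_ifs with hvs
      · exact (hCI v a ha).2
      · rw [one_mul]; exact (hgood v hvs).2.2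
    refine (Finset.prod_le_prod (fun v _ => hG0 v) hbound).trans (le_of_eq ?_)
    rw [Finset.prod_mul_distrib, Finset.prod_ite_mem,
      Finset.inter_eq_right.2 fun v hv => by simp [T, hv]]
    congr 1
    have h2 := finprod_absv (Θ := Θ) ha
    rw [finprod_eq_prod_of_mulSupport_subset _ (s := T) fun v hv => by
      simp only [T, Finset.coe_union, Set.Finite.coe_toFinset, Set.mem_union, Set.mem_ofPred_eq]
      refine Or.inl (Or.inr fun e => hv ?_)
      show √((Θ.loc v).absv a) = 1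
      rw [absv_eq_absV, e, Real.sqrt_one]] at h2
    rw [← inv_inv (∏ w : InfinitePlace L, w a), ← h2, inv_pow, ← Finset.prod_pow,
      ← Finset.prod_inv_distrib]
    refine Finset.prod_congr rfl fun v _ => ?_
    rw [show (8 : ℕ) = 2 * 4 from rfl, pow_mul,
      Real.sq_sqrt (by rw [absv_eq_absV]; exact AbsoluteValue.nonneg _ _), _root_.zpow_neg]
    norm_cast

end ThetaCore

end FermatAgent.LT2.Theta
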