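import Fermat.Agent.LT.Theta.Torus2
import Fermat.Agent.LT2.Theta.Cosets

/-!
# The space of torus classes, its scaling and a partition of unity

The space `Z` of torus classes (finite idele classes times infinite coordinates) carries the
measure `zvol`, which the action `zAct` of `Mˣ` scales by the jacobian `jac` (`map_zAct`).
Normalising a nonnegative profile by its orbit sum gives a partition of unity `part`
(`ae_tsum_part`), which turns a sum of integrals into an integral of sums over the group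
(`unfold_integral`).
-/

set_option autoImplicit false

noncomputable section

open IsDedekindDomain NumberField MeasureTheory Filter
open scoped ENNReal MatrixGroups

namespace FermatAgent.LT2.Theta

open FermatAgent.LT FermatAgent.LT.Theta

open FermatAgent.LT.Theta.LocQuad FermatAgent.LT.Theta.Coord FermatAgent.LT.Theta.Arch
open FermatAgent.LT2.Theta.ThetaCore

variable {L M : Type*} [Field L] [NumberField L] [IsTotallyComplex L] [Field M] [Algebra L M]
  [Algebra.IsQuadraticExtension L M]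

namespace ThetaCore

variable {Θ : ThetaCore L M}

section

omit [IsTotallyComplex L]

lemma countable_units (Θ : ThetaCore L M) : Countable Mˣ :=
  let _ := Θ
  haveI : Countable M := (Module.finBasis L M).repr.injective.countable
  Units.val_injective.countable

instance instMeasurableSpaceIdlC : MeasurableSpace Θ.IdlC := ⊤

instance instMeasurableSingletonIdlC : MeasurableSingletonClass Θ.IdlC := ⟨fun _ => trivial⟩

instance instCountableIdlC : Countable Θ.IdlC := by
  classical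
  let f : Θ.IdlC → Σ s : Finset (HeightOneSpectrum (𝓞 L)), (v : s) → Mˣ ⧸ Θ.unitLevel v :=
    fun x => ⟨(eventually_cofinite.1 x.2).toFinset, fun v => x.1 v⟩
  let g : (Σ s : Finset (HeightOneSpectrum (𝓞 L)), (v : s) → Mˣ ⧸ Θ.unitLevel v) →
      ((v : HeightOneSpectrum (𝓞 L)) → Mˣ ⧸ Θ.unitLevel v) :=
    fun a v => if h : v ∈ a.1 then a.2 ⟨v, h⟩ else 1
  have := countable_units Θ
  have : ∀ v, Countable (Mˣ ⧸ Θ.unitLevel v) := fun v => Quotient.mk_surjective.countable
  refine Function.Injective.countable (f := f) fun x y h => ?_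
  have key : ∀ z : Θ.IdlC, g (f z) = z.1 := by
    intro z; funext v
    by_cases hv : v ∈ (f z).1
    · simp only [g, dif_pos hv]; rfl
    · simp only [g, dif_neg hv]
      simpa [f, eq_comm] using hv
  exact Subtype.ext (by rw [← key x, ← key y, h])

/-- The space of torus classes. -/
abbrev Z (Θ : ThetaCore L M) : Type _ := Θ.IdlC × InfV L

variable (Θ) in
/-- The measure on the space of torus classes. -/
def zvol : Measure Θ.Z := Measure.count.prod volume

lemma eventually_mk_eq_one (γ : Mˣ) :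
    ∀ᶠ v : HeightOneSpectrum (𝓞 L) in cofinite,
      (QuotientGroup.mk γ : Mˣ ⧸ Θ.unitLevel v) = 1 := by
  filter_upwards [Θ.eventually_not_mem, Quad.eventually_unit (L := L) γ.ne_zero] with v hv hγ
  rw [QuotientGroup.eq_one_iff]
  exact ⟨⟨hγ.1, hγ.2⟩, Θ.θ_unr v hv _ hγ.1 hγ.2⟩

/-- Translation of a class. -/
def mulIdl (γ : Mˣ) (c : Θ.IdlC) : Θ.IdlC :=
  ⟨fun v => (QuotientGroup.mk γ : Mˣ ⧸ Θ.unitLevel v) * c.1 v, by
    filter_upwards [Θ.eventually_mk_eq_one γ, c.2] with v h1 h2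
    exact (congrArg₂ (· * ·) h1 h2).trans (one_mul (1 : Mˣ ⧸ Θ.unitLevel v))⟩

lemma mulIdl_mul (γ δ : Mˣ) (c : Θ.IdlC) : mulIdl (γ * δ) c = mulIdl γ (mulIdl δ c) :=
  Subtype.ext (funext fun v => by simp [mulIdl, mul_assoc])

lemma mulIdl_one (c : Θ.IdlC) : mulIdl 1 c = c :=
  Subtype.ext (funext fun v => by simp [mulIdl]; exact one_mul (c.1 v))

/-- Multiplication at infinity. -/
def mulInf (γ : Mˣ) (h : InfV L) : InfV L :=
  fun w => ((ιM (L := L) (γ : M) w).1 * (h w).1, (ιM (L := L) (γ : M) w).2 * (h w).2)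

/-- The action of `Mˣ`. -/
def zAct (γ : Mˣ) (z : Θ.Z) : Θ.Z := (mulIdl γ z.1, mulInf γ z.2)

/-- Global units have nonzero coordinates. -/
lemma ιM_units_ne_zero (γ : Mˣ) (w : InfinitePlace L) :
    (ιM (L := L) (γ : M) w).1 ≠ 0 ∧ (ιM (L := L) (γ : M) w).2 ≠ 0 :=
  ⟨(map_ne_zero _).2 γ.ne_zero,
    (map_ne_zero _).2 ((map_ne_zero_iff _ (Quad.conj L M).injective).2 γ.ne_zero)⟩

lemma zAct_mul (γ δ : Mˣ) (z : Θ.Z) : zAct (γ * δ) z = zAct γ (zAct δ z) :=
  Prod.ext (mulIdl_mul γ δ z.1) (funext fun w => by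
    simp only [zAct, mulInf, ιM, Units.val_mul, map_mul]
    ext <;> simp [mul_assoc])

lemma zAct_one (z : Θ.Z) : zAct 1 z = z :=
  Prod.ext (mulIdl_one z.1) (funext fun w => by simp [zAct, mulInf, ιM])

lemma zAct_inv_left (γ : Mˣ) (z : Θ.Z) : zAct γ⁻¹ (zAct γ z) = z := by
  rw [← zAct_mul, inv_mul_cancel, zAct_one]

lemma measurable_zAct (γ : Mˣ) : Measurable (zAct (Θ := Θ) γ) := by
  refine ((measurable_from_top (f := mulIdl (Θ := Θ) γ)).comp measurable_fst).prodMk ?_
  refine Measurable.comp (g := mulInf (L := L) γ) ?_ measurable_snd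
  exact measurable_pi_lambda _ fun w =>
    ((measurable_fst.comp (measurable_pi_apply w)).const_mul _).prodMk
      ((measurable_snd.comp (measurable_pi_apply w)).const_mul _)

/-- The jacobian. -/
def jac (γ : Mˣ) : ℝ := ∏ w : InfinitePlace L, w (Algebra.norm L (γ : M)) ^ 2

/-- The scaling factor is positive. -/
lemma jac_pos (γ : Mˣ) : 0 < jac (L := L) γ :=
  Finset.prod_pos fun _ _ => pow_pos (InfinitePlace.pos_iff.2
    (Algebra.norm_ne_zero_iff.2 γ.ne_zero)) 2

lemma place_norm (γ : Mˣ) (w : InfinitePlace L) :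
    w (Algebra.norm L (γ : M)) = ‖(ιM (L := L) (γ : M) w).1‖ * ‖(ιM (L := L) (γ : M) w).2‖ := by
  rw [← InfinitePlace.norm_embedding_eq, emb_norm, norm_mul]

lemma map_mulInf (γ : Mˣ) :
    Measure.map (mulInf (L := L) γ) volume = ENNReal.ofReal (jac (L := L) γ)⁻¹ • volume := by
  set a := fun w => (ιM (L := L) (γ : M) w).1
  set b := fun w => (ιM (L := L) (γ : M) w).2
  have ha : ∀ w, a w ≠ 0 := fun w => (ιM_units_ne_zero γ w).1
  have hb : ∀ w, b w ≠ 0 := fun w => (ιM_units_ne_zero γ w).2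
  have hc : ∀ {c : ℂ}, c ≠ 0 → SigmaFinite
      (ENNReal.ofReal ((‖c‖ ^ 2)⁻¹) • (volume : Measure ℂ)) := fun {c} hc => by
    have := Measure.IsAddHaarMeasure.smul (volume : Measure ℂ)
      (c := ENNReal.ofReal ((‖c‖ ^ 2)⁻¹)) (by simpa using hc) ENNReal.ofReal_ne_top
    infer_instance
  have h2 : ∀ w, Measure.map (Prod.map (fun x : ℂ => a w * x) (fun x : ℂ => b w * x))
      (volume : Measure (ℂ × ℂ)) =
      ENNReal.ofReal ((w (Algebra.norm L (γ : M)) ^ 2)⁻¹) • volume := fun w => by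
    rw [show (volume : Measure (ℂ × ℂ)) = (volume : Measure ℂ).prod volume from rfl,
      ← Measure.map_prod_map _ _ (measurable_const_mul _) (measurable_const_mul _),
      map_mul_left_volume (ha w), map_mul_left_volume (hb w)]
    have := hc (ha w)
    have := hc (hb w)
    refine Measure.prod_eq fun s t _ _ => ?_
    rw [place_norm, mul_pow, mul_inv, ENNReal.ofReal_mul (inv_nonneg.2 (sq_nonneg _))]
    simp only [Measure.smul_apply, Measure.prod_prod, smul_eq_mul, a, b]
    ring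
  have : ∀ w : InfinitePlace L, SigmaFinite
      (ENNReal.ofReal ((w (Algebra.norm L (γ : M)) ^ 2)⁻¹) • (volume : Measure (ℂ × ℂ))) :=
    fun w => by
      have : (volume : Measure (ℂ × ℂ)).IsAddHaarMeasure :=
        inferInstanceAs (((volume : Measure ℂ).prod (volume : Measure ℂ)).IsAddHaarMeasure)
      have := Measure.IsAddHaarMeasure.smul (volume : Measure (ℂ × ℂ))
        (c := ENNReal.ofReal ((w (Algebra.norm L (γ : M)) ^ 2)⁻¹))
        (ENNReal.ofReal_pos.2 (inv_pos.2 (sq_pos_of_pos (InfinitePlace.pos_iff.2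
          (Algebra.norm_ne_zero_iff.2 γ.ne_zero))))).ne' ENNReal.ofReal_ne_top
      infer_instance
  have : ∀ w, SigmaFinite (Measure.map (Prod.map (fun x : ℂ => a w * x) (fun x : ℂ => b w * x))
      (volume : Measure (ℂ × ℂ))) := fun w => by rw [h2 w]; infer_instance
  show Measure.map (fun (h : InfV L) w => Prod.map (fun x => a w * x) (fun x => b w * x) (h w))
    volume = _
  rw [volume_pi, Measure.pi_map_pi fun w =>
    ((measurable_const_mul _).prodMap (measurable_const_mul _)).aemeasurable]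
  simp only [h2]
  refine Measure.pi_eq fun s _ => ?_
  simp only [Measure.smul_apply, Measure.pi_pi, smul_eq_mul]
  rw [jac, ← Finset.prod_inv_distrib, ENNReal.ofReal_prod_of_nonneg (fun w _ => by positivity),
    ← Finset.prod_mul_distrib]

lemma lintegral_zAct (γ : Mˣ) {f : Θ.Z → ℝ≥0∞} (hf : Measurable f) :
    ∫⁻ z, f (zAct γ z) ∂Θ.zvol = ENNReal.ofReal (jac (L := L) γ)⁻¹ * ∫⁻ z, f z ∂Θ.zvol := by
  have hm : Measurable (mulInf (L := L) γ) :=
    measurable_pi_lambda _ fun w =>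
      ((measurable_fst.comp (measurable_pi_apply w)).const_mul _).prodMk
        ((measurable_snd.comp (measurable_pi_apply w)).const_mul _)
  rw [zvol, lintegral_prod (fun z => f (zAct γ z)) (hf.comp (measurable_zAct γ)).aemeasurable,
    lintegral_prod _ hf.aemeasurable, lintegral_count, lintegral_count, ← ENNReal.tsum_mul_left]
  have e : ∀ c, ∫⁻ h, f (mulIdl γ c, mulInf γ h) =
      ENNReal.ofReal (jac (L := L) γ)⁻¹ * ∫⁻ h, f (mulIdl γ c, h) := fun c => by
    rw [← lintegral_map (f := fun h => f (mulIdl γ c, h)) (hf.comp measurable_prodMk_left) hm,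
      map_mulInf, lintegral_smul_measure]
    rfl
  simp only [zAct, e]
  let eq : Θ.IdlC ≃ Θ.IdlC := ⟨mulIdl γ, mulIdl γ⁻¹,
    fun c => by rw [← mulIdl_mul, inv_mul_cancel, mulIdl_one],
    fun c => by rw [← mulIdl_mul, mul_inv_cancel, mulIdl_one]⟩
  exact eq.tsum_eq fun c => ENNReal.ofReal (jac (L := L) γ)⁻¹ * ∫⁻ h, f (c, h)

lemma map_zAct (γ : Mˣ) :
    Measure.map (zAct γ) Θ.zvol = ENNReal.ofReal (jac (L := L) γ)⁻¹ • Θ.zvol := by
  refine Measure.ext fun s hs => ?_
  rw [Measure.map_apply (measurable_zAct γ) hs, Measure.smul_apply, smul_eq_mul,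
    ← lintegral_indicator_one (measurable_zAct γ hs), ← lintegral_indicator_one hs,
    ← lintegral_zAct γ (measurable_one.indicator hs)]
  rfl

lemma integral_zAct (γ : Mˣ) {f : Θ.Z → ℂ} (hf : Measurable f) :
    ((jac (L := L) γ : ℝ) : ℂ) * ∫ z, f (zAct γ z) ∂Θ.zvol = ∫ z, f z ∂Θ.zvol := by
  rw [← integral_map (measurable_zAct γ).aemeasurable hf.aestronglyMeasurable, map_zAct,
    integral_smul_measure, ENNReal.toReal_ofReal (inv_nonneg.2 (jac_pos γ).le),
    Complex.real_smul, ← mul_assoc, ← Complex.ofReal_mul, mul_inv_cancel₀ (jac_pos γ).ne',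
    Complex.ofReal_one, one_mul]

/-! ### A partition of unity -/

open Classical in
/-- A positive profile on classes. -/
def f0 (z : Θ.Z) : ℝ :=
  (if ∀ v, (((z.1.1 v).out : Mˣ) : M) ∈ (Θ.loc v).O then 1 else 0) *
    ∏ w : InfinitePlace L,
      Real.exp (-(2 * Real.pi) * (‖(z.2 w).1‖ ^ 2 + ‖(z.2 w).2‖ ^ 2))

lemma f0_nonneg (z : Θ.Z) : 0 ≤ f0 z :=
  mul_nonneg (by split_ifs <;> norm_num) (Finset.prod_nonneg fun _ _ => (Real.exp_pos _).le)

lemma measurable_f0 : Measurable (f0 (Θ := Θ)) := by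
  classical
  refine measurable_from_prod_countable_right fun c => ?_
  have hc : Continuous fun h : InfV L => ∏ w : InfinitePlace L,
      Real.exp (-(2 * Real.pi) * (‖(h w).1‖ ^ 2 + ‖(h w).2‖ ^ 2)) := by
    refine continuous_finsetProd _ fun w _ => Real.continuous_exp.comp (continuous_const.mul ?_)
    exact ((continuous_fst.comp (continuous_apply w)).norm.pow 2).add
      ((continuous_snd.comp (continuous_apply w)).norm.pow 2)
  simp only [f0]
  convert hc.measurable.const_mul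
    (if ∀ v, (((c.1 v).out : Mˣ) : M) ∈ (Θ.loc v).O then (1 : ℝ) else 0) using 1

/-- The orbit sum. -/
def orb (z : Θ.Z) : ℝ := ∑' γ : Mˣ, f0 (zAct γ z)

lemma measurable_orb : Measurable (orb (Θ := Θ)) := by
  have := countable_units Θ
  have e : (orb (Θ := Θ)) = fun z => (∑' γ : Mˣ, ENNReal.ofReal (f0 (zAct γ z))).toReal := by
    funext z
    rw [ENNReal.tsum_toReal_eq fun _ => ENNReal.ofReal_ne_top]
    exact tsum_congr fun γ => (ENNReal.toReal_ofReal (f0_nonneg _)).symm
  rw [e]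
  exact (Measurable.tsum fun γ => ENNReal.measurable_ofReal.comp
    (measurable_f0.comp (measurable_zAct γ))).ennreal_toReal

/-- The partition of unity. -/
def part (z : Θ.Z) : ℝ := f0 z / orb z

lemma part_nonneg (z : Θ.Z) : 0 ≤ part z :=
  div_nonneg (f0_nonneg z) (tsum_nonneg fun _ => f0_nonneg _)

lemma measurable_part : Measurable (part (Θ := Θ)) := measurable_f0.div measurable_orb

/-- The lattice attached to a class, as a family. -/
def latVec (o : HeightOneSpectrum (𝓞 L) → Mˣ) (v : HeightOneSpectrum (𝓞 L)) : M → L → ℂ :=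
  open Classical in fun x u =>
    if v.valuation L u = 1 then (if (o v : M) * x ∈ (Θ.loc v).O then 1 else 0) else 0

/-- Representatives of classes form ideles. -/
lemma mk_out_unit (c : Θ.IdlC) : IsIdele L fun v => (c.1 v).out := by
  filter_upwards [c.2] with v hv
  have h : (c.1 v).out ∈ Θ.unitLevel v := by
    rw [← QuotientGroup.eq_one_iff, QuotientGroup.out_eq', hv]
  exact h.1

/-- The family of the lattice. -/
def latFam (c : Θ.IdlC) : Θ.Fam where
  f := latVec (Θ := Θ) fun v => (c.1 v).out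
  isTest v := by
    classical
    set o := (c.1 v).out
    obtain ⟨i, hi⟩ := (Θ.loc v).exists_mem_lat (o : M)
    obtain ⟨j, hj⟩ := (Θ.loc v).exists_mem_lat ((o : M))⁻¹
    refine ⟨0, j, -i, fun x u hu => if_neg fun e => hu (e.trans WithZero.exp_zero.symm),
      fun u _ => ⟨fun x y hy => ?_, fun x hx => ?_⟩⟩
    · simp only [latVec]
      have hy' : (o : M) * y ∈ (Θ.loc v).O := by
        have := (Θ.loc v).mul_mem_lat hi hy
        rwa [add_neg_cancel, LocQuad.lat_zero] at this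
      refine if_congr Iff.rfl ?_ rfl
      by_cases hxo : (o : M) * x ∈ (Θ.loc v).O
      · rw [if_pos (show (o : M) * (x + y) ∈ (Θ.loc v).O by
          rw [mul_add]; exact add_mem hxo hy'), if_pos hxo]
      · rw [if_neg (fun h => hxo (by
          have := sub_mem h hy'
          rwa [mul_add, add_sub_cancel_right] at this)), if_neg hxo]
    · simp only [latVec]
      have hn : ¬(o : M) * x ∈ (Θ.loc v).O := fun h => hx (by
        have := (Θ.loc v).mul_mem_lat hj (show (o : M) * x ∈ (Θ.loc v).lat 0 by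
          rwa [LocQuad.lat_zero])
        rwa [← mul_assoc, inv_mul_cancel₀ o.ne_zero, one_mul, add_zero] at this)
      rw [if_neg hn, ite_self]
  isInv v := fun h hh x u _ => by
    classical
    show latVec (Θ := Θ) _ v ((h : M) * x) (u / (Θ.loc v).N (h : M)) = _
    have hN : v.valuation L ((Θ.loc v).N (h : M)) = 1 := hh.1.2
    simp only [latVec, map_div₀, hN, div_one]
    refine if_congr Iff.rfl (if_congr ⟨fun hm => ?_, fun hm => ?_⟩ rfl rfl) rfl
    · have := (Θ.loc v).mul_mem _ _ hh.1.inv.1 hm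
      rwa [mul_left_comm _ (h : M), ← mul_assoc, ← mul_assoc, inv_mul_cancel₀ h.ne_zero,
        one_mul] at this
    · rw [mul_left_comm]; exact (Θ.loc v).mul_mem _ _ hh.1.1 hm
  almost := by
    filter_upwards [LocalChar.eventually_cond_eq_zero, Θ.mk_out_unit c] with v hd ho x u _
    classical
    simp only [latVec, sph, show (Θ.loc v).d = 0 from hd, WithZero.exp_zero, LocQuad.ind_zero_eq]
    refine if_congr Iff.rfl (if_congr ⟨fun hm => ?_, fun hm => (Θ.loc v).mul_mem _ _ ho.1 hm⟩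
      rfl rfl) rfl
    have hU : LocQuad.IsTame.IsU (Θ.loc v) ((c.1 v).out : M) := ho
    have := (Θ.loc v).mul_mem _ _ hU.inv.1 hm
    rwa [← mul_assoc, inv_mul_cancel₀ (Units.ne_zero _), one_mul] at this

lemma out_mul_mem (γ : Mˣ) (c : Θ.IdlC) (v : HeightOneSpectrum (𝓞 L)) :
    (((((mulIdl γ c).1 v)).out : Mˣ) : M) ∈ (Θ.loc v).O ↔
      ((c.1 v).out : M) * (γ : M) ∈ (Θ.loc v).O := by
  obtain ⟨k, hk⟩ := QuotientGroup.mk_out_eq_mul (Θ.unitLevel v) (γ * (c.1 v).out)
  have e : ((mulIdl γ c).1 v).out = γ * (c.1 v).out * k := by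
    rw [← hk]
    show ((QuotientGroup.mk γ : Mˣ ⧸ Θ.unitLevel v) * c.1 v).out = _
    rw [QuotientGroup.mk_mul, QuotientGroup.out_eq']
  rw [e]
  push_cast
  have hk1 : ((k : Mˣ) : M) ∈ (Θ.loc v).O := k.2.1.1
  have hk2 : ((k : Mˣ) : M)⁻¹ ∈ (Θ.loc v).O := k.2.1.inv.1
  refine ⟨fun h => ?_, fun h => ?_⟩
  · have h' := (Θ.loc v).mul_mem _ _ h hk2
    rwa [mul_assoc, mul_inv_cancel₀ (Units.ne_zero _), mul_one, mul_comm] at h'
  · rw [mul_comm (γ : M)]; exact (Θ.loc v).mul_mem _ _ h hk1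

end

lemma summable_f0 {z : Θ.Z} (hz : ∀ w, (z.2 w).1 ≠ 0 ∧ (z.2 w).2 ≠ 0) :
    Summable fun γ : Mˣ => f0 (zAct γ z) := by
  classical
  set t : InfinitePlace L → ℝ := fun w => ‖(z.2 w).1‖ * ‖(z.2 w).2‖
  have ht : ∀ w, 0 < t w := fun w =>
    mul_pos (norm_pos_iff.2 (hz w).1) (norm_pos_iff.2 (hz w).2)
  set P : InfPts L := fun w => ⟨0, t w, ht w⟩
  set ρ : InfinitePlace L → ℝ := fun w => ‖(z.2 w).1‖ / ‖(z.2 w).2‖
  have hρ : ∀ w, 0 < ρ w := fun w => div_pos (norm_pos_iff.2 (hz w).1) (norm_pos_iff.2 (hz w).2)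
  have hs := (summable_theta (latFam z.1) P hρ one_ne_zero).norm.comp_injective
    (Units.val_injective (α := M))
  refine Summable.congr ((hs.mul_left (∏ w, t w)⁻¹)) fun γ => ?_
  have hval : ‖(latFam z.1).val (γ : M) 1‖ =
      if ∀ v, (((zAct γ z).1.1 v).out : M) ∈ (Θ.loc v).O then 1 else 0 := by
    have hloc : ∀ v, (latFam z.1).f v (γ : M) 1 =
        if ((z.1.1 v).out : M) * (γ : M) ∈ (Θ.loc v).O then 1 else 0 := fun v => by
      simp [latFam, latVec]
    split_ifs with hall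
    · rw [Fam.val, finprod_eq_one_of_forall_eq_one fun v => by
        rw [hloc, if_pos ((out_mul_mem γ z.1 v).1 (hall v))], NormOneClass.norm_one]
    · push Not at hall
      obtain ⟨v, hv⟩ := hall
      rw [(latFam z.1).val_eq_zero one_ne_zero (v := v) (by
        rw [hloc, if_neg fun h => hv ((out_mul_mem γ z.1 v).2 h)]), norm_zero]
  simp only [Function.comp, norm_mul, hval, norm_gw]
  rw [f0, Finset.prod_mul_distrib (f := fun w => (P w).t), show (∏ w, (P w).t) = ∏ w, t w from rfl,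
    mul_left_comm,
    ← mul_assoc _ (∏ w, t w), inv_mul_cancel₀ (Finset.prod_pos fun w _ => ht w).ne', one_mul]
  congr 1
  refine Finset.prod_congr rfl fun w _ => ?_
  rw [← Real.exp_add, map_one, NormOneClass.norm_one]
  have h1 : (P w).t * ρ w = ‖(z.2 w).1‖ ^ 2 := by
    have := norm_ne_zero_iff.2 (hz w).2
    simp only [P, t, ρ]; field_simp
  have h2 : (P w).t * (ρ w)⁻¹ = ‖(z.2 w).2‖ ^ 2 := by
    have := norm_ne_zero_iff.2 (hz w).1
    simp only [P, t, ρ, inv_div]; field_simp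
  simp only [zAct, mulInf, norm_mul, mul_pow, ← h1, ← h2]
  ring_nf

lemma orb_pos {z : Θ.Z} (hz : ∀ w, (z.2 w).1 ≠ 0 ∧ (z.2 w).2 ≠ 0) : 0 < orb z := by
  classical
  have hbad := eventually_cofinite.1 (Θ.mk_out_unit z.1)
  choose i hi using fun v => (Θ.loc v).exists_mem_lat ((z.1.1 v).out : M)
  obtain ⟨D, hD0, hD⟩ := Approx.exists_small hbad.toFinset
    (hbad.toFinset.sup fun v => (-i v).toNat)
  have hDM : algebraMap L M (algebraMap (𝓞 L) L D) ≠ 0 := by
    simpa using hD0
  set γ : Mˣ := Units.mk0 _ hDM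
  refine (summable_f0 hz).tsum_pos (fun γ => f0_nonneg _) γ ?_
  refine mul_pos ?_ (Finset.prod_pos fun _ _ => Real.exp_pos _)
  suffices hmem : ∀ v, ((z.1.1 v).out : M) * (γ : M) ∈ (Θ.loc v).O by
    rw [if_pos (show ∀ v, (((zAct γ z).1.1 v).out : M) ∈ (Θ.loc v).O from
      fun v => (out_mul_mem γ z.1 v).2 (hmem v))]
    norm_num
  intro v
  simp only [γ, Units.val_mk0]
  by_cases hv : v ∈ hbad.toFinset
  · have h1 := Finset.le_sup (f := fun v => (-i v).toNat) hv
    have h2 := Int.self_le_toNat (-i v)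
    have hm : algebraMap L M (algebraMap (𝓞 L) L D) ∈
        (Θ.loc v).lat ((hbad.toFinset.sup fun v => (-i v).toNat : ℕ) : ℤ) := by
      have := (Θ.loc v).smul_mem_lat (k := 0) (x := (1 : M)) (hD v hv)
        (by rw [LocQuad.lat_zero]; exact (Θ.loc v).one_mem)
      rwa [Algebra.smul_def, mul_one, zero_add] at this
    rw [← LocQuad.lat_zero]
    exact (Θ.loc v).lat_mono (by omega) ((Θ.loc v).mul_mem_lat (hi v) hm)
  · rw [Set.Finite.mem_toFinset] at hv
    simp only [Set.mem_ofPred_eq, not_not] at hv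
    exact (Θ.loc v).mul_mem _ _ hv.1 (Quad.algebraMap_mem_lattice (v.valuation_le_one D))

omit [IsTotallyComplex L] in
lemma orb_zAct (δ : Mˣ) (z : Θ.Z) : orb (zAct δ z) = orb z := by
  rw [orb, orb, ← (Equiv.mulRight δ).tsum_eq fun γ => f0 (zAct γ z)]
  exact tsum_congr fun γ => by rw [Equiv.coe_mulRight, zAct_mul]

omit [IsTotallyComplex L] in
/-- Almost every point has nonzero coordinates. -/
lemma ae_regular : ∀ᵐ z ∂Θ.zvol, ∀ w, (z.2 w).1 ≠ 0 ∧ (z.2 w).2 ≠ 0 := by
  rw [zvol]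
  refine Measure.quasiMeasurePreserving_snd.ae (p := fun h : InfV L => ∀ w,
    (h w).1 ≠ 0 ∧ (h w).2 ≠ 0) ?_
  rw [ae_all_iff]
  intro w
  have hnull : (volume : Measure (ℂ × ℂ)) {x | x.1 = 0 ∨ x.2 = 0} = 0 := by
    have e : {x : ℂ × ℂ | x.1 = 0 ∨ x.2 = 0} =
        ({0} : Set ℂ) ×ˢ Set.univ ∪ Set.univ ×ˢ ({0} : Set ℂ) := by
      ext x; simp
    rw [e]
    refine measure_union_null ?_ ?_ <;>
      simp [Measure.volume_eq_prod, Measure.prod_prod]
  rw [ae_iff]
  refine le_antisymm ((measure_mono ?_).trans_eq (Measure.pi_eval_preimage_null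
    (fun _ : InfinitePlace L => (volume : Measure (ℂ × ℂ))) (i := w) hnull)) zero_le
  intro h hh
  simp only [Set.mem_ofPred_eq, not_and_or, not_not] at hh
  exact hh

lemma ae_tsum_part : ∀ᵐ z ∂Θ.zvol,
    ∑' γ : Mˣ, ENNReal.ofReal (part (zAct γ z)) = 1 := by
  filter_upwards [ae_regular] with z hz
  have e : ∀ γ, part (zAct γ z) = f0 (zAct γ z) / orb z := fun γ => by rw [part, orb_zAct]
  simp only [e]
  rw [← ENNReal.ofReal_tsum_of_nonneg (fun γ => div_nonneg (f0_nonneg _) (orb_pos hz).le)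
    ((summable_f0 hz).div_const _), tsum_div_const]
  show ENNReal.ofReal (orb z / orb z) = 1
  rw [div_self (orb_pos hz).ne', ENNReal.ofReal_one]

/-- Unfolding. -/
theorem unfold_integral {A : Type*} [Countable A] (K : A → Θ.Z → ℂ)
    (hK : ∀ α, Measurable (K α)) (hfin : ∑' α, ∫⁻ z, ‖K α z‖ₑ ∂Θ.zvol ≠ ∞) :
    (∀ᵐ z ∂Θ.zvol, part z ≠ 0 → Summable fun p : A × Mˣ =>
      ((jac (L := L) p.2 : ℝ) : ℂ) * K p.1 (zAct p.2 z)) ∧
    ∑' α, ∫ z, K α z ∂Θ.zvol = ∫ z, (part z : ℂ) *
      ∑' p : A × Mˣ, ((jac (L := L) p.2 : ℝ) : ℂ) * K p.1 (zAct p.2 z) ∂Θ.zvol := by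
  have := countable_units Θ
  set T : A × Mˣ → Θ.Z → ℂ := fun p z =>
    (part z : ℂ) * (((jac (L := L) p.2 : ℝ) : ℂ) * K p.1 (zAct p.2 z))
  set S : A × Mˣ → Θ.Z → ℂ := fun p z => (part (zAct p.2⁻¹ z) : ℂ) * K p.1 z
  have hpm : Measurable fun z : Θ.Z => (part z : ℂ) :=
    Complex.measurable_ofReal.comp measurable_part
  have hSm : ∀ p, Measurable (S p) := fun p =>
    (hpm.comp (measurable_zAct _)).mul (hK p.1)
  have hTm : ∀ p, Measurable (T p) := fun p =>
    hpm.mul (((hK p.1).comp (measurable_zAct _)).const_mul _)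
  have hTS : ∀ p z, T p z = ((jac (L := L) p.2 : ℝ) : ℂ) * S p (zAct p.2 z) := fun p z => by
    simp only [T, S, zAct_inv_left]; ring
  have hnorm : ∀ p, ∫⁻ z, ‖T p z‖ₑ ∂Θ.zvol = ∫⁻ z, ‖S p z‖ₑ ∂Θ.zvol := fun p => by
    simp only [hTS, enorm_mul]
    rw [lintegral_const_mul _ (f := fun z => ‖S p (zAct p.2 z)‖ₑ)
        ((hSm p).comp (measurable_zAct _)).enorm,
      lintegral_zAct p.2 (f := fun z => ‖S p z‖ₑ) (hSm p).enorm, ← mul_assoc, ← ofReal_norm,
      Complex.norm_real,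
      Real.norm_of_nonneg (jac_pos _).le, ← ENNReal.ofReal_mul (jac_pos _).le,
      mul_inv_cancel₀ (jac_pos _).ne', ENNReal.ofReal_one, one_mul]
  have hone : ∀ᵐ z ∂Θ.zvol, ∑' γ : Mˣ, ENNReal.ofReal (part (zAct γ⁻¹ z)) = 1 :=
    ae_tsum_part.mono fun z hz => by
      rw [← hz]; exact (Equiv.inv Mˣ).tsum_eq fun γ => ENNReal.ofReal (part (zAct γ z))
  have hrow : ∀ α, ∑' γ, ∫⁻ z, ‖S (α, γ) z‖ₑ ∂Θ.zvol = ∫⁻ z, ‖K α z‖ₑ ∂Θ.zvol := fun α => by
    rw [← lintegral_tsum fun γ => (hSm _).enorm.aemeasurable]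
    refine lintegral_congr_ae (hone.mono fun z hz => ?_)
    simp only [S, enorm_mul, ENNReal.tsum_mul_right]
    conv_rhs => rw [← one_mul ‖K α z‖ₑ, ← hz]
    congr 1
    exact tsum_congr fun γ => by
      rw [← ofReal_norm, Complex.norm_real, Real.norm_of_nonneg (part_nonneg _)]
  have htot : ∑' p, ∫⁻ z, ‖S p z‖ₑ ∂Θ.zvol ≠ ∞ := by
    rw [ENNReal.tsum_prod']; simpa [hrow] using hfin
  refine ⟨?_, ?_⟩
  · have hlt : ∫⁻ z, ∑' p, ‖T p z‖ₑ ∂Θ.zvol ≠ ∞ := by
      rw [lintegral_tsum fun p => (hTm p).enorm.aemeasurable]; simpa [hnorm] using htot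
    filter_upwards [ae_lt_top (Measurable.tsum fun p => (hTm p).enorm) hlt] with z hz hne
    have h1 : Summable fun p => ‖T p z‖ := by
      refine (ENNReal.summable_toReal hz.ne).congr fun p => ?_
      simp
    refine ((h1.of_norm).mul_left ((part z : ℂ))⁻¹).congr fun p => ?_
    simp only [T]
    rw [← mul_assoc, inv_mul_cancel₀ (Complex.ofReal_ne_zero.2 hne), one_mul]
  · rw [integral_congr_ae (ae_of_all _ fun z => (tsum_mul_left).symm),
      integral_tsum (fun p => (hTm p).aestronglyMeasurable) (by simpa [hnorm] using htot)]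
    have hp : ∀ p, ∫ z, T p z ∂Θ.zvol = ∫ z, S p z ∂Θ.zvol := fun p => by
      simp only [hTS]
      rw [integral_const_mul, integral_zAct p.2 (hSm p)]
    rw [tsum_congr hp]
    have hsum : Summable fun p => ∫ z, S p z ∂Θ.zvol := by
      refine Summable.of_norm_bounded
        (g := fun p => (∫⁻ z, ‖S p z‖ₑ ∂Θ.zvol).toReal) (ENNReal.summable_toReal htot) fun p => ?_
      have h := enorm_integral_le_lintegral_enorm (μ := Θ.zvol) (S p)
      rw [← ofReal_norm] at h
      exact (ENNReal.ofReal_le_iff_le_toReal (ne_top_of_le_ne_top htot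
        (ENNReal.le_tsum p))).1 h
    rw [hsum.tsum_prod]
    refine tsum_congr fun α => ?_
    rw [← integral_tsum (fun γ => (hSm (α, γ)).aestronglyMeasurable)
      (ne_top_of_le_ne_top hfin ((hrow α).le.trans (ENNReal.le_tsum α)))]
    refine (integral_congr_ae ?_).symm
    filter_upwards [hone] with z hz
    simp only [S]
    rw [tsum_mul_right]
    have h : (∑' γ : Mˣ, part (zAct γ⁻¹ z)) = 1 := by
      have := congrArg ENNReal.toReal hz
      rw [ENNReal.tsum_toReal_eq fun _ => ENNReal.ofReal_ne_top] at this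
      simpa [ENNReal.toReal_ofReal (part_nonneg _)] using this
    rw [← Complex.ofReal_tsum, h, Complex.ofReal_one, one_mul]

end ThetaCore

end FermatAgent.LT2.Theta
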