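import Fermat.Agent.LT.Theta.Expansion
import Fermat.Agent.LT2.Theta.Torus2

/-!
# The theta lift as a sum of Whittaker functions, and its invariance under the Weyl element

The theta lift `Fam.lift` is defined as the sum over `α` in `Lˣ` of Whittaker functions of
twisted families, with a majorant away from the boundary (`Fam.exists_majorant`,
`Fam.summable_expTerm`). Unfolding over the torus classes writes it as an integral of theta
series (`Fam.lift_eq_integral`), and the transformation of theta series then gives invariance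
under the Weyl element for families killed at the origin (`Fam.lift_weyl_zero0`).
-/

set_option autoImplicit false

noncomputable section

open IsDedekindDomain NumberField MeasureTheory Filter
open scoped ENNReal MatrixGroups Real
open FermatAgent.LT.Poisson (intVec)

namespace FermatAgent.LT2.Theta

open FermatAgent.LT FermatAgent.LT.Theta

open FermatAgent.LT.Theta.LocQuad FermatAgent.LT.Theta.Coord FermatAgent.LT.Theta.Arch
  FermatAgent.LT.Theta.ArchW
open FermatAgent.LT2.Theta.ThetaCore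

variable {L M : Type*} [Field L] [NumberField L] [IsTotallyComplex L] [Field M] [Algebra L M]
  [Algebra.IsQuadraticExtension L M]

namespace ThetaCore

variable {Θ : ThetaCore L M}

/-! ### The expansion -/

/-- The infinite part of the Whittaker function. -/
def winfPts (P : InfPts L) : ℂ := ∏ w, winf (P w)

/-- Scale a family of points. -/
def twPts (α : Lˣ) (P : InfPts L) : InfPts L := gPt (upper (α : L) 0 1 α.ne_zero one_ne_zero) P

omit [IsTotallyComplex L] in
/-- The twisted points. -/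
lemma twPts_apply (α : Lˣ) (P : InfPts L) (w : InfinitePlace L) :
    (twPts α P w).z = w.embedding (α : L) * (P w).z ∧ (twPts α P w).t = w (α : L) * (P w).t := by
  obtain ⟨hz, ht⟩ := gPt_upper α.ne_zero one_ne_zero (b := 0) P w
  rw [map_one, map_zero, add_zero, div_one] at hz
  rw [map_one, div_one, InfinitePlace.norm_embedding_eq] at ht
  exact ⟨hz, ht⟩

/-- A term of the expansion. -/
def Fam.expTerm (F : Θ.Fam) (P : InfPts L) (α : Lˣ) : ℂ :=
  (F.twist α α.ne_zero).whit * winfPts (twPts α P)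

/-- The theta lift: the sum over `α ∈ Lˣ` of the Whittaker functions of the twists. -/
def Fam.lift (F : Θ.Fam) (P : InfPts L) : ℂ := ∑' α : Lˣ, F.expTerm P α

/-- A majorant of the expansion, uniform away from the boundary. -/
theorem Fam.exists_majorant (F : Θ.Fam) (hF : F.IsBdd) {t₀ : ℝ} (h₀ : 0 < t₀) :
    ∃ g : Lˣ → ℝ, Summable g ∧ ∀ P : InfPts L, (∀ w, t₀ ≤ (P w).t) → ∀ α : Lˣ,
      (F.twist α α.ne_zero).whitAbs * ‖winfPts (twPts α P)‖ ≤ g α := by
  classical
  obtain ⟨C, hC, D, hD, hCD⟩ := F.whitAbs_twist_le hF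
  obtain ⟨K, hK, hpoly⟩ : ∃ K : ℝ, 0 ≤ K ∧ ∀ x : ℝ, 0 ≤ x →
      x ^ 7 * Real.exp (-(π * t₀) * x) ≤ K := by
    obtain ⟨K, hK, hb⟩ := exp_le_poly (mul_pos Real.pi_pos h₀) 7
    refine ⟨K, hK, fun x hx => ?_⟩
    have h := hb x hx
    rw [Real.rpow_neg (by linarith), Real.rpow_natCast, ← div_eq_mul_inv,
      le_div_iff₀ (by positivity)] at h
    refine le_trans ?_ h
    rw [mul_comm]
    exact mul_le_mul_of_nonneg_left (pow_le_pow_left₀ hx (by linarith) 7) (Real.exp_pos _).le
  set n := Fintype.card (InfinitePlace L)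
  refine ⟨fun α => C * (2 / t₀ * K) ^ n *
    {α : Lˣ | ∀ v : HeightOneSpectrum (𝓞 L), v.valuation L (D * α) ≤ 1}.indicator
      (fun α : Lˣ => Real.exp (-(π * t₀) * ∑ w : InfinitePlace L, w (α : L))) α,
    (summable_exp_lattice (mul_pos Real.pi_pos h₀) hD).mul_left _, fun P hP α => ?_⟩
  obtain ⟨hsupp, hle⟩ := hCD α α.ne_zero
  by_cases hz : (F.twist α α.ne_zero).whitAbs = 0
  · rw [hz, zero_mul]
    exact mul_nonneg (by positivity) (Set.indicator_nonneg (fun _ _ => (Real.exp_pos _).le) _)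
  beta_reduce
  rw [Set.indicator_of_mem (show α ∈ {α : Lˣ | ∀ v : HeightOneSpectrum (𝓞 L),
    v.valuation L (D * α) ≤ 1} from hsupp hz)]
  have hw : ‖winfPts (twPts α P)‖ ≤ ∏ w : InfinitePlace L,
      2 * Real.exp (-(2 * π * (w (α : L) * t₀))) / (w (α : L) * t₀) := by
    rw [winfPts, norm_prod]
    refine Finset.prod_le_prod (fun w _ => norm_nonneg _) fun w _ => ?_
    refine (norm_winf_le _).trans ?_
    rw [(twPts_apply α P w).2]
    have hα : 0 < w (α : L) := InfinitePlace.pos_iff.2 α.ne_zero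
    have := hP w
    gcongr
  refine (mul_le_mul hle hw (norm_nonneg _) (mul_nonneg hC (by positivity))).trans ?_
  rw [mul_assoc C, mul_assoc C, Finset.mul_sum, Real.exp_sum]
  refine mul_le_mul_of_nonneg_left ?_ hC
  rw [← Finset.prod_pow, ← Finset.prod_mul_distrib,
    show (2 / t₀ * K) ^ n = ∏ _w : InfinitePlace L, (2 / t₀ * K) by simp [n],
    ← Finset.prod_mul_distrib]
  refine Finset.prod_le_prod (fun w _ => by positivity) fun w _ => ?_
  set x := w (α : L)
  have hx : 0 < x := InfinitePlace.pos_iff.2 α.ne_zero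
  have e : x ^ 8 * (2 * Real.exp (-(2 * π * (x * t₀))) / (x * t₀)) =
      2 / t₀ * (x ^ 7 * Real.exp (-(π * t₀) * x)) * Real.exp (-(π * t₀) * x) := by
    rw [show -(2 * π * (x * t₀)) = -(π * t₀) * x + -(π * t₀) * x by ring, Real.exp_add]
    field_simp
  rw [e]
  gcongr
  exact hpoly x hx.le

omit [IsTotallyComplex L] in
/-- Heights at finitely many places have a lower bound. -/
lemma exists_lower_bound (P : InfPts L) : ∃ t₀ : ℝ, 0 < t₀ ∧ ∀ w, t₀ ≤ (P w).t :=
  ⟨Finset.univ.inf' Finset.univ_nonempty fun w => (P w).t,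
    (Finset.lt_inf'_iff _).2 fun w _ => (P w).t_pos,
    fun w => Finset.inf'_le (fun w => (P w).t) (Finset.mem_univ w)⟩

omit [IsTotallyComplex L] in
/-- A bound on the expansion terms. -/
lemma Fam.norm_expTerm_le (F : Θ.Fam) (P : InfPts L) (α : Lˣ) :
    ‖F.expTerm P α‖ ≤ (F.twist α α.ne_zero).whitAbs * ‖winfPts (twPts α P)‖ := by
  rw [Fam.expTerm, norm_mul]
  exact mul_le_mul_of_nonneg_right (Fam.norm_whit_le _) (norm_nonneg _)

/-- The expansion converges. -/
lemma Fam.summable_expTerm (F : Θ.Fam) (hF : F.IsBdd) (P : InfPts L) :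
    Summable (F.expTerm P) := by
  obtain ⟨t₀, h₀, ht⟩ := exists_lower_bound P
  obtain ⟨g, hg, hle⟩ := F.exists_majorant hF h₀
  exact Summable.of_norm_bounded hg fun α => (F.norm_expTerm_le P α).trans (hle P ht α)

/-- The integrand of a term on torus classes. -/
def Fam.kTerm (F : Θ.Fam) (P : InfPts L) (α : Lˣ) (z : Θ.Z) : ℂ :=
  (F.twist α α.ne_zero).wTerm z.1 * ∏ w, kinf (w (α : L)) (twPts α P w) (z.2 w)

section

omit [IsTotallyComplex L]

lemma Fam.measurable_kTerm (F : Θ.Fam) (P : InfPts L) (α : Lˣ) : Measurable (F.kTerm P α) :=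
  ((measurable_from_top (f := (F.twist α α.ne_zero).wTerm)).comp measurable_fst).mul
    ((Finset.measurable_prod _ fun w _ =>
      (measurable_kinf _ _).comp (measurable_pi_apply w)).comp measurable_snd)

lemma integral_count_idlC (f : Θ.IdlC → ℂ) (hf : Integrable f Measure.count) :
    ∫ c, f c ∂Measure.count = ∑' c, f c := by
  rw [Measure.count] at hf ⊢
  rw [integral_sum_measure hf]
  exact tsum_congr fun c => integral_dirac _ _

lemma Fam.integral_kTerm (F : Θ.Fam) (P : InfPts L) (α : Lˣ) :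
    ∫⁻ z, ‖F.kTerm P α z‖ₑ ∂Θ.zvol =
      ENNReal.ofReal ((F.twist α α.ne_zero).whitAbs * ‖winfPts (twPts α P)‖) ∧
    ∫ z, F.kTerm P α z ∂Θ.zvol = F.expTerm P α := by
  set G := F.twist α α.ne_zero
  have hs : ∀ w : InfinitePlace L, 0 < w (α : L) := fun w => InfinitePlace.pos_iff.2 α.ne_zero
  have hi1 : Integrable G.wTerm Measure.count :=
    integrable_count_iff.2 G.hasSum_norm_wTerm.summable
  have hi2 : Integrable fun h : InfV L => ∏ w, kinf (w (α : L)) (twPts α P w) (h w) :=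
    Integrable.fintype_prod (μ := fun _ : InfinitePlace L => (volume : Measure (ℂ × ℂ)))
      fun w => integrable_kinf (hs w) _
  have hk : F.kTerm P α =
      fun z : Θ.Z => G.wTerm z.1 * ∏ w, kinf (w (α : L)) (twPts α P w) (z.2 w) := by
    funext z; rfl
  have hi' := hi1.mul_prod hi2
  have hi : Integrable (F.kTerm P α) Θ.zvol := by
    rw [hk, zvol]
    with_reducible exact hi'
  refine ⟨?_, ?_⟩
  · rw [← ofReal_integral_norm_eq_lintegral_enorm hi]
    congr 1
    have h1 : ∫ c, ‖G.wTerm c‖ ∂Measure.count = G.whitAbs := by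
      have h := hi1.norm
      rw [Measure.count] at h ⊢
      rw [integral_sum_measure h, ← G.hasSum_norm_wTerm.tsum_eq]
      exact tsum_congr fun c => integral_dirac _ _
    have h2 : ∫ h : InfV L, ‖∏ w, kinf (w (α : L)) (twPts α P w) (h w)‖ =
        ‖winfPts (twPts α P)‖ := by
      simp only [norm_prod, winfPts]
      rw [volume_pi, integral_fintype_prod_eq_prod (E := fun _ : InfinitePlace L => ℂ × ℂ)
        (fun w x => ‖kinf (w (α : L)) (twPts α P w) x‖)]
      exact Finset.prod_congr rfl fun w _ => integral_norm_kinf (hs w) _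
    rw [hk]
    simp only [norm_mul]
    rw [zvol, integral_prod_mul (fun c => ‖G.wTerm c‖)
      (fun h : InfV L => ‖∏ w, kinf (w (α : L)) (twPts α P w) (h w)‖), h1, h2]
  · rw [hk, zvol, integral_prod_mul (fun c => G.wTerm c)
      (fun h : InfV L => ∏ w, kinf (w (α : L)) (twPts α P w) (h w)),
      integral_count_idlC _ hi1, G.hasSum_wTerm.tsum_eq, volume_pi,
      integral_fintype_prod_eq_prod (E := fun _ : InfinitePlace L => ℂ × ℂ)
        (fun w x => kinf (w (α : L)) (twPts α P w) x)]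
    rw [Fam.expTerm, winfPts]
    exact congrArg _ (Finset.prod_congr rfl fun w _ => ArchW.integral_kinf (hs w) _)

/-! ### Regrouping -/

/-- The weight of the cut-off at `u`. -/
def uWeight (u : L) (h : InfV L) : ℂ :=
  ∏ w : InfinitePlace L, ((bump (w u / nm (h w)) * (w u / nm (h w)) : ℝ) : ℂ)

/-- The ratio of moduli. -/
def rhoPts (h : InfV L) : InfinitePlace L → ℝ := fun w => rho (h w)

/-- Representatives of a class. -/
def outC (c : Θ.IdlC) : HeightOneSpectrum (𝓞 L) → Mˣ := fun v => (c.1 v).out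

/-- The factor of a class. -/
def cFac (c : Θ.IdlC) : ℂ :=
  ∏ᶠ v, (Θ.θ v (outC c v : M))⁻¹ *
    (((Θ.loc v).absv ((Θ.loc v).N (outC c v : M)) : ℝ) : ℂ)

/-- The translate of a family by a class. -/
def Fam.smulC (F : Θ.Fam) (c : Θ.IdlC) : Θ.Fam := F.smulH (outC c) (Θ.mk_out_unit c)

/-- The regrouped integrand. -/
def Fam.regroup (F : Θ.Fam) (P : InfPts L) (z : Θ.Z) : ℂ :=
  ∑' u : Lˣ, uWeight (u : L) z.2 * cFac z.1 * (F.smulC z.1).theta P (rhoPts z.2) (u : L)

/-- The norm on units. -/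
def normU : Mˣ →* Lˣ := Units.map (Algebra.norm L (S := M))

omit [NumberField L] [Algebra.IsQuadraticExtension L M] in
lemma normU_apply (γ : Mˣ) : ((normU (L := L) γ : Lˣ) : L) = Algebra.norm L (γ : M) := rfl

lemma eventually_θ_eq_one (γ : Mˣ) : ∀ᶠ v in cofinite, Θ.θ v (γ : M) = 1 := by
  filter_upwards [Θ.eventually_not_mem, Quad.eventually_unit (L := L) γ.ne_zero] with v hv hγ
  exact Θ.θ_unr v hv _ hγ.1 hγ.2

end

lemma Fam.twist_wTerm_mul (F : Θ.Fam) (u : Lˣ) (γ : Mˣ) (c : Θ.IdlC) :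
    ((jac (L := L) γ : ℝ) : ℂ) *
        (F.twist ((u * normU γ : Lˣ) : L) (u * normU γ : Lˣ).ne_zero).wTerm (mulIdl γ c) =
      ((∏ w : InfinitePlace L, w ((u * normU γ : Lˣ) : L) : ℝ) : ℂ) * cFac c *
        (F.smulC c).val (γ : M) (u : L) := by
  classical
  set α : Lˣ := u * normU γ
  set a : L := (α : L)
  have ha : a ≠ 0 := α.ne_zero
  set o := outC c
  let A := fun v => (Θ.θ v (γ : M))⁻¹
  let B := fun v => (((Θ.loc v).absv ((Θ.loc v).N (γ : M)) : ℝ) : ℂ)
  let C := fun v => (((√((Θ.loc v).absv a)) : ℝ) : ℂ)⁻¹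
  let E := fun v => (Θ.θ v (o v : M))⁻¹ * (((Θ.loc v).absv ((Θ.loc v).N (o v : M)) : ℝ) : ℂ)
  let G := fun v => (F.smulC c).f v (γ : M) (u : L)
  have hloc : ∀ v, (Θ.loc v).whitTerm (Θ.θ v) ((F.twist a α.ne_zero).f v)
      (((mulIdl γ c).1 v).out) = A v * B v * C v * E v * G v := by
    intro v
    have e1 : (mulIdl γ c).1 v = QuotientGroup.mk (γ * o v) := by
      show (QuotientGroup.mk γ : Mˣ ⧸ Θ.unitLevel v) * c.1 v = _
      rw [QuotientGroup.mk_mul]
      exact congrArg _ (QuotientGroup.out_eq' (c.1 v)).symm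
    rw [e1, whitTerm_out (Θ.isTorusLevel v) ((F.twist a α.ne_zero).isInv v),
      F.twist_f a α.ne_zero v,
      whitTerm_opD, Units.val_mul, map_mul, LocQuad.N_mul, LocQuad.absv_mul, mul_inv]
    have hN : (Θ.loc v).N (γ : M) ≠ 0 := N_unit_ne_zero γ
    have hG : F.f v ((γ : M) * (o v : M)) (a * (((Θ.loc v).N (γ : M) * (Θ.loc v).N (o v : M)))⁻¹) =
        G v := by
      show _ = F.f v ((o v : M) * (γ : M)) ((u : L) / (Θ.loc v).N (o v : M))
      rw [mul_comm (γ : M)]
      congr 1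
      show (u : L) * (Algebra.norm L (γ : M)) * _ = _
      have hN' : (Θ.loc v).N (γ : M) = Algebra.norm L (γ : M) := rfl
      rw [← hN', div_eq_mul_inv]
      field_simp
    rw [← mul_inv, hG]
    simp only [A, B, C, E]
    push_cast
    ring
  have hA : (Function.mulSupport A).Finite :=
    (eventually_cofinite.1 (Θ.eventually_θ_eq_one γ)).subset fun v hv h => hv (by simp [A, h])
  have habs : ∀ x : L, x ≠ 0 → (Function.mulSupport fun v => (Θ.loc v).absv x).Finite := fun x hx =>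
    (eventually_cofinite.1 (eventually_absV_eq_one (L := L) hx)).subset fun v hv h =>
      hv (by simp [absv_eq_absV, h])
  have hNγ : Algebra.norm L (γ : M) ≠ 0 := Algebra.norm_ne_zero_iff.2 γ.ne_zero
  have hB : (Function.mulSupport B).Finite := (habs _ hNγ).subset fun v hv h => hv (by
    simp only [B, show (Θ.loc v).N (γ : M) = Algebra.norm L (γ : M) from rfl, h,
      Complex.ofReal_one])
  have hCf : (Function.mulSupport C).Finite := (habs _ ha).subset fun v hv h => hv (by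
    simp [C, h])
  have hE : (Function.mulSupport E).Finite := by
    refine (eventually_cofinite.1 ((Θ.mk_out_unit c).and Θ.eventually_not_mem)).subset
      fun v hv h => hv ?_
    show (Θ.θ v ((c.1 v).out : M))⁻¹ *
      (((Θ.loc v).absv ((Θ.loc v).N ((c.1 v).out : M)) : ℝ) : ℂ) = 1
    rw [Θ.θ_unr v h.2 _ h.1.1 h.1.2, (Θ.loc v).absv_exp (n := 0)
      (show (Θ.loc v).v _ = _ by rw [WithZero.exp_zero]; exact h.1.2)]
    simp
  have hG : (Function.mulSupport G).Finite := (F.smulC c).mulSupport_finite _ u.ne_zero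
  have hAB := (hA.union hB).subset (Function.mulSupport_mul A B)
  have hABC := (hAB.union hCf).subset (Function.mulSupport_mul (fun v => A v * B v) C)
  have hABCE := (hABC.union hE).subset (Function.mulSupport_mul (fun v => A v * B v * C v) E)
  have hsq : ∀ x : L, x ≠ 0 → ∏ᶠ v, (((√((Θ.loc v).absv x)) : ℝ) : ℂ) =
      (((∏ w : InfinitePlace L, w x)⁻¹ : ℝ) : ℂ) := fun x hx => by
    rw [← finprod_absv (Θ := Θ) hx]
    exact (MonoidHom.map_finprod_of_injective Complex.ofRealHom.toMonoidHom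
      Complex.ofReal_injective _).symm
  have hA' : ∏ᶠ v, A v = 1 := by rw [finprod_inv_distrib, Θ.prod_θ _ γ.ne_zero, inv_one]
  have hB' : ∏ᶠ v, B v = ((jac (L := L) γ : ℝ) : ℂ)⁻¹ := by
    have e : ∀ v, B v = (((√((Θ.loc v).absv (Algebra.norm L (γ : M)))) : ℝ) : ℂ) *
        (((√((Θ.loc v).absv (Algebra.norm L (γ : M)))) : ℝ) : ℂ) := fun v => by
      rw [← Complex.ofReal_mul,
        Real.mul_self_sqrt (by rw [absv_eq_absV]; exact AbsoluteValue.nonneg _ _)]
      rfl
    have hfin := (habs _ hNγ).subset (fun v (hv : v ∈ Function.mulSupport fun v =>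
      (((√((Θ.loc v).absv (Algebra.norm L (γ : M)))) : ℝ) : ℂ)) (h : _ = (1 : ℝ)) =>
        hv (by simp [h]))
    rw [finprod_congr e, finprod_mul_distrib hfin hfin, hsq _ hNγ, jac, Finset.prod_pow, pow_two]
    push_cast
    rw [mul_inv]
  have hC' : ∏ᶠ v, C v = ((∏ w : InfinitePlace L, w a : ℝ) : ℂ) := by
    rw [finprod_inv_distrib, hsq _ ha, Complex.ofReal_inv, inv_inv]
  rw [Fam.wTerm, finprod_congr hloc, finprod_mul_distrib hABCE hG, finprod_mul_distrib hABC hE,
    finprod_mul_distrib hAB hCf, finprod_mul_distrib hA hB, hA', hB', hC', one_mul]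
  show _ = _ * cFac c * ∏ᶠ v, G v
  rw [show (cFac c : ℂ) = ∏ᶠ v, E v from rfl]
  have : ((jac (L := L) γ : ℝ) : ℂ) ≠ 0 := Complex.ofReal_ne_zero.2 (jac_pos γ).ne'
  field_simp
  ring

omit [IsTotallyComplex L] in
lemma kinf_twist (u : Lˣ) (γ : Mˣ) (P : InfPts L) (w : InfinitePlace L) {h : ℂ × ℂ}
    (hh : h.1 ≠ 0 ∧ h.2 ≠ 0) :
    ((w ((u * normU γ : Lˣ) : L) : ℝ) : ℂ) * kinf (w ((u * normU γ : Lˣ) : L))
        (twPts (u * normU γ) P w)
        ((ιM (L := L) (γ : M) w).1 * h.1, (ιM (L := L) (γ : M) w).2 * h.2) =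
      ((bump (w (u : L) / nm h) * (w (u : L) / nm h) : ℝ) : ℂ) *
        (((P w).t : ℂ) * gauss (P w).z (P w).t (rho h) (w.embedding (u : L))
          (ιM (L := L) (γ : M) w)) := by
  obtain ⟨hz, ht⟩ := twPts_apply (u * normU γ) P w
  set x1 := (ιM (L := L) (γ : M) w).1
  set x2 := (ιM (L := L) (γ : M) w).2
  have hx : x1 ≠ 0 ∧ x2 ≠ 0 := ιM_units_ne_zero γ w
  have hα : w.embedding ((u * normU γ : Lˣ) : L) = w.embedding (u : L) * (x1 * x2) := by
    rw [Units.val_mul, map_mul, normU_apply, emb_norm]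
  have hwα : w ((u * normU γ : Lˣ) : L) = w (u : L) * (‖x1‖ * ‖x2‖) := by
    rw [← InfinitePlace.norm_embedding_eq, hα, norm_mul, norm_mul, InfinitePlace.norm_embedding_eq]
  have hu : 0 < w (u : L) := InfinitePlace.pos_iff.2 u.ne_zero
  have n1 := norm_pos_iff.2 hx.1
  have n2 := norm_pos_iff.2 hx.2
  have m1 := norm_pos_iff.2 hh.1
  have m2 := norm_pos_iff.2 hh.2
  have hg : gauss (P w).z (P w).t (rho h) (w.embedding (u : L)) (ιM (L := L) (γ : M) w) =
      (prof (w ((u * normU γ : Lˣ) : L) * (P w).t) (x1 * h.1, x2 * h.2) : ℂ) *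
        ψC (w.embedding ((u * normU γ : Lˣ) : L) * (P w).z) := by
    rw [gauss, prof, hwα, hα, InfinitePlace.norm_embedding_eq]
    congr 2
    · congr 1
      simp only [rho, norm_mul]
      field_simp
      ring
    · ring
  have hw : wgt (w ((u * normU γ : Lˣ) : L)) (x1 * h.1, x2 * h.2) *
      w ((u * normU γ : Lˣ) : L) ^ 2 = bump (w (u : L) / nm h) * (w (u : L) / nm h) := by
    rw [wgt, hwα]
    simp only [nm, norm_mul]
    rw [show w (u : L) * (‖x1‖ * ‖x2‖) / (‖x1‖ * ‖h.1‖ * (‖x2‖ * ‖h.2‖)) =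
      w (u : L) / (‖h.1‖ * ‖h.2‖) by field_simp]
    field_simp
  rw [hg, kinf, ht, hz, ← hw]
  push_cast
  ring

lemma Fam.kTerm_regroup (F : Θ.Fam) (P : InfPts L) (u : Lˣ) (γ : Mˣ) (z : Θ.Z)
    (hz : ∀ w, (z.2 w).1 ≠ 0 ∧ (z.2 w).2 ≠ 0) :
    ((jac (L := L) γ : ℝ) : ℂ) * F.kTerm P (u * normU γ) (zAct γ z) =
      uWeight (u : L) z.2 * cFac z.1 *
        ((F.smulC z.1).val (γ : M) (u : L) * gw P (rhoPts z.2) (u : L) (ιM (L := L) (γ : M))) := by
  rw [Fam.kTerm, ← mul_assoc, show (zAct γ z).1 = mulIdl γ z.1 from rfl, F.twist_wTerm_mul,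
    Complex.ofReal_prod, mul_right_comm, mul_right_comm _ (cFac z.1), ← Finset.prod_mul_distrib,
    Finset.prod_congr rfl fun w _ =>
      show _ * kinf _ _ ((zAct γ z).2 w) = _ from kinf_twist u γ P w (hz w),
    Finset.prod_mul_distrib, uWeight, gw]
  simp only [rhoPts]
  ring

/-- A family killed at the origin by one place. -/
def Fam.Zero0 (F : Θ.Fam) : Prop := ∃ v, ∀ u, u ≠ 0 → F.f v 0 u = 0

omit [IsTotallyComplex L] in
lemma Fam.smulC_val_zero {F : Θ.Fam} (h0 : F.Zero0) (c : Θ.IdlC) {u : L} (hu : u ≠ 0) :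
    (F.smulC c).val 0 u = 0 := by
  obtain ⟨v, hv⟩ := h0
  refine (F.smulC c).val_eq_zero hu (v := v) ?_
  show F.f v ((outC c v : M) * 0) _ = 0
  rw [mul_zero]
  exact hv _ (div_ne_zero hu (N_unit_ne_zero _))

/-- **Unfolding**: for a family killed at the origin the lift is an integral of regrouped theta
series over the torus classes. -/
theorem Fam.lift_eq_integral (F : Θ.Fam) (hF : F.IsBdd) (h0 : F.Zero0) (P : InfPts L) :
    F.lift P = ∫ z, (part z : ℂ) * F.regroup P z ∂Θ.zvol := by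
  classical
  obtain ⟨t₀, h₀, ht⟩ := exists_lower_bound P
  obtain ⟨g, hg, hle⟩ := F.exists_majorant hF h₀
  have hfin : ∑' α : Lˣ, ∫⁻ z, ‖F.kTerm P α z‖ₑ ∂Θ.zvol ≠ ∞ := by
    refine ne_top_of_le_ne_top (show ∑' α : Lˣ, ENNReal.ofReal (g α) ≠ ∞ from ?_)
      (ENNReal.tsum_le_tsum fun α => by
        rw [(F.integral_kTerm P α).1]; exact ENNReal.ofReal_le_ofReal (hle P ht α))
    rw [← ENNReal.ofReal_tsum_of_nonneg (fun α => (mul_nonneg (Fam.whitAbs_nonneg _)
      (norm_nonneg _)).trans (hle P ht α)) hg]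
    exact ENNReal.ofReal_ne_top
  have : Countable L := (Module.finBasis ℚ L).repr.injective.countable
  have : Countable Lˣ := Units.val_injective.countable
  obtain ⟨hsum, hint⟩ := unfold_integral (F.kTerm P) (F.measurable_kTerm P) hfin
  have e : F.lift P = ∑' α, ∫ z, F.kTerm P α z ∂Θ.zvol :=
    tsum_congr fun α => ((F.integral_kTerm P α).2).symm
  rw [e, hint]
  refine integral_congr_ae ?_
  filter_upwards [hsum, ae_regular (Θ := Θ)] with z hz hreg
  by_cases hp : part z = 0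
  · simp [hp]
  congr 1
  let e : Lˣ × Mˣ ≃ Lˣ × Mˣ :=
    { toFun := fun p => (p.1 * normU p.2, p.2)
      invFun := fun p => (p.1 * (normU p.2)⁻¹, p.2)
      left_inv := fun p => by simp
      right_inv := fun p => by simp }
  rw [← e.tsum_eq]
  set T := fun p : Lˣ × Mˣ => uWeight (p.1 : L) z.2 * cFac z.1 *
    ((F.smulC z.1).val (p.2 : M) (p.1 : L) * gw P (rhoPts z.2) (p.1 : L) (ιM (L := L) (p.2 : M)))
  have hT : ∀ p : Lˣ × Mˣ,
      ((jac (L := L) (e p).2 : ℝ) : ℂ) * F.kTerm P (e p).1 (zAct (e p).2 z) = T p :=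
    fun p => F.kTerm_regroup P p.1 p.2 z hreg
  have hsT : Summable T := ((e.summable_iff).2 (hz hp)).congr hT
  rw [tsum_congr hT, hsT.tsum_prod, Fam.regroup]
  refine tsum_congr fun u => ?_
  simp only [T]
  rw [tsum_mul_left, Fam.theta]
  congr 1
  refine (Units.val_injective).tsum_eq
    (f := fun ξ => (F.smulC z.1).val ξ (u : L) * gw P (rhoPts z.2) (u : L) (ιM (L := L) ξ)) ?_
  intro ξ hξ
  by_contra hnr
  refine hξ ?_
  have hξ0 : ξ = 0 := by
    by_contra h
    exact hnr ⟨Units.mk0 ξ h, rfl⟩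
  show _ * _ = 0
  rw [hξ0, Fam.smulC_val_zero h0 z.1 u.ne_zero, zero_mul]

/-- The lift is invariant under the Weyl element, for families killed at the origin. -/
theorem Fam.lift_weyl_zero0 (F : Θ.Fam) (hF : F.IsBdd) (h0 : F.Zero0) (hF' : F.weyl.IsBdd)
    (h0' : F.weyl.Zero0) (P : InfPts L) : F.weyl.lift (wPt P) = F.lift P := by
  rw [F.weyl.lift_eq_integral hF' h0', F.lift_eq_integral hF h0]
  refine integral_congr_ae ?_
  filter_upwards [ae_regular (Θ := Θ)] with z hz
  congr 1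
  refine tsum_congr fun u => ?_
  congr 1
  have hρ : ∀ w, 0 < rhoPts z.2 w := fun w =>
    div_pos (norm_pos_iff.2 (hz w).1) (norm_pos_iff.2 (hz w).2)
  have e : (F.weyl.smulC z.1).theta (wPt P) (rhoPts z.2) (u : L) =
      (F.smulC z.1).weyl.theta (wPt P) (rhoPts z.2) (u : L) :=
    Fam.theta_congr (F.smulH_weyl (Θ.mk_out_unit z.1)) _ _ u.ne_zero
  rw [e, Θ.theta_weyl u.ne_zero _ _ hρ]

end ThetaCore

end FermatAgent.LT2.Theta
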