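import Fermat.Agent.LT2.Theta.Expansion

/-!
# The orbit of the base family and the automorphy of its lift

For twisted `θ` the lift is invariant under the Weyl element (`Fam.lift_weyl`): projecting
away the origin multiplies it by `1 - θ h ≠ 0` (`Fam.lift_kill`). Test vectors `Vec` at the
special places define a base family `baseFam` and its translates `orbit`, whose lift is
automorphic for `GL₂(L)` (`orbit_lift_smul`), as the Weyl element and upper triangular matrices
generate.
-/

set_option autoImplicit false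

noncomputable section

open IsDedekindDomain NumberField WithZero Filter
open scoped MatrixGroups

namespace FermatAgent.LT2.Theta

open FermatAgent.LT FermatAgent.LT.Theta
open FermatAgent.LT.Theta.LocQuad FermatAgent.LT.Theta.Coord FermatAgent.LT.Theta.Arch
  FermatAgent.LT.Theta.ArchW
open FermatAgent.LT2.Theta.ThetaCore

variable {L : Type*} [Field L] [NumberField L]

variable [IsTotallyComplex L] {M : Type*} [Field M] [Algebra L M]
  [Algebra.IsQuadraticExtension L M]

namespace ThetaCore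

variable {Θ : ThetaCore L M}

lemma whit_scalar {v : HeightOneSpectrum (𝓞 L)} {f : M → L → ℂ}
    (hf : (Θ.loc v).IsInv (Θ.unitLevel v) f) {z : L} (hz : z ≠ 0) :
    (Θ.loc v).whit (Θ.θ v) (Θ.unitLevel v) ((Θ.loc v).opD (Θ.χ v) z z f) =
      (Θ.loc v).whit (Θ.θ v) (Θ.unitLevel v) f := by
  rw [whit_opD_scalar (Θ.isTorusLevel v) hf hz, Θ.θ_base v hz,
    div_self (χ_ne_zero (Θ.isSign v) hz), one_mul]

omit [IsTotallyComplex L] in
/-- The lift depends only on the Whittaker values. -/
lemma Fam.lift_congr_whit {F F' : Θ.Fam}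
    (h : ∀ α : Lˣ, (F.twist α α.ne_zero).whit = (F'.twist α α.ne_zero).whit) (P : InfPts L) :
    F.lift P = F'.lift P :=
  tsum_congr fun α => by rw [Fam.expTerm, Fam.expTerm, h α]

omit [IsTotallyComplex L] in
lemma Fam.lift_congr {F F' : Θ.Fam} (h : ∀ v, Agree (F.f v) (F'.f v)) (P : InfPts L) :
    F.lift P = F'.lift P :=
  Fam.lift_congr_whit (fun α => finprod_congr fun v => by
    rw [Fam.twist_f, Fam.twist_f]
    exact whit_congr ((h v).opD α.ne_zero one_ne_zero)) P

omit [IsTotallyComplex L] in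
/-- Almost all local Whittaker values are one. -/
lemma Fam.eventually_whit (F : Θ.Fam) :
    (Function.mulSupport fun v => (Θ.loc v).whit (Θ.θ v) (Θ.unitLevel v) (F.f v)).Finite := by
  classical
  obtain ⟨s, hs⟩ := F.exists_good
  refine s.finite_toSet.subset fun v hv => ?_
  by_contra hvs
  refine hv ?_
  show (Θ.loc v).whit (Θ.θ v) (Θ.unitLevel v) (F.f v) = 1
  have hone := whitTerm_sph (hs v hvs).1 (hs v hvs).2.1 (hs v hvs).2.2
  rw [LocQuad.whit, finsum_eq_single _ (1 : Mˣ ⧸ Θ.unitLevel v) fun c hc => by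
    rw [hone, if_neg hc], hone, if_pos rfl]

variable (Θ) in
/-- The product formula for the additive characters. -/
lemma finprod_ψ_mul (c : L) : (∏ᶠ v, (Θ.loc v).ψ c) *
    ∏ w : InfinitePlace L, ψC (w.embedding c) = 1 := by
  classical
  have hψ := eventually_cofinite.1 (eventually_valuation_le_one (L := L) c)
  rw [finprod_eq_prod_of_mulSupport_subset (fun v => (Θ.loc v).ψ c) (s := hψ.toFinset)
    fun v hv => by
      simp only [Set.Finite.coe_toFinset, Set.mem_ofPred_eq]
      exact fun hle => hv (LocalChar.ψloc_eq_one hle)]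
  rw [show ∏ v ∈ hψ.toFinset, (Θ.loc v).ψ c = LocalChar.eRat (Algebra.trace ℚ L c) from
      LocalChar.prod_ψloc hψ.toFinset fun w hw => by simpa using hw,
    LocalChar.eRat, Approx.trace_eq_sum_places, Finset.mul_sum, Complex.exp_sum,
    ← Finset.prod_mul_distrib]
  refine Finset.prod_eq_one fun w _ => ?_
  rw [ψC, ← Complex.exp_add, ← Complex.exp_zero]
  congr 1
  push_cast
  ring

variable {v₀ : HeightOneSpectrum (𝓞 L)} {h₀ : M}

omit [IsTotallyComplex L] in
/-- The projection commutes with the twist. -/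
lemma opD_killVec (v : HeightOneSpectrum (𝓞 L)) (a : L) (f : M → L → ℂ) :
    (Θ.loc v).opD (Θ.χ v) a 1 (Θ.killVec v₀ h₀ v f) =
      Θ.killVec v₀ h₀ v ((Θ.loc v).opD (Θ.χ v) a 1 f) := by
  unfold killVec
  split_ifs with hv
  · rw [opH_opD]
    funext x u
    simp only [LocQuad.opD]
    ring
  · rfl

omit [IsTotallyComplex L] in
open Classical in
/-- The Whittaker functional after the projection. -/
lemma whit_killVec (hN : (Θ.loc v₀).N h₀ = 1) {v : HeightOneSpectrum (𝓞 L)} {f : M → L → ℂ}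
    (hf : (Θ.loc v).IsTest f)
    (hi : (Θ.loc v).IsInv (Θ.unitLevel v) f) :
    (Θ.loc v).whit (Θ.θ v) (Θ.unitLevel v) (Θ.killVec v₀ h₀ v f) =
      (if v = v₀ then 1 - Θ.θ v₀ h₀ else 1) *
        (Θ.loc v).whit (Θ.θ v) (Θ.unitLevel v) f := by
  unfold killVec
  split_ifs with hv
  swap
  · rw [one_mul]
  rw [hv] at hf hi ⊢
  set k : Mˣ := Units.mk0 h₀ (h₀_ne_zero hN)
  have hk := whit_opH (Θ.isTorusLevel v₀) hi k
  rw [show (k : M) = h₀ from rfl, hN, LocQuad.absv_one, Complex.ofReal_one, inv_one,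
    mul_one] at hk
  rw [sub_mul, one_mul, ← hk, LocQuad.whit, LocQuad.whit, LocQuad.whit,
    ← finsum_sub_distrib (finite_support_whit (Θ.isTorusLevel _) hf)
      (finite_support_whit (Θ.isTorusLevel _) (isTest_opH hf (h₀_ne_zero hN)))]
  refine finsum_congr fun c => ?_
  simp only [LocQuad.whitTerm]
  ring

omit [IsTotallyComplex L] in
/-- The lift of the projection. -/
theorem Fam.lift_kill (F : Θ.Fam) (hN : (Θ.loc v₀).N h₀ = 1) (P : InfPts L) :
    (F.kill hN).lift P = (1 - Θ.θ v₀ h₀) * F.lift P := by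
  classical
  rw [Fam.lift, Fam.lift, ← tsum_mul_left]
  refine tsum_congr fun α => ?_
  rw [Fam.expTerm, Fam.expTerm, ← mul_assoc]
  congr 1
  set G := F.twist α α.ne_zero
  set c : HeightOneSpectrum (𝓞 L) → ℂ := fun v => if v = v₀ then 1 - Θ.θ v₀ h₀ else 1
  have hloc : ∀ v, (Θ.loc v).whit (Θ.θ v) (Θ.unitLevel v) (((F.kill hN).twist α α.ne_zero).f v) =
      c v * (Θ.loc v).whit (Θ.θ v) (Θ.unitLevel v) (G.f v) := fun v => by
    rw [Fam.twist_f, show (F.kill hN).f v = Θ.killVec v₀ h₀ v (F.f v) from rfl, opD_killVec,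
      ← Fam.twist_f F α α.ne_zero v, whit_killVec hN (G.isTest v) (G.isInv v)]
  have hc : (Function.mulSupport c).Finite :=
    (Set.finite_singleton v₀).subset fun v hv => by
      by_contra h
      exact hv (if_neg h)
  rw [Fam.whit, Fam.whit, finprod_congr hloc, finprod_mul_distrib hc G.eventually_whit,
    finprod_eq_single c v₀ fun v hv => if_neg hv]
  simp [c]

/-- **The lift is invariant under the Weyl element** for twisted `θ`: the projection killing the
origin multiplies the lift by `1 - θ h ≠ 0`. -/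
theorem Fam.lift_weyl (F : Θ.Fam) (htw : Θ.IsTwisted)
    (hF : F.IsBdd) (P : InfPts L) : F.weyl.lift (wPt P) = F.lift P := by
  obtain ⟨v₀, h₀, hN, hθ⟩ := htw
  change (Θ.loc v₀).N h₀ = 1 at hN
  have hz : ∀ G : Θ.Fam, (G.kill hN).Zero0 := fun G => ⟨v₀, fun u _ => G.kill_zero hN⟩
  have hz' : (F.kill hN).weyl.Zero0 := ⟨v₀, fun u hu => by
    rw [← F.kill_weyl hN v₀ 0 u hu]; exact F.weyl.kill_zero hN⟩
  have h := (F.kill hN).lift_weyl_zero0 (hF.kill hN) (hz F) (hF.kill hN).weyl hz' P
  rw [← Fam.lift_congr (fun v => F.kill_weyl hN v) (wPt P), Fam.lift_kill, Fam.lift_kill] at h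
  exact mul_left_cancel₀ (sub_ne_zero.2 (Ne.symm hθ)) h

variable (Θ) in
/-- The test vectors at the special places, with a level fixing them. -/
structure Vec where
  /-- the vector at a special place -/
  vec : HeightOneSpectrum (𝓞 L) → M → L → ℂ
  isTest : ∀ v ∈ Θ.S, (Θ.loc v).IsTest (vec v)
  isInv : ∀ v ∈ Θ.S, (Θ.loc v).IsInv (Θ.unitLevel v) (vec v)
  bdd : ∀ v ∈ Θ.S, Loc.Bdd (vec v)
  /-- the level -/
  lvl : Level L
  isCongr : lvl.IsCongr
  loc_out : ∀ v ∉ Θ.S, lvl.loc v = locK v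
  fix : ∀ v ∈ Θ.S, ∀ u ∈ lvl.loc v, ∃ k : GL (Fin 2) L,
    (Matrix.ProjGenLinGroup.mk k : G2 L) = u ∧ Agree ((Θ.loc v).wAct (Θ.χ v) k (vec v)) (vec v)
  ne_zero : ∀ v ∈ Θ.S, ∃ g : GL (Fin 2) L,
    (Θ.loc v).whit (Θ.θ v) (Θ.unitLevel v) ((Θ.loc v).wAct (Θ.χ v) g (vec v)) ≠ 0

namespace Vec

variable (Φ : Θ.Vec)

open Classical in
/-- The test vector at `v`. -/
def vec₀ (v : HeightOneSpectrum (𝓞 L)) : M → L → ℂ :=
  if v ∈ Θ.S then Φ.vec v else (Θ.loc v).sph

section

omit [IsTotallyComplex L]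

/-- The base vector at a good place is spherical. -/
lemma vec₀_sph {v : HeightOneSpectrum (𝓞 L)} (hv : v ∉ Θ.S) : Φ.vec₀ v = (Θ.loc v).sph :=
  if_neg hv

/-- The base vector at a special place. -/
lemma vec₀_mem {v : HeightOneSpectrum (𝓞 L)} (hv : v ∈ Θ.S) : Φ.vec₀ v = Φ.vec v := if_pos hv

/-- The family of test vectors. -/
def baseFam : Θ.Fam where
  f := Φ.vec₀
  isTest v := by
    by_cases hv : v ∈ Θ.S
    · rw [Φ.vec₀_mem hv]; exact Φ.isTest v hv
    · rw [Φ.vec₀_sph hv]; exact isTest_sph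
  isInv v := by
    by_cases hv : v ∈ Θ.S
    · rw [Φ.vec₀_mem hv]; exact Φ.isInv v hv
    · rw [Φ.vec₀_sph hv]; exact Θ.isInv_sph v
  almost := Θ.eventually_not_mem.mono fun v hv => by rw [Φ.vec₀_sph hv]; exact Agree.refl _

lemma isBdd_baseFam : Φ.baseFam.IsBdd := fun v => by
  classical
  show Loc.Bdd (Φ.vec₀ v)
  by_cases hv : v ∈ Θ.S
  · rw [Φ.vec₀_mem hv]; exact Φ.bdd v hv
  · rw [Φ.vec₀_sph hv]
    refine ⟨1, fun x u _ => ?_⟩
    simp only [sph, ind_zero_eq]
    split_ifs <;> simp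

/-- A matrix over the level fixes the test vector. -/
lemma exists_fix {v : HeightOneSpectrum (𝓞 L)} {u : G2 L} (hu : u ∈ Φ.lvl.loc v) :
    ∃ k : GL (Fin 2) L, (Matrix.ProjGenLinGroup.mk k : G2 L) = u ∧
      Agree ((Θ.loc v).wAct (Θ.χ v) k (Φ.vec₀ v)) (Φ.vec₀ v) := by
  by_cases hv : v ∈ Θ.S
  · rw [Φ.vec₀_mem hv]; exact Φ.fix v hv u hu
  · rw [Φ.loc_out v hv] at hu
    obtain ⟨k, hk, rfl⟩ := hu
    rw [Φ.vec₀_sph hv]
    exact ⟨k, rfl, Θ.wAct_sph hv hk.1 hk.2⟩

/-- The local Whittaker function of the orbit. -/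
def wLoc (v : HeightOneSpectrum (𝓞 L)) (α : L) (g : GL (Fin 2) L) : ℂ :=
  (Θ.loc v).whit (Θ.θ v) (Θ.unitLevel v)
    ((Θ.loc v).opD (Θ.χ v) α 1 ((Θ.loc v).wAct (Θ.χ v) g (Φ.vec₀ v)))

end

/-- The local Whittaker function lives on cosets. -/
theorem wLoc_congr {v : HeightOneSpectrum (𝓞 L)} {α : L} (hα : α ≠ 0) {g g' : GL (Fin 2) L}
    (h : (Matrix.ProjGenLinGroup.mk g : G2 L)⁻¹ * Matrix.ProjGenLinGroup.mk g' ∈ Φ.lvl.loc v) :
    Φ.wLoc v α g' = Φ.wLoc v α g := by
  classical
  obtain ⟨k, hmk, hk⟩ := Φ.exists_fix h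
  rw [← map_inv, ← map_mul] at hmk
  obtain ⟨z, hz⟩ := Matrix.ProjGenLinGroup.mk_eq_mk_iff.1 hmk
  have hg' : g' = upper (z : L) 0 (z : L) z.ne_zero z.ne_zero * (g * k) := by
    rw [← upper_scalar, eq_comm]
    refine (Eq.trans ?_ (mul_inv_cancel_left g g'))
    rw [← hz, ← mul_assoc g]
    refine Units.ext ?_
    ext i j
    fin_cases i <;> fin_cases j <;>
      simp [Matrix.GeneralLinearGroup.coe_scalar, Matrix.mul_apply, Fin.sum_univ_two] <;> ring
  have hn := Φ.baseFam.nice v
  have hag : Agree ((Θ.loc v).wAct (Θ.χ v) (g * k) (Φ.vec₀ v))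
      ((Θ.loc v).wAct (Θ.χ v) g (Φ.vec₀ v)) :=
    (wAct_mul (Θ.isSign v) g k hn).trans (hk.wAct g)
  unfold wLoc
  rw [hg', upper_mul, zero_div, opN_zero, opD_mul, mul_comm α, mul_comm (1 : L), ← opD_mul,
    whit_scalar ?_ z.ne_zero, whit_congr (hag.opD hα one_ne_zero)]
  exact ((Φ.baseFam.act _ (isAdelic_const (g * k))).twist α hα).isInv v |>.agree
    (by rw [Fam.twist_f]; exact Agree.refl _)

/-- The orbit of the base family. -/
def orbit (h : HeightOneSpectrum (𝓞 L) → GL (Fin 2) L) (hh : IsAdelic h) : Θ.Fam :=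
  Φ.baseFam.act h hh

omit [IsTotallyComplex L] in
/-- The Whittaker values of a translate. -/
lemma orbit_whit (h : HeightOneSpectrum (𝓞 L) → GL (Fin 2) L) (hh : IsAdelic h) (α : Lˣ) :
    ((Φ.orbit h hh).twist α α.ne_zero).whit = ∏ᶠ v, Φ.wLoc v α (h v) :=
  finprod_congr fun v => by rw [Fam.twist_f]; rfl

/-- Boundedness of the orbit. -/
theorem orbit_isBdd (h : HeightOneSpectrum (𝓞 L) → GL (Fin 2) L) (hh : IsAdelic h) :
    (Φ.orbit h hh).IsBdd :=
  Φ.isBdd_baseFam.act hh

/-- **Automorphy of the lifts**: translating the orbit and the point by an element of `GL₂(L)`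
preserves the lift (upper triangular matrices and the Weyl element generate). -/
theorem orbit_lift_smul (htw : Θ.IsTwisted)
    (g : GL (Fin 2) L) :
    ∀ (h : HeightOneSpectrum (𝓞 L) → GL (Fin 2) L) (hh : IsAdelic h) (P : InfPts L),
      (Φ.orbit (fun v => g * h v) ((isAdelic_const g).mul hh)).lift (gPt g P) =
        (Φ.orbit h hh).lift P := by
  induction g using LocQuad.induction_wAct with
  | h1 =>
    intro h hh P
    rw [gPt_one]
    exact Fam.lift_congr (fun v => by
      show Agree ((Θ.loc v).wAct (Θ.χ v) (1 * h v) _) _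
      rw [one_mul]; exact Agree.refl _) P
  | hu a b e ha he g ih =>
    intro h hh P
    rw [gPt_mul, ← ih h hh P]
    set Q := gPt g P
    set G := Φ.orbit (fun v => g * h v) ((isAdelic_const g).mul hh)
    set G' := Φ.orbit (fun v => upper a b e ha he * g * h v)
      ((isAdelic_const (upper a b e ha he * g)).mul hh)
    have hd : a / e ≠ 0 := div_ne_zero ha he
    set δ : Lˣ := Units.mk0 (a / e) hd
    have hterm : ∀ α : Lˣ, G'.expTerm (gPt (upper a b e ha he) Q) α = G.expTerm Q (α * δ) := by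
      intro α
      set c := (α : L) * b / e
      have hloc : ∀ v, (G'.twist α α.ne_zero).f v =
          (Θ.loc v).opN c ((Θ.loc v).opD (Θ.χ v) e e
            ((G.twist ((α * δ : Lˣ) : L) (α * δ).ne_zero).f v)) := fun v => by
        rw [Fam.twist_f, Fam.twist_f]
        show (Θ.loc v).opD (Θ.χ v) _ 1 ((Θ.loc v).wAct (Θ.χ v) _ _) = _
        beta_reduce
        rw [mul_assoc (upper a b e ha he), upper_mul, opD_opN one_ne_zero, opD_mul, opD_mul]
        simp only [δ, Units.val_mul, Units.val_mk0]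
        rw [show e * ((α : L) * (a / e)) = (α : L) * a by field_simp, mul_one, one_mul,
          show (α : L) * (b / e) / 1 = c by simp [c, mul_div_assoc]]
        rfl
      have hw : (G'.twist α α.ne_zero).whit =
          (∏ᶠ v, (Θ.loc v).ψ c) * (G.twist ((α * δ : Lˣ) : L) (α * δ).ne_zero).whit := by
        rw [Fam.whit, Fam.whit, ← finprod_mul_distrib ?_
          (Fam.eventually_whit (G.twist ((α * δ : Lˣ) : L) (α * δ).ne_zero))]
        · exact finprod_congr fun v => by
            rw [hloc, whit_opN, whit_scalar ((G.twist _ _).isInv v) he]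
        · exact (eventually_cofinite.1 (eventually_valuation_le_one (L := L) c)).subset
            fun v hv hle => hv (LocalChar.ψloc_eq_one hle)
      have hinf : winfPts (twPts α (gPt (upper a b e ha he) Q)) =
          (∏ w : InfinitePlace L, ψC (w.embedding c)) * winfPts (twPts (α * δ) Q) := by
        simp only [winfPts, ← Finset.prod_mul_distrib]
        refine Finset.prod_congr rfl fun w _ => ?_
        obtain ⟨z1, t1⟩ := twPts_apply α (gPt (upper a b e ha he) Q) w
        obtain ⟨z2, t2⟩ := twPts_apply (α * δ) Q w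
        obtain ⟨z0, t0⟩ := gPt_upper ha he (b := b) Q w
        have he' : w.embedding e ≠ 0 := (map_ne_zero _).2 he
        have ez : (twPts α (gPt (upper a b e ha he) Q) w).z =
            w.embedding c + (twPts (α * δ) Q w).z := by
          rw [z1, z2, z0]
          simp only [c, δ, Units.val_mul, Units.val_mk0, map_mul, map_div₀]
          field_simp
          ring
        have et : (twPts α (gPt (upper a b e ha he) Q) w).t = (twPts (α * δ) Q w).t := by
          rw [t1, t2, t0]
          simp only [δ, Units.val_mul, Units.val_mk0, map_mul, map_div₀, norm_div,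
            InfinitePlace.norm_embedding_eq]
          ring
        rw [winf, winf, ez, et, ψC_add]
        ring
      rw [Fam.expTerm, Fam.expTerm, hw, hinf]
      linear_combination ((G.twist ((α * δ : Lˣ) : L) (α * δ).ne_zero).whit *
        winfPts (twPts (α * δ) Q)) * Θ.finprod_ψ_mul c
    show G'.lift _ = G.lift Q
    rw [Fam.lift, Fam.lift, tsum_congr hterm]
    exact (Equiv.mulRight δ).tsum_eq (G.expTerm Q)
  | hw g ih =>
    intro h hh P
    rw [gPt_mul, gPt_wMat, ← ih h hh P]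
    set G := Φ.orbit (fun v => g * h v) ((isAdelic_const g).mul hh)
    set G' := Φ.orbit (fun v => LocQuad.wMat * g * h v)
      ((isAdelic_const (LocQuad.wMat * g)).mul hh)
    have hag : ∀ v, Agree (G'.f v) (G.weyl.f v) := fun v => by
      show Agree ((Θ.loc v).wAct (Θ.χ v) _ _) _
      beta_reduce
      rw [mul_assoc, Fam.weyl_f, ← wAct_wMat (D := Θ.loc v) (χ := Θ.χ v)]
      exact wAct_mul (Θ.isSign v) _ _ (Φ.baseFam.nice v)
    show G'.lift _ = _
    rw [Fam.lift_congr hag]
    exact G.lift_weyl htw (Φ.orbit_isBdd _ _) _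

end Vec

end ThetaCore

end FermatAgent.LT2.Theta
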