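import Fermat.Agent.LT.Theta.Form
import Fermat.Agent.LT2.Theta.Orbit

/-!
# The theta form on the adelic space: invariance, continuity, boundedness
-/

set_option autoImplicit false

noncomputable section

open IsDedekindDomain NumberField Filter
open scoped MatrixGroups Topology

namespace FermatAgent.LT2.Theta

open FermatAgent.LT FermatAgent.LT.Theta
open FermatAgent.LT.Theta.LocQuad FermatAgent.LT.Theta.Coord FermatAgent.LT.Theta.Arch
  FermatAgent.LT.Theta.ArchW
open FermatAgent.LT2.Theta.ThetaCore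

variable {L : Type*} [Field L] [NumberField L]

variable [IsTotallyComplex L] {M : Type*} [Field M] [Algebra L M]
  [Algebra.IsQuadraticExtension L M]

namespace ThetaCore

namespace Vec

variable {Θ : ThetaCore L M} (Φ : Θ.Vec)

/-- The theta form: at `(P, a K)` the lift at `P` of the translate by `a` of the test family. -/
def phi (x : Space Φ.lvl) : ℂ :=
  (Φ.orbit (adelRep (LT.Whit.cls_surjective x.2).choose) (isAdelic_adelRep _)).lift x.1

lemma orbit_lift_congr (h h' : HeightOneSpectrum (𝓞 L) → GL (Fin 2) L) (hh : IsAdelic h)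
    (hh' : IsAdelic h')
    (he : ∀ v, (Matrix.ProjGenLinGroup.mk (h v) : G2 L)⁻¹ * Matrix.ProjGenLinGroup.mk (h' v) ∈
      Φ.lvl.loc v) (P : InfPts L) :
    (Φ.orbit h' hh').lift P = (Φ.orbit h hh).lift P :=
  Fam.lift_congr_whit (fun α => by
    rw [orbit_whit, orbit_whit]
    exact finprod_congr fun v => Φ.wLoc_congr α.ne_zero (he v)) P

/-- The form through any representatives. -/
theorem phi_eq (P : InfPts L) (a : LT.Whit.adelGrp L) (h : HeightOneSpectrum (𝓞 L) → GL (Fin 2) L)
    (hh : IsAdelic h) (he : ∀ v, (Matrix.ProjGenLinGroup.mk (h v) : G2 L) = a.1 v) :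
    Φ.phi (P, LT.Whit.cls Φ.lvl a) = (Φ.orbit h hh).lift P := by
  refine Φ.orbit_lift_congr h _ hh _ (fun v => ?_) P
  rw [he v, mk_adelRep, ← QuotientGroup.eq]
  exact (congrFun (congrArg Subtype.val
    (LT.Whit.cls_surjective (LT.Whit.cls Φ.lvl a)).choose_spec) v).symm

/-- **Automorphy**: for twisted `θ` the form is invariant under `PGL₂(L)`. -/
theorem phi_smul (htw : Θ.IsTwisted)
    (g : G2 L) (x : Space Φ.lvl) :
    Φ.phi (g • x) = Φ.phi x := by
  obtain ⟨P, c⟩ := x
  obtain ⟨a, rfl⟩ := LT.Whit.cls_surjective c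
  obtain ⟨g, rfl⟩ := Matrix.ProjGenLinGroup.mk_surjective g
  show Φ.phi (_, _) = _
  rw [← LT.Whit.cls_glob_mul,
    Φ.phi_eq _ (LT.Whit.glob (Matrix.ProjGenLinGroup.mk g) * a) (fun v => g * adelRep a v)
      ((isAdelic_const g).mul (isAdelic_adelRep a))
      (fun v => by rw [map_mul, mk_adelRep]; rfl),
    Φ.phi_eq P a (adelRep a) (isAdelic_adelRep a) (mk_adelRep a)]
  exact Φ.orbit_lift_smul htw g _ _ P

omit [IsTotallyComplex L] in
/-- Twisting points is continuous. -/
lemma continuous_twPts (α : Lˣ) : Continuous (twPts (L := L) α) :=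
  continuous_pi fun w => (H3.continuous_smul_const _).comp (continuous_apply w)

omit [IsTotallyComplex L] in
/-- The Whittaker factor at infinity is continuous. -/
lemma continuous_winfPts : Continuous (winfPts (L := L)) :=
  continuous_finsetProd _ fun w _ => continuous_winf.comp (continuous_apply w)

/-- Continuity at infinity. -/
theorem continuous_phi (c : FinCoset Φ.lvl) : Continuous fun P : InfPts L => Φ.phi (P, c) := by
  set F := Φ.orbit (adelRep (LT.Whit.cls_surjective c).choose) (isAdelic_adelRep _)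
  show Continuous fun P => ∑' α, F.expTerm P α
  refine continuous_iff_continuousAt.2 fun P => ?_
  obtain ⟨t₀, h₀, ht⟩ := exists_lower_bound P
  obtain ⟨g, hg, hle⟩ := F.exists_majorant (Φ.orbit_isBdd _ _) (half_pos h₀)
  have hopen : IsOpen {Q : InfPts L | ∀ w, t₀ / 2 < (Q w).t} := by
    simp only [Set.ofPred_forall]
    exact isOpen_iInter_of_finite fun w =>
      isOpen_lt continuous_const (H3.continuous_t.comp (continuous_apply w))
  have hon : ContinuousOn (fun Q => ∑' α, F.expTerm Q α) {Q : InfPts L | ∀ w, t₀ / 2 < (Q w).t} :=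
    continuousOn_tsum (fun α => (continuous_const.mul
        (continuous_winfPts.comp (continuous_twPts α))).continuousOn) hg
      fun α Q hQ => (F.norm_expTerm_le Q α).trans (hle Q (fun w => (hQ w).le) α)
  exact hon.continuousAt (hopen.mem_nhds fun w => (half_lt_self h₀).trans_le (ht w))

/-- **The form is bounded**: invariance reduces this to a Siegel set, where the expansion has a
majorant. -/
theorem exists_bound_phi (htw : Θ.IsTwisted) :
    ∃ B : ℝ, ∀ x : Space Φ.lvl, ‖Φ.phi x‖ ≤ B := by
  classical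
  obtain ⟨C, B, c, -, hc, hSieg⟩ := exists_siegel Φ.isCongr
  choose g hg hle using fun d : FinCoset Φ.lvl =>
    (Φ.orbit (adelRep (LT.Whit.cls_surjective d).choose) (isAdelic_adelRep _)).exists_majorant
      (Φ.orbit_isBdd _ _) hc
  refine ⟨∑ d ∈ C, |∑' α, g d α|, fun x => ?_⟩
  obtain ⟨γ, hγ⟩ := hSieg x
  rw [← Φ.phi_smul htw γ x]
  obtain ⟨hbox, hC⟩ := hγ
  set y := γ • x
  refine le_trans ?_ (Finset.single_le_sum (f := fun d => |∑' α, g d α|)
    (fun d _ => abs_nonneg _) hC)
  exact (tsum_of_norm_bounded (hg y.2).hasSum fun α =>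
    (Fam.norm_expTerm_le _ _ α).trans (hle y.2 y.1 (fun w => (hbox w).2.1) α)).trans (le_abs_self _)

end Vec

end ThetaCore

end FermatAgent.LT2.Theta
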