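import Fermat.Agent.LT2.Theta.NonZero
import Fermat.Agent.LT2.Theta.Local
import Fermat.Agent.LT2.Whit.Local

/-!
# The theta series: a form of deep level

Automorphic induction from the quadratic extension `M/L`: a character `θ` of the ideles of `M`,
nontrivial on some norm one torus, gives a bounded, left invariant form on `PGL₂` over `L`, of
deep level at `Θ.S` and maximal level elsewhere, with the radial eigenvalues of the height, Hecke
eigenvalues `0` at inert and `√q (θ_v ϖ + θ_v ϖ̄)` at split places, and nonzero lift.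
-/

set_option autoImplicit false

noncomputable section

open IsDedekindDomain NumberField Filter MeasureTheory WithZero
open scoped MatrixGroups ContDiff

namespace FermatAgent.LT2.Theta

open FermatAgent.LT FermatAgent.LT.Theta
open FermatAgent.LT.Theta.LocQuad FermatAgent.LT.Theta.Coord FermatAgent.LT.Theta.Arch
  FermatAgent.LT.Theta.ArchW
open FermatAgent.LT2.Theta.ThetaCore FermatAgent.LT2.Theta.ThetaCore.Vec

variable {L : Type*} [Field L] [NumberField L] [IsTotallyComplex L] {M : Type*} [Field M]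
  [Algebra L M] [Algebra.IsQuadraticExtension L M]

namespace ThetaDatum

variable (Θ : ThetaDatum L M)

lemma exists_fix (v : HeightOneSpectrum (𝓞 L)) :
    ∃ m : ℕ, ∀ g : GL (Fin 2) L, (∀ i j, v.valuation L ((g.val - 1) i j) ≤ exp (-(m : ℤ))) →
      Agree ((Θ.loc v).wAct (Θ.χ v) g (Loc.tvec (Θ.loc v) (Θ.θ v) (Θ.depth v)))
        (Loc.tvec (Θ.loc v) (Θ.θ v) (Θ.depth v)) :=
  Loc.exists_wAct_fix (Θ.one_le_depth v) (fun _ hy => Θ.θ_depth v hy) (Θ.isSign v)
    fun _ he => Θ.θ_base v he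

/-- The depth of the level. -/
def lvlDepth : ℕ := Θ.S.sup fun v => (Θ.exists_fix v).choose

/-- The level: deep congruence at the special places, maximal elsewhere. -/
def lvl : Level L := Whit.deepLvl Θ.S Θ.lvlDepth

/-- The level of the theta series is a congruence level. -/
lemma isCongr_lvl : Θ.lvl.IsCongr := fun v =>
  ⟨Θ.lvlDepth, fun g hg hs => Whit.locKN_le_deepLvl v
    ⟨g, ⟨hg, fun i j => (hs i j).trans (exp_le_exp.2 (by omega))⟩, rfl⟩⟩

/-- The test vectors with the deep level. -/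
abbrev base : Θ.Vec where
  vec v := Loc.tvec (Θ.loc v) (Θ.θ v) (Θ.depth v)
  isTest v _ := Loc.isTest_tvec (Θ.one_le_depth v) fun _ hy => Θ.θ_depth v hy
  isInv v _ := Loc.isInv_tvec (Θ.one_le_depth v) fun _ hh => hh
  bdd v _ := Loc.bdd_tvec (Θ.norm_θ v)
  lvl := Θ.lvl
  isCongr := Θ.isCongr_lvl
  loc_out v hv := Whit.deepLvl_loc_of_notMem hv
  fix v hv u hu := by
    classical
    simp only [lvl, Whit.deepLvl, if_pos hv] at hu
    obtain ⟨k, hk, rfl⟩ := hu
    refine ⟨k, rfl, (Θ.exists_fix v).choose_spec k fun i j => (hk.2 i j).trans (exp_le_exp.2 ?_)⟩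
    have : (Θ.exists_fix v).choose ≤ Θ.lvlDepth :=
      Finset.le_sup (f := fun v => (Θ.exists_fix v).choose) hv
    omega
  ne_zero v _ := ⟨1, by
    rw [wAct_one]
    exact Loc.whit_tvec_ne_zero (Θ.one_le_depth v) (fun _ hy => Θ.θ_depth v hy)
      (Θ.isTorusLevel v) (fun _ hh => hh.1) fun _ hx => Θ.θ_ne_zero v hx⟩

/-- The theta form. -/
abbrev phi : Space Θ.lvl → ℂ := Θ.base.phi

/-- **Automorphy**: the form is invariant under `PGL₂(L)`. -/
theorem phi_smul (g : G2 L) (x : Space Θ.lvl) : Θ.phi (g • x) = Θ.phi x :=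
  Θ.base.phi_smul Θ.twist g x

/-- The form is bounded on the whole adelic space. -/
theorem exists_bound_phi : ∃ B : ℝ, ∀ x : Space Θ.lvl, ‖Θ.phi x‖ ≤ B :=
  Θ.base.exists_bound_phi Θ.twist

/-- The form is measurable. -/
theorem measurable_phi : Measurable Θ.phi := Θ.base.measurable_phi

/-- **The radial eigenvalues**: the operator of a radial kernel at an infinite place acts by the
eigenvalue it has on the height `t`. -/
theorem radialOp_phi_hT (w : InfinitePlace L) {k : ℝ → ℝ} (hk : Continuous k)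
    (hks : HasCompactSupport k) (x : Space Θ.lvl) :
    radialOp w (fun p q => k (H3.coshDist p q)) Θ.phi x = LT.Whit.hT k * Θ.phi x :=
  Θ.base.radialOp_phi_hT w hk hks x

/-- **The Hecke eigenvalue at an inert place** outside `S` is zero. -/
theorem heckeOp_phi_inert {v : HeightOneSpectrum (𝓞 L)} (hv : v ∉ Θ.S)
    (hi : Place.IsInert L M v) (x : Space Θ.lvl) : heckeOp v Θ.phi x = 0 :=
  Θ.base.heckeOp_phi_inert hv hi x

/-- **The Hecke eigenvalue at a split place**: at `v ∉ S` with a prime `ϖ` above it, `T_v` acts by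
`√q (θ_v ϖ + θ_v ϖ̄)`. -/
theorem heckeOp_phi_split {v : HeightOneSpectrum (𝓞 L)} (hv : v ∉ Θ.S) {ϖ : M}
    (h : IsSplitPrime (Θ.loc v) ϖ) (x : Space Θ.lvl) :
    heckeOp v Θ.phi x = (√(Place.qv v : ℝ) : ℂ) *
      (Θ.θ v ϖ + Θ.θ v (Quad.conj L M ϖ)) * Θ.phi x :=
  Θ.base.heckeOp_phi_split hv h x

/-- **Non-vanishing**: the lift of the form to the adelic group is not zero. -/
theorem exists_liftF_phi_ne_zero :
    ∃ (y : InfPts L) (a : LT.Whit.adelGrp L), LT.Whit.liftF Θ.lvl Θ.phi y a ≠ 0 := by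
  obtain ⟨⟨P, c⟩, hne⟩ := Θ.base.exists_phi_ne_zero
  obtain ⟨a, rfl⟩ := LT.Whit.cls_surjective c
  exact ⟨P, a, hne⟩

end ThetaDatum

end FermatAgent.LT2.Theta
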