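import Fermat.Agent.LT.Theta.NonZero
import Fermat.Agent.LT2.Theta.Eigen

/-!
# The theta form does not vanish
-/

set_option autoImplicit false

noncomputable section

open IsDedekindDomain NumberField Filter MeasureTheory WithZero
open scoped MatrixGroups Real Topology

namespace FermatAgent.LT2.Theta

open FermatAgent.LT FermatAgent.LT.Theta
open FermatAgent.LT.Theta.LocQuad FermatAgent.LT.Theta.Coord FermatAgent.LT.Theta.Arch
  FermatAgent.LT.Theta.ArchW
open FermatAgent.LT2.Theta.ThetaCore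

variable {L : Type*} [Field L] [NumberField L] [IsTotallyComplex L] {M : Type*} [Field M]
  [Algebra L M] [Algebra.IsQuadraticExtension L M]

namespace ThetaCore

namespace Vec

variable {Θ : ThetaCore L M} (Φ : Θ.Vec)

omit [IsTotallyComplex L] in
lemma exists_wLoc_ne_zero (v : HeightOneSpectrum (𝓞 L)) :
    ∃ g : GL (Fin 2) L, Φ.wLoc v 1 g ≠ 0 ∧ (v ∉ Θ.S → LocalChar.cond v = 0 → g ∈ locGL v) := by
  classical
  by_cases hv : v ∈ Θ.S
  · obtain ⟨g, hg⟩ := Φ.ne_zero v hv
    refine ⟨g, ?_, fun h => absurd hv h⟩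
    rwa [wLoc, opD_one, Φ.vec₀_mem hv]
  obtain ⟨a, ha, hone⟩ : ∃ a : L, v.valuation L a = exp (Θ.loc v).d ∧
      (LocalChar.cond v = 0 → a = 1) := by
    by_cases hd : LocalChar.cond v = 0
    · refine ⟨1, ?_, fun _ => rfl⟩
      rw [map_one, show (Θ.loc v).d = LocalChar.cond v from rfl, hd, exp_zero]
    · obtain ⟨a, ha⟩ := LocalChar.exists_exp_shift (v := v) (Θ.loc v).d
      exact ⟨a, ha, fun h2 => absurd h2 hd⟩
  have ha0 : a ≠ 0 := fun e => exp_ne_zero (by rw [← ha, e, map_zero])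
  refine ⟨upper a 0 1 ha0 one_ne_zero, ?_, fun _ h2 => ?_⟩
  · rw [wLoc, opD_one, Φ.vec₀_sph hv,
      whit_diag_sph (Θ.unitLevel_eq hv) (fun h hh => ?_) ha (map_one _)]
    · exact inv_ne_zero (Complex.ofReal_ne_zero.2 (Real.sqrt_pos.2 ((Θ.loc v).absv_pos ha0)).ne')
    · rw [← Θ.unitLevel_eq hv] at hh
      exact hh.2
  · obtain rfl := hone h2
    exact ⟨fun i j => by fin_cases i <;> fin_cases j <;> simp [upper_val],
      by simp [upper_val, Matrix.det_fin_two]⟩

/-- **Non-vanishing**: some coefficient of the expansion at a translate is nonzero, so the form is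
not identically zero. -/
theorem exists_phi_ne_zero : ∃ x : Space Φ.lvl, Φ.phi x ≠ 0 := by
  classical
  by_contra! hall
  choose h hne hin using Φ.exists_wLoc_ne_zero
  have hh : IsAdelic h :=
    (Θ.eventually_not_mem.and LocalChar.eventually_cond_eq_zero).mono fun v hv => hin v hv.1 hv.2
  let a : LT.Whit.adelGrp L := ⟨fun v => Matrix.ProjGenLinGroup.mk (h v),
    hh.mono fun v hv => ⟨_, hv, rfl⟩⟩
  let Pz : (InfinitePlace L → ℂ) → InfPts L := fun z w => ⟨z w, 1, one_pos⟩
  set F := Φ.orbit h hh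
  let R : Lˣ → ℂ := fun α =>
    ∏ w : InfinitePlace L, ((J (w (α : L)) : ℝ) : ℂ) * ((w (α : L) : ℝ) : ℂ)
  have hwinf : ∀ z α, winfPts (twPts α (Pz z)) =
      R α * ∏ w : InfinitePlace L, ψC (w.embedding (α : L) * z w) := fun z α => by
    simp only [winfPts, R, ← Finset.prod_mul_distrib]
    refine Finset.prod_congr rfl fun w _ => ?_
    obtain ⟨hz, ht⟩ := twPts_apply α (Pz z) w
    rw [winf, hz, ht]
    simp only [Pz, mul_one]
    ring
  have hz0 : ∀ z : InfinitePlace L → ℂ, ∑' α : Lˣ, Φ.coef h α * R α *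
      ∏ w : InfinitePlace L, ψC (w.embedding (α : L) * z w) = 0 := fun z => by
    have := hall (Pz z, LT.Whit.cls Φ.lvl a)
    rw [Φ.phi_eq (Pz z) a h hh fun v => rfl, Fam.lift] at this
    rw [← this]
    exact tsum_congr fun α => by rw [orbit_expTerm, hwinf, mul_assoc]
  have hsum : Summable fun α => ‖Φ.coef h α * R α‖ := by
    refine ((F.summable_expTerm (Φ.orbit_isBdd h hh) (Pz 0)).norm).congr fun α => ?_
    rw [orbit_expTerm, hwinf]
    simp [ψC_zero]
  have h1 := char_coeff_eq_zero _ hsum hz0 1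
  refine mul_ne_zero ?_ ?_ h1
  · rw [coef, finprod_eq_prod _ (Φ.coef_finite hh 1)]
    exact Finset.prod_ne_zero_iff.2 fun v _ => hne v
  · refine Finset.prod_ne_zero_iff.2 fun w _ => ?_
    simpa using (J_pos one_pos).ne'

end Vec

end ThetaCore

end FermatAgent.LT2.Theta
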